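import Mathlib
import Fermat.Agent.TW.KummerTame
import Fermat.Agent.TW.InertiaField
import Fermat.Agent.Mazur.Radical

set_option autoImplicit false

/-!
# Tame generators of inertia and the tame relation

`A` is a place of `ℚ̄` over `q`, `p ≠ q` a prime, `I ≤ D` the inertia and decomposition groups.

* `IsTameGen A p q σ₀` : `σ₀ ∈ I` moves the `p`-th roots of `q`.
* `IsTameGen.mem_zpowers` : the image of `I` under any level-constant homomorphism to a finite
  `p`-group is generated by the image of `σ₀`.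
* `tame_relation` : `f (φ σ φ⁻¹) = f σ ^ q` for all level-constant `f` on `D` such that `f (I)` is a
  `p`-group.
-/

namespace Fermat.Agent.RTD

open scoped Pointwise
open Fermat.Agent.Frob Fermat.Agent.Minkowski Fermat.Agent.TW

variable {A : ValuationSubring Qbar} {q p : ℕ}

/-- `σ₀` is an element of the inertia group moving the `p`-th roots of `q`. -/
def IsTameGen (A : ValuationSubring Qbar) (p q : ℕ) (σ₀ : GQ) : Prop :=
  σ₀ ∈ A.inertiaSubgroupIn ℚ ∧ ∀ π : Qbar, π ^ p = (q : Qbar) → σ₀ π ≠ π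

/-- Existence of tame generators. -/
theorem exists_isTameGen (hq : q.Prime) (hp : p.Prime) (hA : A.LiesOverPrime q) (hqp : q ≠ p) :
    ∃ σ₀, IsTameGen A p q σ₀ := by
  have hcop : Nat.Coprime q p := (Nat.coprime_primes hq hp).mpr hqp
  have hp0 : p ≠ 0 := hp.ne_zero
  obtain ⟨π, hπ⟩ := IsAlgClosed.exists_pow_nat_eq ((q : ℕ) : Qbar) hp.pos
  have hqQ : ((q : ℕ) : Qbar) ≠ 0 := by exact_mod_cast hq.ne_zero
  have hπ0 : π ≠ 0 := by
    rintro rfl
    rw [zero_pow hp0] at hπ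
    exact hqQ hπ.symm
  have h1 : ∃ σ₀ ∈ A.inertiaSubgroupIn ℚ, σ₀ π ≠ π := by
    by_contra hcon
    push Not at hcon
    obtain ⟨n, hn⟩ := exists_valuation_eq_zpow_of_fixed hq hA hcon hπ0
    have h2 := congrArg A.valuation hπ
    rw [map_pow, hn, ← zpow_natCast, ← zpow_mul] at h2
    have h3 : n * (p : ℤ) = 1 := by
      apply Fermat.Agent.Mazur.zpow_valuation_inj hq hA
      rw [h2, zpow_one]
    have h4 := Int.eq_one_or_neg_one_of_mul_eq_one' h3
    have h5 := hp.two_le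
    omega
  obtain ⟨σ₀, hσ₀, hne⟩ := h1
  refine ⟨σ₀, hσ₀, fun π' hπ' h => hne ?_⟩
  have hπ'0 : π' ≠ 0 := by
    rintro rfl
    rw [zero_pow hp0] at hπ'
    exact hqQ hπ'.symm
  have h2 : (π / π') ^ p = 1 := by
    rw [div_pow, hπ, hπ', div_self hqQ]
  have h3 := Fermat.Agent.GalRep.inertia_fix_rootOfUnity hA hcop hp0 hσ₀ h2
  rw [map_div₀, h, div_left_inj' hπ'0] at h3
  exact h3

/-- A level-constant homomorphism to a finite `p`-group: membership in a maximal subgroup. -/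
theorem mem_coatom_iff (hq : q.Prime) [hp : Fact p.Prime] (hA : A.LiesOverPrime q)
    (hqp : q ≠ p) {H : Type*} [Group H] [Finite H] (hH : IsPGroup p H)
    (f : A.inertiaSubgroupIn ℚ →* H) (hf : Function.Surjective f)
    (L : IntermediateField ℚ Qbar) [FiniteDimensional ℚ L]
    (hL : ∀ i : A.inertiaSubgroupIn ℚ, (∀ x ∈ L, (i : GQ) x = x) → f i = 1)
    {M : Subgroup H} (hM : IsCoatom M) {π : Qbar} (hπ : π ^ p = (q : Qbar))
    (i : A.inertiaSubgroupIn ℚ) : f i ∈ M ↔ (i : GQ) π = π := by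
  classical
  have hcop : Nat.Coprime q p := (Nat.coprime_primes hq hp.out).mpr hqp
  have hp0 : p ≠ 0 := hp.out.ne_zero
  have hqQ : ((q : ℕ) : Qbar) ≠ 0 := by exact_mod_cast hq.ne_zero
  have hπ0 : π ≠ 0 := by
    rintro rfl
    rw [zero_pow hp0] at hπ
    exact hqQ hπ.symm
  have hcardμ : Nat.card (rootsOfUnity p Qbar) = p := by
    obtain ⟨ζ, hζ⟩ := HasEnoughRootsOfUnity.exists_primitiveRoot Qbar p
    exact hζ.card_rootsOfUnity
  have hMn : M.Normal := normal_of_coatom_of_isPGroup hH hM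
  have hcard := card_quotient_of_coatom hH hM
  let e : (H ⧸ M) ≃* rootsOfUnity p Qbar := mulEquivOfPrimeCardEq hcard hcardμ
  let a : A.inertiaSubgroupIn ℚ →* Qbarˣ :=
    (rootsOfUnity p Qbar).subtype.comp (e.toMonoidHom.comp ((QuotientGroup.mk' M).comp f))
  have ha : ∀ i, a i = 1 ↔ f i ∈ M := by
    intro i
    rw [← QuotientGroup.eq_one_iff (N := M)]
    constructor
    · intro h
      have h1 : e (QuotientGroup.mk' M (f i)) = 1 := Subtype.ext h
      rwa [EmbeddingLike.map_eq_one_iff] at h1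
    · intro h
      have h1 : e (QuotientGroup.mk' M (f i)) = 1 := by
        rw [EmbeddingLike.map_eq_one_iff]; exact h
      exact congrArg Subtype.val h1
  have hap : ∀ i, a i ^ p = 1 := fun i => (e (QuotientGroup.mk' M (f i))).2
  let h : GQ → Qbar := fun g => if hg : g ∈ A.inertiaSubgroupIn ℚ then (a ⟨g, hg⟩ : Qbar) else 1
  have hh : ∀ i : A.inertiaSubgroupIn ℚ, h i = a i := fun i => by
    simp only [h, dif_pos i.2]
  obtain ⟨n, hn⟩ := kummer_inertia hq hA hcop hp0 hπ h (fun i hi => by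
      rw [hh ⟨i, hi⟩, ← Units.val_pow_eq_pow_val, hap, Units.val_one])
    (fun i hi j hj => by
      have h1 := hh (⟨i, hi⟩ * ⟨j, hj⟩)
      rw [map_mul, Units.val_mul, ← hh, ← hh] at h1
      exact h1) L (fun i hi hfix => by
      rw [hh ⟨i, hi⟩, (ha ⟨i, hi⟩).mpr, Units.val_one]
      rw [hL ⟨i, hi⟩ hfix]
      exact one_mem _)
  have hn' : ¬ (p : ℤ) ∣ n := by
    rintro ⟨m, rfl⟩
    apply hM.1
    rw [eq_top_iff]
    intro y _
    obtain ⟨i, rfl⟩ := hf y
    rw [← ha, ← Units.val_inj, Units.val_one, ← hh, hn i i.2, zpow_mul, zpow_natCast,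
      chi_pow π hπ0 hπ, one_zpow]
  rw [← div_eq_one_iff_eq hπ0, ← ha, ← Units.val_inj, Units.val_one, ← hh, hn i i.2]
  constructor
  · intro h1
    have hco : IsCoprime (p : ℤ) n :=
      ((Nat.prime_iff_prime_int.mp hp.out).coprime_iff_not_dvd).mpr hn'
    obtain ⟨u, v, huv⟩ := hco
    calc (i : GQ) π / π = ((i : GQ) π / π) ^ (u * p + v * n) := by rw [huv, zpow_one]
      _ = ((((i : GQ) π / π) ^ p) ^ u) * ((((i : GQ) π / π) ^ n) ^ v) := by
        have h0 : (i : GQ) π / π ≠ 0 := div_ne_zero (by rwa [Ne, map_eq_zero]) hπ0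
        rw [zpow_add₀ h0, mul_comm u, mul_comm v, zpow_mul, zpow_mul, zpow_natCast]
      _ = 1 := by rw [chi_pow π hπ0 hπ, h1, one_zpow, one_zpow, one_mul]
  · intro h1
    rw [h1, one_zpow]

/-- The image of a subgroup of `GQ` by a level-constant homomorphism is finite. -/
lemma finite_range_of_level {D : Subgroup GQ} {H : Type*} [Group H] (f : D →* H)
    (L : IntermediateField ℚ Qbar) [FiniteDimensional ℚ L]
    (hL : ∀ i : D, (∀ x ∈ L, (i : GQ) x = x) → f i = 1) : Finite f.range := by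
  classical
  let res : D → (L →ₐ[ℚ] Qbar) := fun g => ((g : GQ) : Qbar →ₐ[ℚ] Qbar).comp L.val
  have hfac : ∀ g g' : D, res g = res g' → f g = f g' := by
    intro g g' h
    have h1 : f (g'⁻¹ * g) = 1 := by
      refine hL _ fun x hx => ?_
      have h2 : (g : GQ) x = (g' : GQ) x := AlgHom.congr_fun h ⟨x, hx⟩
      show (g' : GQ).symm ((g : GQ) x) = x
      rw [h2, AlgEquiv.symm_apply_apply]
    rw [map_mul, map_inv] at h1
    exact (inv_mul_eq_one.mp h1).symm
  have hsub : (f.range : Set H) ⊆ Set.range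
      (fun s : L →ₐ[ℚ] Qbar => if h : ∃ g : D, res g = s then f h.choose else 1) := by
    rintro _ ⟨g, rfl⟩
    refine ⟨res g, ?_⟩
    have h : ∃ g' : D, res g' = res g := ⟨g, rfl⟩
    simp only [dif_pos h]
    exact hfac _ _ h.choose_spec
  exact ((Set.finite_range _).subset hsub).to_subtype

/-- The image of the inertia group is generated by a tame generator. -/
theorem IsTameGen.mem_zpowers (hq : q.Prime) [hp : Fact p.Prime] (hA : A.LiesOverPrime q)
    (hqp : q ≠ p) {σ₀ : GQ} (hσ₀ : IsTameGen A p q σ₀) {H : Type*} [Group H]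
    (f : A.inertiaSubgroupIn ℚ →* H) (hH : IsPGroup p f.range)
    (L : IntermediateField ℚ Qbar) [FiniteDimensional ℚ L]
    (hL : ∀ i : A.inertiaSubgroupIn ℚ, (∀ x ∈ L, (i : GQ) x = x) → f i = 1)
    (τ : A.inertiaSubgroupIn ℚ) : f τ ∈ Subgroup.zpowers (f ⟨σ₀, hσ₀.1⟩) := by
  have := finite_range_of_level f L hL
  let g : A.inertiaSubgroupIn ℚ →* f.range := f.rangeRestrict
  have hg : Function.Surjective g := f.rangeRestrict_surjective
  have hgL : ∀ i : A.inertiaSubgroupIn ℚ, (∀ x ∈ L, (i : GQ) x = x) → g i = 1 := fun i hi =>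
    Subtype.ext (hL i hi)
  obtain ⟨π, hπ⟩ := IsAlgClosed.exists_pow_nat_eq ((q : ℕ) : Qbar) hp.out.pos
  have htop : Subgroup.zpowers (g ⟨σ₀, hσ₀.1⟩) = ⊤ := by
    by_contra hne
    obtain ⟨M, hM, hle⟩ := (eq_top_or_exists_le_coatom _).resolve_left hne
    have h1 := (mem_coatom_iff hq hA hqp hH g hg L hgL hM hπ ⟨σ₀, hσ₀.1⟩).mp
      (hle (Subgroup.mem_zpowers _))
    exact hσ₀.2 π hπ h1
  have h2 : g τ ∈ Subgroup.zpowers (g ⟨σ₀, hσ₀.1⟩) := by rw [htop]; exact Subgroup.mem_top _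
  obtain ⟨n, hn⟩ := Subgroup.mem_zpowers_iff.mp h2
  refine Subgroup.mem_zpowers_iff.mpr ⟨n, ?_⟩
  have h3 := congrArg (fun x : f.range => (x : H)) hn
  exact h3

/-- The Kummer character of a radical of `q` at a conjugate by a Frobenius element. -/
lemma conj_radical (hq : q.Prime) (hA : A.LiesOverPrime q) {N : ℕ} (hN : Nat.Coprime q N)
    (hN0 : N ≠ 0) {φ : GQ} (hφ : A.IsFrobeniusAt φ q) {σ : GQ} (hσ : σ ∈ A.inertiaSubgroupIn ℚ)
    {π : Qbar} (hπ : π ^ N = (q : Qbar)) :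
    (φ * σ * φ⁻¹) π / π = (σ π / π) ^ q := by
  have hqQ : ((q : ℕ) : Qbar) ≠ 0 := by exact_mod_cast hq.ne_zero
  have hπ0 : π ≠ 0 := by
    rintro rfl
    rw [zero_pow hN0] at hπ
    exact hqQ hπ.symm
  have h1 : (φ⁻¹ π / π) ^ N = 1 := by
    rw [div_pow, ← map_pow, hπ, map_natCast, div_self hqQ]
  have h2 : σ (φ⁻¹ π / π) = φ⁻¹ π / π :=
    Fermat.Agent.GalRep.inertia_fix_rootOfUnity hA hN hN0 hσ h1
  have h3 : (σ π / π) ^ N = 1 := by
    rw [div_pow, ← map_pow, hπ, map_natCast, div_self hqQ]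
  have h4 : φ (σ π / π) = (σ π / π) ^ q :=
    Fermat.Agent.GalRep.frobenius_rootOfUnity hA hN hN0 hφ h3
  have h5 : σ (φ⁻¹ π) = φ⁻¹ π * (σ π / π) := by
    rw [map_div₀] at h2
    have hσπ : σ π ≠ 0 := by rwa [Ne, map_eq_zero]
    rw [div_eq_div_iff hσπ hπ0] at h2
    rw [mul_div_assoc', eq_div_iff hπ0]
    linear_combination h2
  show φ (σ (φ⁻¹ π)) / π = _
  rw [h5, map_mul, h4]
  have h6 : φ (φ⁻¹ π) = π := φ.apply_symm_apply π
  rw [h6, mul_div_assoc, mul_comm, div_mul_cancel₀ _ hπ0]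

/-- Conjugation by a Frobenius element preserves inertia. -/
lemma conj_frob_mem {φ : GQ} (hφ : A.IsFrobeniusAt φ q) {σ : GQ}
    (hσ : σ ∈ A.inertiaSubgroupIn ℚ) : φ * σ * φ⁻¹ ∈ A.inertiaSubgroupIn ℚ := by
  have := conj_mem_inertia_of_decomp (inv_mem hφ.mem_decompositionSubgroup) hσ
  rwa [inv_inv] at this

/-- **The tame relation.** -/
theorem tame_relation (hq : q.Prime) [hp : Fact p.Prime] (hA : A.LiesOverPrime q)
    (hqp : q ≠ p) {φ : GQ} (hφ : A.IsFrobeniusAt φ q) {H : Type*} [Group H]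
    (f : A.inertiaSubgroupIn ℚ →* H) (hH : IsPGroup p f.range)
    (L : IntermediateField ℚ Qbar) [FiniteDimensional ℚ L]
    (hL : ∀ i : A.inertiaSubgroupIn ℚ, (∀ x ∈ L, (i : GQ) x = x) → f i = 1)
    (σ : A.inertiaSubgroupIn ℚ) :
    f ⟨φ * σ * φ⁻¹, conj_frob_mem hφ σ.2⟩ = f σ ^ q := by
  classical
  have := finite_range_of_level f L hL
  let g : A.inertiaSubgroupIn ℚ →* f.range := f.rangeRestrict
  have hg : Function.Surjective g := f.rangeRestrict_surjective
  have hgL : ∀ i : A.inertiaSubgroupIn ℚ, (∀ x ∈ L, (i : GQ) x = x) → g i = 1 := fun i hi =>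
    Subtype.ext (hL i hi)
  have hcyc : IsCyclic f.range := isCyclic_of_inertia hq hA hqp hH g hg L hgL
  obtain ⟨n, hn⟩ := hH.exists_card_eq
  set N := p ^ n with hNdef
  have hN0 : N ≠ 0 := pow_ne_zero _ hp.out.ne_zero
  have hcop : Nat.Coprime q N :=
    Nat.Coprime.pow_right _ ((Nat.coprime_primes hq hp.out).mpr hqp)
  haveI : NeZero N := ⟨hN0⟩
  obtain ⟨π, hπ⟩ := IsAlgClosed.exists_pow_nat_eq ((q : ℕ) : Qbar) (Nat.pos_of_ne_zero hN0)
  have hcardμ : Nat.card (rootsOfUnity N Qbar) = N := by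
    obtain ⟨ζ, hζ⟩ := HasEnoughRootsOfUnity.exists_primitiveRoot Qbar N
    exact hζ.card_rootsOfUnity
  haveI : IsCyclic (rootsOfUnity N Qbar) := inferInstance
  let e : f.range ≃* rootsOfUnity N Qbar := mulEquivOfCyclicCardEq (by rw [hn, hcardμ])
  let a : A.inertiaSubgroupIn ℚ →* Qbarˣ :=
    (rootsOfUnity N Qbar).subtype.comp (e.toMonoidHom.comp g)
  have hinj : ∀ x y : f.range, ((e x : Qbarˣ) : Qbar) = ((e y : Qbarˣ) : Qbar) → x = y :=
    fun x y h => e.injective (Subtype.ext (Units.ext h))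
  have hap : ∀ i, a i ^ N = 1 := fun i => (e (g i)).2
  let h : GQ → Qbar := fun g => if hg : g ∈ A.inertiaSubgroupIn ℚ then (a ⟨g, hg⟩ : Qbar) else 1
  have hh : ∀ i : A.inertiaSubgroupIn ℚ, h i = a i := fun i => by
    simp only [h, dif_pos i.2]
  obtain ⟨m, hm⟩ := kummer_inertia hq hA hcop hN0 hπ h (fun i hi => by
      rw [hh ⟨i, hi⟩, ← Units.val_pow_eq_pow_val, hap, Units.val_one])
    (fun i hi j hj => by
      have h1 := hh (⟨i, hi⟩ * ⟨j, hj⟩)
      rw [map_mul, Units.val_mul, ← hh, ← hh] at h1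
      exact h1) L (fun i hi hfix => by
      rw [hh ⟨i, hi⟩]
      have h1 : g ⟨i, hi⟩ = 1 := hgL ⟨i, hi⟩ hfix
      have h2 : a ⟨i, hi⟩ = 1 := by
        show ((e (g ⟨i, hi⟩) : rootsOfUnity N Qbar) : Qbarˣ) = 1
        rw [h1, map_one]
        rfl
      rw [h2, Units.val_one])
  have h1 : g ⟨φ * σ * φ⁻¹, conj_frob_mem hφ σ.2⟩ = g σ ^ q := by
    apply hinj
    have e1 := hh ⟨φ * σ * φ⁻¹, conj_frob_mem hφ σ.2⟩
    have e2 := hh σ
    have e3 : ((e (g ⟨φ * σ * φ⁻¹, conj_frob_mem hφ σ.2⟩) : Qbarˣ) : Qbar) =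
        h (φ * σ * φ⁻¹) := e1.symm
    have e4 : ((e (g σ) : Qbarˣ) : Qbar) = h σ := e2.symm
    rw [e3, hm _ (conj_frob_mem hφ σ.2), conj_radical hq hA hcop hN0 hφ σ.2 hπ, map_pow,
      Subgroup.coe_pow, Units.val_pow_eq_pow_val, e4, hm _ σ.2, ← zpow_natCast, ← zpow_natCast,
      ← zpow_mul, ← zpow_mul, mul_comm]
  have h2 := congrArg (fun x : f.range => (x : H)) h1
  exact h2

end Fermat.Agent.RTD
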