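import Mathlib
import Fermat.Agent.RTD.TameGen
import Fermat.Agent.TW.LocalUnip

set_option autoImplicit false

/-!
# Tame inertia and adic representations
-/

namespace Fermat.Agent.RTD

open IsLocalRing Matrix
open scoped Pointwise
open Fermat.Agent.S53norm (M2 MemI IsCont)
open Fermat.Agent.Frob Fermat.Agent.Minkowski Fermat.Agent.TW

variable {A : ValuationSubring Qbar} {q p : ℕ}

section Ring

variable {B : Type} [CommRing B]

lemma memI_sub_comm {I : Ideal B} {X Y : M2 B} (h : MemI I (X - Y)) : MemI I (Y - X) := by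
  have := h.neg
  rwa [neg_sub] at this

lemma memI_trans {I : Ideal B} {X Y Z : M2 B} (h : MemI I (X - Y)) (h' : MemI I (Y - Z)) :
    MemI I (X - Z) := by
  have := h.add h'
  rwa [sub_add_sub_cancel] at this

lemma memI_mul_sub {I : Ideal B} {X Y X' Y' : M2 B} (h : MemI I (X - X')) (h' : MemI I (Y - Y')) :
    MemI I (X * Y - X' * Y') := by
  have h1 : X * Y - X' * Y' = (X - X') * Y + X' * (Y - Y') := by noncomm_ring
  rw [h1]
  exact (h.mul_right Y).add (h'.mul_left X')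

lemma memI_pow_sub {I : Ideal B} {X X' : M2 B} (h : MemI I (X - X')) (n : ℕ) :
    MemI I (X ^ n - X' ^ n) := by
  induction n with
  | zero =>
    rw [pow_zero, pow_zero, sub_self]
    exact fun i j => I.zero_mem
  | succ n ih =>
    rw [pow_succ, pow_succ]
    exact memI_mul_sub ih h

lemma memI_natCast {I : Ideal B} {n : ℕ} (h : (n : B) ∈ I) : MemI I (n : M2 B) := by
  intro i j
  rw [← nsmul_one, Matrix.smul_apply, nsmul_eq_mul]
  exact Ideal.mul_mem_right _ _ h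

/-- `p`-power torsion. -/
lemma memI_pow_sub_one {I : Ideal B} (hp : (p : B) ∈ I) {X : M2 B} (hX : MemI I (X - 1)) (n : ℕ) :
    MemI (I ^ (n + 1)) (X ^ p ^ n - 1) := by
  induction n with
  | zero => simpa using hX
  | succ n ih =>
    rw [pow_succ p n, pow_mul X]
    set Y := X ^ p ^ n with hY
    have h1 : Y ^ p - 1 = (Y - 1) * ∑ i ∈ Finset.range p, Y ^ i := (mul_geom_sum Y p).symm
    rw [h1, pow_succ I (n + 1)]
    refine MemI.mul ih ?_
    have h2 : ∀ i, MemI I (Y ^ i - 1) := by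
      intro i
      have h3 : MemI I (Y - 1) := ih.mono (Ideal.pow_le_self (Nat.succ_ne_zero n))
      have := memI_pow_sub h3 i
      rwa [one_pow] at this
    have h4 : ∑ i ∈ Finset.range p, Y ^ i = ∑ i ∈ Finset.range p, (Y ^ i - 1) + (p : M2 B) := by
      rw [Finset.sum_sub_distrib, Finset.sum_const, Finset.card_range, nsmul_one, sub_add_cancel]
    rw [h4]
    refine MemI.add ?_ (memI_natCast hp)
    intro a b
    rw [Matrix.sum_apply]
    exact Ideal.sum_mem _ fun i _ => h2 i a b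

/-- Reduction modulo an ideal. -/
lemma map_mk_eq_iff {I : Ideal B} {X Y : M2 B} :
    (Ideal.Quotient.mk I).mapMatrix X = (Ideal.Quotient.mk I).mapMatrix Y ↔ MemI I (X - Y) := by
  constructor
  · intro h i j
    have := congrFun (congrFun h i) j
    exact Ideal.Quotient.eq.mp this
  · intro h
    ext i j
    exact Ideal.Quotient.eq.mpr (h i j)

end Ring

section Adic

variable {B : Type} [CommRing B] [IsLocalRing B]

lemma eq_of_forall_memI (hH : IsHausdorff (maximalIdeal B) B) {X Y : M2 B}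
    (h : ∀ n, MemI (maximalIdeal B ^ n) (X - Y)) : X = Y := by
  ext i j
  rw [← sub_eq_zero]
  refine hH.haus _ fun n => ?_
  rw [SModEq.sub_mem, sub_zero, smul_eq_mul, Ideal.mul_top]
  exact h n i j

/-- The homomorphism to the units of the matrix ring modulo `m ^ n`. -/
noncomputable def redHom (r : GQ →* M2 B) (I : Ideal B) : GQ →* (M2 (B ⧸ I))ˣ :=
  (((Ideal.Quotient.mk I).mapMatrix : M2 B →+* M2 (B ⧸ I)).toMonoidHom.comp r).toHomUnits

lemma coe_redHom (r : GQ →* M2 B) (I : Ideal B) (σ : GQ) :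
    ((redHom r I σ : (M2 (B ⧸ I))ˣ) : M2 (B ⧸ I)) = (Ideal.Quotient.mk I).mapMatrix (r σ) := rfl

lemma isPGroup_redHom (hp : (p : B) ∈ maximalIdeal B) (r : GQ →* M2 B)
    (hI : ∀ σ ∈ A.inertiaSubgroupIn ℚ, MemI (maximalIdeal B) (r σ - 1)) (n : ℕ) :
    IsPGroup p (((redHom r (maximalIdeal B ^ n)).comp
      (A.inertiaSubgroupIn ℚ).subtype).range) := by
  rintro ⟨_, σ, rfl⟩
  refine ⟨n, Subtype.ext (Units.ext ?_)⟩
  have h1 := memI_pow_sub_one hp (hI σ σ.2) n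
  have h2 : MemI (maximalIdeal B ^ n) (r σ ^ p ^ n - 1) :=
    h1.mono (Ideal.pow_le_pow_right (Nat.le_succ n))
  have h3 := map_mk_eq_iff.mpr h2
  rw [map_pow, map_one] at h3
  exact h3

lemma level_redHom {r : GQ →* M2 B} (hr : IsCont (r : GQ → M2 B)) (n : ℕ) :
    ∃ L : IntermediateField ℚ Qbar, FiniteDimensional ℚ L ∧
      ∀ σ : GQ, (∀ x ∈ L, σ x = x) → redHom r (maximalIdeal B ^ n) σ = 1 := by
  obtain ⟨L, hL, h⟩ := hr n
  refine ⟨L, hL, fun σ hσ => Units.ext ?_⟩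
  have h1 := map_mk_eq_iff.mpr (h σ hσ)
  rw [map_one] at h1
  exact h1

/-- **Tame relation** for adic representations trivial modulo `m` on inertia. -/
theorem adic_tame_relation (hq : q.Prime) [hpf : Fact p.Prime] (hA : A.LiesOverPrime q)
    (hqp : q ≠ p) (hp : (p : B) ∈ maximalIdeal B) (hH : IsHausdorff (maximalIdeal B) B)
    {r : GQ →* M2 B} (hr : IsCont (r : GQ → M2 B))
    (hI : ∀ σ ∈ A.inertiaSubgroupIn ℚ, MemI (maximalIdeal B) (r σ - 1))
    {φ : GQ} (hφ : A.IsFrobeniusAt φ q) {σ : GQ} (hσ : σ ∈ A.inertiaSubgroupIn ℚ) :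
    r (φ * σ * φ⁻¹) = r σ ^ q := by
  refine eq_of_forall_memI hH fun n => ?_
  obtain ⟨L, hL, h⟩ := level_redHom hr n
  have h1 := tame_relation hq hA hqp hφ ((redHom r (maximalIdeal B ^ n)).comp
      (A.inertiaSubgroupIn ℚ).subtype) (isPGroup_redHom hp r hI n) L
      (fun i hi => h i hi) ⟨σ, hσ⟩
  have h2 := congrArg (fun x : (M2 (B ⧸ maximalIdeal B ^ n))ˣ => (x : M2 (B ⧸ maximalIdeal B ^ n))) h1
  apply map_mk_eq_iff.mp
  rw [map_pow]
  exact h2

/-- The tame relation in multiplicative form. -/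
theorem adic_tame_relation' (hq : q.Prime) [hpf : Fact p.Prime] (hA : A.LiesOverPrime q)
    (hqp : q ≠ p) (hp : (p : B) ∈ maximalIdeal B) (hH : IsHausdorff (maximalIdeal B) B)
    {r : GQ →* M2 B} (hr : IsCont (r : GQ → M2 B))
    (hI : ∀ σ ∈ A.inertiaSubgroupIn ℚ, MemI (maximalIdeal B) (r σ - 1))
    {φ : GQ} (hφ : A.IsFrobeniusAt φ q) {σ : GQ} (hσ : σ ∈ A.inertiaSubgroupIn ℚ) :
    r φ * r σ = r σ ^ q * r φ := by
  rw [← adic_tame_relation hq hA hqp hp hH hr hI hφ hσ, ← map_mul, ← map_mul]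
  congr 1
  group

/-- Inertia is topologically generated by a tame generator. -/
theorem adic_inertia_approx (hq : q.Prime) [hpf : Fact p.Prime] (hA : A.LiesOverPrime q)
    (hqp : q ≠ p) (hp : (p : B) ∈ maximalIdeal B)
    {r : GQ →* M2 B} (hr : IsCont (r : GQ → M2 B))
    (hI : ∀ σ ∈ A.inertiaSubgroupIn ℚ, MemI (maximalIdeal B) (r σ - 1))
    {σ₀ : GQ} (hσ₀ : IsTameGen A p q σ₀) {τ : GQ} (hτ : τ ∈ A.inertiaSubgroupIn ℚ) (n : ℕ) :
    ∃ i : ℕ, MemI (maximalIdeal B ^ n) (r τ - r σ₀ ^ i) := by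
  obtain ⟨L, hL, h⟩ := level_redHom hr n
  have h1 := hσ₀.mem_zpowers hq hA hqp ((redHom r (maximalIdeal B ^ n)).comp
      (A.inertiaSubgroupIn ℚ).subtype) (isPGroup_redHom hp r hI n) L
      (fun i hi => h i hi) ⟨τ, hτ⟩
  have h0 : redHom r (maximalIdeal B ^ n) σ₀ ^ p ^ n = 1 := by
    refine Units.ext ?_
    have h1 := memI_pow_sub_one hp (hI σ₀ hσ₀.1) n
    have h2 : MemI (maximalIdeal B ^ n) (r σ₀ ^ p ^ n - 1) :=
      h1.mono (Ideal.pow_le_pow_right (Nat.le_succ n))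
    have h3 := map_mk_eq_iff.mpr h2
    rw [map_pow, map_one] at h3
    exact h3
  have h2 : redHom r (maximalIdeal B ^ n) τ ∈
      Subgroup.zpowers (redHom r (maximalIdeal B ^ n) σ₀) := h1
  have hfin : IsOfFinOrder (redHom r (maximalIdeal B ^ n) σ₀) :=
    isOfFinOrder_iff_pow_eq_one.mpr ⟨p ^ n, pow_pos hpf.out.pos n, h0⟩
  rw [← hfin.mem_powers_iff_mem_zpowers] at h2
  obtain ⟨i, hi⟩ := h2
  refine ⟨i, ?_⟩
  apply map_mk_eq_iff.mp
  rw [map_pow]
  have h3 := congrArg (fun x : (M2 (B ⧸ maximalIdeal B ^ n))ˣ => (x : M2 (B ⧸ maximalIdeal B ^ n))) hi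
  exact h3.symm

/-- The decomposition group is topologically generated by a Frobenius element and a tame
generator. -/
theorem adic_decomp_approx (hq : q.Prime) [hpf : Fact p.Prime] (hA : A.LiesOverPrime q)
    (hqp : q ≠ p) (hp : (p : B) ∈ maximalIdeal B)
    {r : GQ →* M2 B} (hr : IsCont (r : GQ → M2 B))
    (hI : ∀ σ ∈ A.inertiaSubgroupIn ℚ, MemI (maximalIdeal B) (r σ - 1))
    {φ : GQ} (hφ : A.IsFrobeniusAt φ q)
    {σ₀ : GQ} (hσ₀ : IsTameGen A p q σ₀) {g : GQ} (hg : g ∈ A.decompositionSubgroup ℚ) (n : ℕ) :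
    ∃ a i : ℕ, MemI (maximalIdeal B ^ n) (r g - r φ ^ a * r σ₀ ^ i) := by
  obtain ⟨L, hL, h⟩ := level_redHom hr n
  obtain ⟨F, hLF, hfd, hgal⟩ := exists_galois_ge L
  obtain ⟨a, τ, hτ, h1⟩ := exists_frob_pow_mul_inertia hq hA hφ F hg
  obtain ⟨i, hi⟩ := adic_inertia_approx hq hA hqp hp hr hI hσ₀ hτ n
  refine ⟨a, i, ?_⟩
  have h2 : redHom r (maximalIdeal B ^ n) ((φ ^ a * τ)⁻¹ * g) = 1 := by
    refine h _ fun x hx => ?_
    show (φ ^ a * τ).symm (g x) = x
    rw [h1 x (hLF hx), AlgEquiv.symm_apply_apply]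
  rw [map_mul, map_inv, inv_mul_eq_one] at h2
  have h3 : MemI (maximalIdeal B ^ n) (r g - r (φ ^ a * τ)) := by
    apply map_mk_eq_iff.mp
    have h4 := congrArg (fun x : (M2 (B ⧸ maximalIdeal B ^ n))ˣ => (x : M2 (B ⧸ maximalIdeal B ^ n))) h2
    exact h4.symm
  refine memI_trans h3 ?_
  rw [map_mul, map_pow, ← mul_sub]
  exact hi.mul_left _

/-- If a tame generator acts trivially, so does inertia. -/
theorem adic_inertia_eq_one (hq : q.Prime) [hpf : Fact p.Prime] (hA : A.LiesOverPrime q)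
    (hqp : q ≠ p) (hp : (p : B) ∈ maximalIdeal B) (hH : IsHausdorff (maximalIdeal B) B)
    {r : GQ →* M2 B} (hr : IsCont (r : GQ → M2 B))
    (hI : ∀ σ ∈ A.inertiaSubgroupIn ℚ, MemI (maximalIdeal B) (r σ - 1))
    {σ₀ : GQ} (hσ₀ : IsTameGen A p q σ₀) (h1 : r σ₀ = 1) {τ : GQ}
    (hτ : τ ∈ A.inertiaSubgroupIn ℚ) : r τ = 1 := by
  refine eq_of_forall_memI hH fun n => ?_
  obtain ⟨i, hi⟩ := adic_inertia_approx hq hA hqp hp hr hI hσ₀ hτ n
  rwa [h1, one_pow] at hi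

end Adic

section Cocycle

variable {k : Type} [Field k]

/-- A cocycle which vanishes at a tame generator vanishes on inertia, when inertia acts
trivially. -/
theorem Z1_inertia_eq_zero (hq : q.Prime) [hpf : Fact p.Prime] (hA : A.LiesOverPrime q)
    (hqp : q ≠ p) [CharP k p] {r : GQ →* M2 k}
    (hact : ∀ σ ∈ A.inertiaSubgroupIn ℚ, ∀ X : M2 k, act r 0 σ X = X)
    {σ₀ : GQ} (hσ₀ : IsTameGen A p q σ₀)
    {c : A.decompositionSubgroup ℚ → M2 k}
    (hc : c ∈ Z1 r (A.decompositionSubgroup ℚ).subtype 0)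
    (hσ0 : c ⟨σ₀, inertia_le_decomp hσ₀.1⟩ = 0)
    (g : A.decompositionSubgroup ℚ) (hg : (g : GQ) ∈ A.inertiaSubgroupIn ℚ) : c g = 0 := by
  have hadd : ∀ g h : A.decompositionSubgroup ℚ, (g : GQ) ∈ A.inertiaSubgroupIn ℚ →
      c (g * h) = c g + c h := by
    intro g h hg
    rw [hc.2.1]
    congr 1
    exact hact g hg _
  let f : A.inertiaSubgroupIn ℚ →* Multiplicative (M2 k) :=
    { toFun := fun τ => Multiplicative.ofAdd (c ⟨τ, inertia_le_decomp τ.2⟩)
      map_one' := by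
        have h1 := hadd 1 1 (one_mem _)
        rw [mul_one] at h1
        have h2 : c 1 = 0 := left_eq_add.mp h1
        exact congrArg Multiplicative.ofAdd h2
      map_mul' := fun τ τ' => by
        rw [← ofAdd_add]
        exact congrArg Multiplicative.ofAdd
          (hadd ⟨τ, inertia_le_decomp τ.2⟩ ⟨τ', inertia_le_decomp τ'.2⟩ τ.2) }
  obtain ⟨L, hL, h⟩ := hc.2.2
  have hpg : IsPGroup p f.range := by
    rintro ⟨x, hx⟩
    refine ⟨1, Subtype.ext ?_⟩
    show x ^ p ^ 1 = 1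
    rw [pow_one, ← ofAdd_toAdd x, ← ofAdd_nsmul, ← ofAdd_zero]
    congr 1
    ext i j
    rw [Matrix.smul_apply, nsmul_eq_mul, CharP.cast_eq_zero, zero_mul, Matrix.zero_apply]
  have h1 := hσ₀.mem_zpowers hq hA hqp f hpg L (fun i hi => by
    show Multiplicative.ofAdd _ = 1
    rw [h _ hi, ofAdd_zero]) ⟨g, hg⟩
  have h2 : f ⟨σ₀, hσ₀.1⟩ = 1 := by
    show Multiplicative.ofAdd (c ⟨σ₀, inertia_le_decomp hσ₀.1⟩) = 1
    rw [hσ0, ofAdd_zero]
  rw [h2, Subgroup.zpowers_one_eq_bot, Subgroup.mem_bot] at h1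
  exact h1

lemma act_of_scalar {r : GQ →* M2 k} {σ : GQ} (h : ∃ a : k, r σ = Matrix.scalar (Fin 2) a)
    (X : M2 k) : act r 0 σ X = X := by
  obtain ⟨a, ha⟩ := h
  have h1 := r_mul_inv r σ
  have h2 : r σ * X = X * r σ := by
    rw [ha]
    exact Matrix.scalar_commute a (fun r' => Commute.all _ _) X
  rw [act_zero_apply, h2, mul_assoc, h1, mul_one]

/-- A cocycle of the decomposition group which vanishes at a Frobenius element and at a tame
generator vanishes, when `r` is scalar on the decomposition group. -/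
theorem Z1_eq_zero_of_scalar (hq : q.Prime) [hpf : Fact p.Prime] (hA : A.LiesOverPrime q)
    (hqp : q ≠ p) [CharP k p] {r : GQ →* M2 k}
    (hsc : ∀ σ ∈ A.decompositionSubgroup ℚ, ∃ a : k, r σ = Matrix.scalar (Fin 2) a)
    {φ : GQ} (hφ : A.IsFrobeniusAt φ q) {σ₀ : GQ} (hσ₀ : IsTameGen A p q σ₀)
    {c : A.decompositionSubgroup ℚ → M2 k}
    (hc : c ∈ Z1 r (A.decompositionSubgroup ℚ).subtype 0)
    (hφ0 : c ⟨φ, hφ.mem_decompositionSubgroup⟩ = 0)
    (hσ0 : c ⟨σ₀, inertia_le_decomp hσ₀.1⟩ = 0) : c = 0 :=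
  Z1_eq_zero_of_frob hq hA hφ hc (Z1_inertia_eq_zero hq hA hqp
    (fun σ hσ X => act_of_scalar (hsc σ (inertia_le_decomp hσ)) X) hσ₀ hc hσ0) hφ0

end Cocycle

end Fermat.Agent.RTD
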