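import Fermat.Agent.RTD.GalSide

set_option autoImplicit false

/-!
# Complements on the Galois side
-/

namespace Fermat.Agent.RTD

open Matrix IsLocalRing GaloisRep Polynomial
open scoped Pointwise
open Fermat.Agent.S53norm (GQ M2 HasMat MemI exists_hasMat_adic exists_hasMat_res isEquiv_of_hasMat
  isEquiv_of_hasMat_res dualAlg)
open Fermat.Agent.TW
open Fermat.Agent.LocRing (LocData LamT Ka IT ITS IT_le_ker_iff mS mF mS₁ mST comp2 trT SgT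
  mS_apply mF_apply mS₁_apply map_trT_inr map_trT_inl mem_ker_SgT_iff mST_inl mST_inr)

section General

/-- The trace in terms of matrices. -/
lemma trace_of_hasMat {R : Type} [CommRing R] {V : Type} [AddCommGroup V] [Module R V]
    {G : Type} {ρ : G → Module.End R V} {r : G → M2 R} (h : HasMat ρ r) (σ : G) :
    LinearMap.trace R V (ρ σ) = (r σ).trace := by
  obtain ⟨e, he⟩ := h
  rw [← LinearMap.trace_conj' (ρ σ) e]
  have h1 : e.conj (ρ σ) = Matrix.toLin' (r σ) := by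
    refine LinearMap.ext fun v => ?_
    rw [LinearEquiv.conj_apply_apply, he, LinearEquiv.apply_symm_apply, Matrix.toLin'_apply]
  rw [h1, Matrix.trace_toLin'_eq]

/-- A specialisation is unramified iff the matrices are trivial on inertia. -/
lemma isUnramifiedAt_baseChange_iff {R B : Type} [CommRing R] [IsLocalRing R] [CommRing B]
    [IsLocalRing B] {ρ : GaloisRepAdic R} {r : GQ → M2 R} (hr : HasMat (ρ.ρ : GQ → _) r)
    (f : R →+* B) (hf : IsLocalHom f) (q : ℕ) :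
    (ρ.baseChangeAlong f hf).IsUnramifiedAt q ↔ ∀ A : ValuationSubring (AlgebraicClosure ℚ),
      A.LiesOverPrime q → ∀ σ ∈ A.inertiaSubgroupIn ℚ, (r σ).map f = 1 := by
  have h1 := hr.baseChangeAlong f hf
  have h2 : ∀ σ, (ρ.baseChangeAlong f hf).ρ σ = 1 ↔ (r σ).map f = 1 := fun σ =>
    hasMat_eq_one_iff h1 σ
  constructor
  · intro h A hA σ hσ
    exact (h2 σ).mp (h A hA σ hσ)
  · intro h A hA σ hσ
    exact (h2 σ).mpr (h A hA σ hσ)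

end General

namespace Setup

variable {𝒪 : Type} [CommRing 𝒪] [IsDomain 𝒪] [IsDiscreteValuationRing 𝒪]
  [IsAdicComplete (maximalIdeal 𝒪) 𝒪] {p : ℕ} {𝓢 : Setup 𝒪 p}

/-- The prime attached to an index `v ∈ T = T₀ ∪ V`. -/
def pr (𝓢 : Setup 𝒪 p) : {v // v ∈ 𝓢.T₀} ⊕ {v // v ∈ 𝓢.V} → ℕ :=
  Sum.elim (fun v => v.1) (fun v => v.1)

omit [IsAdicComplete (maximalIdeal 𝒪) 𝒪] in
lemma qT_eq (v : {v // v ∈ 𝓢.T₀} ⊕ {v // v ∈ 𝓢.V}) : 𝓢.locData.qT v = 𝓢.pr v := by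
  rcases v with v | v <;> rfl

omit [IsAdicComplete (maximalIdeal 𝒪) 𝒪] in
lemma pr_mem (v : {v // v ∈ 𝓢.T₀} ⊕ {v // v ∈ 𝓢.V}) : 𝓢.pr v ∈ 𝓢.T₀ ∪ 𝓢.V := by
  rcases v with v | v
  · exact Finset.mem_union_left _ v.2
  · exact Finset.mem_union_right _ v.2

omit [IsAdicComplete (maximalIdeal 𝒪) 𝒪] in
lemma pr_injective : Function.Injective 𝓢.pr := by
  rintro (v | v) (w | w) h
  · exact congrArg Sum.inl (Subtype.ext h)
  · exact absurd (show (v : ℕ) = w from h) fun h' =>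
      Finset.disjoint_left.mp 𝓢.disj' v.2 (h' ▸ w.2)
  · exact absurd (show (v : ℕ) = w from h) fun h' =>
      Finset.disjoint_left.mp 𝓢.disj' w.2 (h' ▸ v.2)
  · exact congrArg Sum.inr (Subtype.ext h)

omit [IsAdicComplete (maximalIdeal 𝒪) 𝒪] in
lemma exists_pr {q : ℕ} (hq : q ∈ 𝓢.T₀ ∪ 𝓢.V) : ∃ v, 𝓢.pr v = q := by
  rcases Finset.mem_union.mp hq with h | h
  · exact ⟨Sum.inl ⟨q, h⟩, rfl⟩
  · exact ⟨Sum.inr ⟨q, h⟩, rfl⟩

namespace Level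

variable {L : PCond} {m g : ℕ} {qv : Fin m → ℕ} (Lv : 𝓢.Level L qv g)

/-- The trace of Frobenius at `v`, in matrix terms. -/
lemma trace_mat_φ (v : {v // v ∈ 𝓢.T₀} ⊕ {v // v ∈ 𝓢.V}) {r : GQ → M2 Lv.D.R}
    (hr : HasMat (Lv.D.ρ.ρ : GQ → _) r) :
    (r (𝓢.φ (𝓢.pr v))).trace = Lv.γ (trT (Fin g) 𝓢.locData v) := by
  have key : ∀ {r' : GQ → M2 Lv.D.R}, HasMat (Lv.D.ρ.ρ : GQ → _) r' →
      (r (𝓢.φ (𝓢.pr v))).trace = (r' (𝓢.φ (𝓢.pr v))).trace := fun hr' => by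
    rw [← trace_of_hasMat hr, ← trace_of_hasMat hr']
  rcases v with v | v
  · obtain ⟨r', hr', -, h2⟩ := Lv.loc₀ v
    rw [key hr', map_trT_inl, ← h2]
    rfl
  · obtain ⟨r', hr', -, h2⟩ := Lv.loc₁ v
    rw [key hr']
    show (r' (𝓢.φ v)).trace = _
    rw [h2, comp2, Matrix.trace_fin_two]
    simp

/-- The trace of Frobenius at `v`. -/
theorem trace_φ (v : {v // v ∈ 𝓢.T₀} ⊕ {v // v ∈ 𝓢.V}) :
    LinearMap.trace _ _ (Lv.D.ρ.ρ (𝓢.φ (𝓢.pr v))) = Lv.γ (trT (Fin g) 𝓢.locData v) := by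
  obtain ⟨r, hr⟩ := exists_hasMat_adic Lv.D.ρ
  rw [trace_of_hasMat hr]
  exact Lv.trace_mat_φ v hr

/-- If a specialisation is unramified at `v`, it kills the entries of `Sg_v - 1`. -/
theorem map_SgT_eq_zero {B : Type} [CommRing B] [IsLocalRing B] (f : Lv.D.R →+* B)
    (hf : IsLocalHom f) (v : {v // v ∈ 𝓢.T₀} ⊕ {v // v ∈ 𝓢.V})
    (hu : (Lv.D.ρ.baseChangeAlong f hf).IsUnramifiedAt (𝓢.pr v)) (i j : Fin 2) :
    f (Lv.γ ((SgT 𝒪 (Fin g) v - 1) i j)) = 0 := by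
  have hA := 𝓢.hA _ (𝓢.pr_mem v)
  have hσ := (𝓢.hσ _ (𝓢.pr_mem v)).1
  have key : ∀ {r : GQ → M2 Lv.D.R}, HasMat (Lv.D.ρ.ρ : GQ → _) r →
      (r (𝓢.σ (𝓢.pr v))) = mST Lv.γ v → f (Lv.γ ((SgT 𝒪 (Fin g) v - 1) i j)) = 0 := by
    intro r hr h
    have h1 := (isUnramifiedAt_baseChange_iff hr f hf _).mp hu _ hA _ hσ
    rw [h] at h1
    have h2 : f (mST Lv.γ v i j) = (1 : M2 B) i j := congrFun (congrFun h1 i) j
    have h3 : Lv.γ (SgT 𝒪 (Fin g) v i j) = mST Lv.γ v i j := rfl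
    rw [Matrix.sub_apply, map_sub, map_sub, h3, h2, Matrix.one_apply, Matrix.one_apply]
    split_ifs <;> simp
  rcases v with v | v
  · obtain ⟨r', hr', h2, -⟩ := Lv.loc₀ v
    exact key hr' h2
  · obtain ⟨r', hr', h2, -⟩ := Lv.loc₁ v
    exact key hr' h2

end Level

end Setup

end Fermat.Agent.RTD
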