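import Fermat.Agent.RTD.LocalRel
import Fermat.Agent.TW.LocalForms

set_option autoImplicit false

/-!
# The local bound at an auxiliary prime
-/

namespace Fermat.Agent.RTD

open Matrix IsLocalRing GaloisRep
open scoped Pointwise
open Fermat.Agent.S53norm (M2 HasMat MemI)
open Fermat.Agent.TW Fermat.Agent.Frob Fermat.Agent.Minkowski

variable {k : Type} [Field k] {p q : ℕ} {A : ValuationSubring (AlgebraicClosure ℚ)}

/-- Matrix part: `F N = q N F` forces `N = 0`. -/
lemma eq_zero_of_tame {F N : M2 k} {a : k} (hdet : F.det = a) (ha0 : a ≠ 0) (ha1 : a ≠ 1)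
    (htr : F.trace ^ 2 ≠ (a + 1) ^ 2) (hN : N.trace = 0) (h : F * N = a • (N * F)) : N = 0 := by
  have e1 : N 1 1 = - N 0 0 := by
    rw [Matrix.trace_fin_two] at hN
    linear_combination hN
  have h00 := congrFun (congrFun h 0) 0
  have h01 := congrFun (congrFun h 0) 1
  have h10 := congrFun (congrFun h 1) 0
  have h11 := congrFun (congrFun h 1) 1
  simp only [Matrix.mul_apply, Matrix.smul_apply, Fin.sum_univ_two, smul_eq_mul, e1] at h00 h01 h10 h11
  rw [Matrix.det_fin_two] at hdet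
  rw [Matrix.trace_fin_two] at htr
  -- trace of `F N` vanishes
  have ht : F 0 0 * N 0 0 + F 0 1 * N 1 0 + F 1 0 * N 0 1 - F 1 1 * N 0 0 = 0 := by
    have : (1 - a) * (F 0 0 * N 0 0 + F 0 1 * N 1 0 + F 1 0 * N 0 1 - F 1 1 * N 0 0) = 0 := by
      linear_combination h00 + h11
    rcases mul_eq_zero.mp this with h1 | h1
    · exact absurd (sub_eq_zero.mp h1).symm ha1
    · exact h1
  -- `N ((a+1) F - t) = 0`
  set t := F 0 0 + F 1 1 with htdef
  have k00 : N 0 0 * ((a + 1) * F 0 0 - t) + N 0 1 * ((a + 1) * F 1 0) = 0 := by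
    rw [htdef]
    linear_combination -h00 + ht
  have k01 : N 0 0 * ((a + 1) * F 0 1) + N 0 1 * ((a + 1) * F 1 1 - t) = 0 := by
    rw [htdef]
    linear_combination -h01
  have k10 : N 1 0 * ((a + 1) * F 0 0 - t) - N 0 0 * ((a + 1) * F 1 0) = 0 := by
    rw [htdef]
    linear_combination -h10
  have hD : ((a + 1) * F 0 0 - t) * ((a + 1) * F 1 1 - t) - ((a + 1) * F 0 1) * ((a + 1) * F 1 0) ≠
      0 := by
    have h1 : ((a + 1) * F 0 0 - t) * ((a + 1) * F 1 1 - t) -
        ((a + 1) * F 0 1) * ((a + 1) * F 1 0) = a * ((a + 1) ^ 2 - t ^ 2) := by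
      rw [htdef]
      linear_combination (a + 1) ^ 2 * hdet
    rw [h1]
    refine mul_ne_zero ha0 fun h2 => htr ?_
    linear_combination -h2
  have n00 : N 0 0 = 0 := by
    have : N 0 0 * (((a + 1) * F 0 0 - t) * ((a + 1) * F 1 1 - t) -
        ((a + 1) * F 0 1) * ((a + 1) * F 1 0)) = 0 := by
      linear_combination ((a + 1) * F 1 1 - t) * k00 - ((a + 1) * F 1 0) * k01
    exact (mul_eq_zero.mp this).resolve_right hD
  have n01 : N 0 1 = 0 := by
    have : N 0 1 * (((a + 1) * F 0 0 - t) * ((a + 1) * F 1 1 - t) -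
        ((a + 1) * F 0 1) * ((a + 1) * F 1 0)) = 0 := by
      linear_combination ((a + 1) * F 0 0 - t) * k01 - ((a + 1) * F 0 1) * k00
    exact (mul_eq_zero.mp this).resolve_right hD
  rw [n00] at k10 h10 h11
  have n10 : N 1 0 = 0 := by
    by_contra hne
    have l1 : (a + 1) * F 0 0 - t = 0 := by
      have : N 1 0 * ((a + 1) * F 0 0 - t) = 0 := by linear_combination k10
      exact (mul_eq_zero.mp this).resolve_left hne
    have l2 : F 0 1 = 0 := by
      rw [n00, n01] at ht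
      have : F 0 1 * N 1 0 = 0 := by linear_combination ht
      exact (mul_eq_zero.mp this).resolve_right hne
    apply hD
    rw [l1, l2]
    ring
  ext i j
  fin_cases i <;> fin_cases j
  · exact n00
  · exact n01
  · exact n10
  · show N 1 1 = 0
    rw [e1, n00, neg_zero]

/-- A cocycle satisfies the tame relation when inertia acts trivially. -/
theorem Z1_tame (hq : q.Prime) [hpf : Fact p.Prime] (hA : A.LiesOverPrime q)
    (hqp : q ≠ p) [CharP k p] {r : GQ →* M2 k}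
    (hact : ∀ σ ∈ A.inertiaSubgroupIn ℚ, r σ = 1) {φ : GQ} (hφ : A.IsFrobeniusAt φ q)
    {c : GQ → M2 k} (hc : c ∈ Z1 r (MonoidHom.id GQ) 0) {σ : GQ}
    (hσ : σ ∈ A.inertiaSubgroupIn ℚ) :
    r φ * c σ = (q : k) • (c σ * r φ) := by
  have hact' : ∀ σ ∈ A.inertiaSubgroupIn ℚ, ∀ X : M2 k, act r 0 σ X = X := by
    intro σ hσ X
    have h2 : r σ⁻¹ = 1 := hact _ (inv_mem hσ)
    rw [act_zero_apply, hact σ hσ, h2, one_mul, mul_one]
  have hmul : ∀ g h : GQ, c (g * h) = c g + act r 0 g (c h) := fun g h => hc.2.1 g h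
  have hadd : ∀ g h : GQ, g ∈ A.inertiaSubgroupIn ℚ → c (g * h) = c g + c h := by
    intro g h hg
    rw [hmul, hact' g hg]
  have h1' : c 1 = 0 := Z1_one hc
  let f : A.inertiaSubgroupIn ℚ →* Multiplicative (M2 k) :=
    { toFun := fun τ => Multiplicative.ofAdd (c τ)
      map_one' := congrArg Multiplicative.ofAdd h1'
      map_mul' := fun τ τ' => by
        rw [← ofAdd_add]
        exact congrArg Multiplicative.ofAdd (hadd τ τ' τ.2) }
  obtain ⟨L, hL, h⟩ := hc.2.2
  have hpg : IsPGroup p f.range := by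
    rintro ⟨x, hx⟩
    refine ⟨1, Subtype.ext ?_⟩
    show x ^ p ^ 1 = 1
    rw [pow_one, ← ofAdd_toAdd x, ← ofAdd_nsmul, ← ofAdd_zero]
    congr 1
    ext i j
    rw [Matrix.smul_apply, nsmul_eq_mul, CharP.cast_eq_zero, zero_mul, Matrix.zero_apply]
  have h1 := tame_relation hq hA hqp hφ f hpg L (fun i hi => by
    show Multiplicative.ofAdd _ = 1
    rw [h _ hi, ofAdd_zero]) ⟨σ, hσ⟩
  have h2 : c (φ * σ * φ⁻¹) = q • c σ := by
    have h3 : Multiplicative.ofAdd (c (φ * σ * φ⁻¹)) = (Multiplicative.ofAdd (c σ)) ^ q := h1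
    rw [← ofAdd_nsmul] at h3
    exact Multiplicative.ofAdd.injective h3
  have h3 : c (φ * σ) = c φ + act r 0 φ (c σ) := hmul φ σ
  have h4 : c (φ * σ) = c (φ * σ * φ⁻¹) + c φ := by
    rw [← hadd _ _ (conj_frob_mem hφ hσ)]
    congr 1
    group
  have h5 : act r 0 φ (c σ) = q • c σ := by
    rw [h2] at h4
    rw [h4, add_comm] at h3
    exact (add_left_cancel h3).symm
  rw [act_zero_apply] at h5
  have h6 : r φ * c σ * r φ⁻¹ * r φ = (q • c σ) * r φ := by rw [h5]
  rw [mul_assoc, r_inv_mul, mul_one] at h6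
  rw [h6, smul_mul_assoc, Nat.cast_smul_eq_nsmul]

/-- **The local bound at an auxiliary prime.** -/
theorem localBound_aux [Finite k] [hpf : Fact p.Prime] [CharP k p] {r : GQ →* M2 k}
    (hlev : IsFiniteLevel r) (hcyc : CycDet p r) (hq : q.Prime) (hqp : q ≠ p)
    (hq1 : (q : k) ≠ 1) (hA : A.LiesOverPrime q)
    (hact : ∀ σ ∈ A.inertiaSubgroupIn ℚ, r σ = 1)
    (htr : ∀ φ : GQ, A.IsFrobeniusAt φ q → (r φ).trace ^ 2 ≠ ((q : k) + 1) ^ 2) :
    LocalBound r (A.decompositionSubgroup ℚ) (fun _ => True) 3 := by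
  obtain ⟨hfin, hle⟩ := card_unrCob_le (r := r) (A := A) hlev hq hA
  refine ⟨unrCob r A, hfin, hle, fun c hc => hc.1, fun X hX => ?_, fun c _ => ?_⟩
  · exact ⟨cob_mem_Z1 _ hlev 0 hX, X, hX, fun g _ => rfl⟩
  · obtain ⟨φ, hφ⟩ := exists_isFrobeniusAt hq hA
    have hdet : (r φ).det = (q : k) :=
      hcyc φ q fun _ hμ => GalRep.frobenius_rootOfUnity hA
        ((Nat.coprime_primes hq hpf.out).2 hqp) hpf.out.ne_zero hφ hμ
    have hq0 : (q : k) ≠ 0 := by
      intro h
      have h1 : r φ * r φ⁻¹ = 1 := r_mul_inv r φ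
      have h2 := congrArg Matrix.det h1
      rw [det_mul, hdet, h, zero_mul, det_one] at h2
      exact zero_ne_one h2
    have hzero : ∀ σ ∈ A.inertiaSubgroupIn ℚ, c.1 σ = 0 := fun σ hσ =>
      eq_zero_of_tame hdet hq0 hq1 (htr φ hφ) (c.2.1 σ) (Z1_tame hq hA hqp hact hφ c.2 hσ)
    refine ⟨⟨fun g => c.2.1 _, fun g h => c.2.2.1 _ _, ?_⟩, 0, trace_zero _ _, fun g hg => ?_⟩
    · obtain ⟨L, hL, h⟩ := c.2.2.2
      exact ⟨L, hL, fun g hg => h _ hg⟩
    · rw [cob, map_zero, sub_zero]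
      exact hzero g hg

end Fermat.Agent.RTD
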