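import Fermat.Agent.RTD.Bottom
import Fermat.Agent.RTD.AuxBound
import Fermat.Agent.S59.ClimbDef
import Fermat.Agent.TW.HomFin
import Fermat.Agent.TWGroup.Final
import Fermat.Agent.LocRing.TestK

set_option autoImplicit false

/-!
# The Galois side of the patching argument
-/

namespace Fermat.Agent.RTD

open Matrix IsLocalRing GaloisRep Polynomial
open scoped Pointwise
open Fermat.Agent.S53norm (GQ M2 HasMat MemI exists_hasMat_adic exists_hasMat_res isEquiv_of_hasMat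
  isEquiv_of_hasMat_res dualAlg)
open Fermat.Agent.TW
open Fermat.Agent.LocRing (LocData LamT Ka IT ITS IT_le_ker_iff mS mF mS₁ mST comp2 trT SgT
  mS_apply mF_apply mS₁_apply map_trT_inr map_trT_inl ev ev_X locK mem_locK_sup_of_coeff
  coeff_mem_of_mem_locK_sup exists_eq_C_add_sum coeff_single_mul Var)
open Fermat.Agent.S53rep (X_mem_maximalIdeal mem_maximalIdeal_mvPowerSeries_iff)

section Build

variable {𝒪 : Type} [CommRing 𝒪] [IsDomain 𝒪] [IsDiscreteValuationRing 𝒪] {p : ℕ}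

/-- The reduction, as a base change. -/
lemma isEquiv_ofResidual (x : GaloisRepAdic 𝒪) :
    (x.baseChangeAlong (residue 𝒪) inferInstance).IsEquiv
      (GaloisRepAdic.ofResidualGaloisRep x.residual) := by
  obtain ⟨r, hr⟩ := exists_hasMat_adic x
  exact isEquiv_of_hasMat (hr.baseChangeAlong (residue 𝒪) inferInstance) hr.residual.ofResidual

/-- Unramified representations over a field. -/
lemma isUnramifiedAt_residual {x : GaloisRepAdic 𝒪} {q : ℕ} (h : x.IsUnramifiedAt q) :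
    x.residual.IsUnramifiedAt q :=
  isUnramifiedAt_of_isEquiv (isEquiv_ofResidual x) (isUnramifiedAt_baseChange _ inferInstance h)

/-- **The setup attached to the data of the climb.** -/
theorem exists_setup [Finite (ResidueField 𝒪)] {x : GaloisRepAdic 𝒪} {r N : ℕ} {T S : Finset ℕ}
    {a : ℕ → 𝒪} (hx : S59aux.ClimbData p x r N T S a) (hp : p.Prime) (hp2 : p ≠ 2)
    (hp𝒪 : (p : 𝒪) ∈ maximalIdeal 𝒪) (hdet : x.DetIsCyclotomic p)
    (hunr : ∀ q : ℕ, q.Prime → q ∉ S → x.IsUnramifiedAt q) (hN : N ≠ 0) :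
    ∃ 𝓢 : Setup 𝒪 p, 𝓢.ρbar = x.residual ∧ 𝓢.Smin = insert p N.primeFactors ∧
      𝓢.T₀ ∪ 𝓢.V = T ∧ 𝓢.Sg = S := by
  classical
  have hfact : Fact p.Prime := ⟨hp⟩
  have hpk : (p : ResidueField 𝒪) = 0 := by
    have h1 := (residue_eq_zero_iff (R := 𝒪) (p : 𝒪)).2 hp𝒪
    rwa [map_natCast] at h1
  have hchar : CharP (ResidueField 𝒪) p := Frob.charP_of_prime_natCast_eq_zero hp hpk
  obtain ⟨rb, hrb⟩ := exists_matrix x.residual
  have hlev : IsFiniteLevel rb := isFiniteLevel_of_hasMat hrb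
  have hcyc : CycDet p rb := cycDet_of hrb hpk (detIsCyclotomic_of_isEquiv (isEquiv_ofResidual x)
    (detIsCyclotomic_baseChange _ inferInstance hdet))
  have hres1 : ∀ {q : ℕ}, x.residual.IsUnramifiedAt q → ∀ A : ValuationSubring (AlgebraicClosure ℚ),
      A.LiesOverPrime q → ∀ σ ∈ A.inertiaSubgroupIn ℚ, rb σ = 1 := by
    intro q h A hA σ hσ
    obtain ⟨e, he⟩ := hrb
    refine S53norm.mat_ext fun v => ?_
    have h2 := he σ (e.symm v)
    rw [h A hA σ hσ, Module.End.one_apply, LinearEquiv.apply_symm_apply] at h2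
    rw [← h2, Matrix.one_mulVec]
  have htr : ∀ σ, LinearMap.trace _ _ (x.residual.ρ σ) = (rb σ).trace := by
    intro σ
    have h1 := charpoly_of_hasMat hrb σ
    have : Module.Finite (ResidueField 𝒪) x.residual.V :=
      Module.finite_of_finrank_pos (by rw [x.residual.finrank_eq]; norm_num)
    have h2 : (LinearMap.charpoly (x.residual.ρ σ)).nextCoeff = ((rb σ).charpoly).nextCoeff := by
      rw [h1]
    have h3 : (rb σ).trace = -((rb σ).charpoly).nextCoeff := by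
      rw [Matrix.trace_eq_neg_charpoly_coeff, Polynomial.nextCoeff_of_natDegree_pos]
      · rw [Matrix.charpoly_natDegree_eq_dim]
      · rw [Matrix.charpoly_natDegree_eq_dim]; simp
    rw [h3, ← h2, LinearMap.trace_eq_matrix_trace _ (Module.finBasis (ResidueField 𝒪) x.residual.V)]
    rw [← LinearMap.charpoly_toMatrix (x.residual.ρ σ)
      (Module.finBasis (ResidueField 𝒪) x.residual.V)]
    have : Nonempty (Fin (Module.finrank (ResidueField 𝒪) x.residual.V)) := by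
      rw [x.residual.finrank_eq]; infer_instance
    rw [Matrix.trace_eq_neg_charpoly_coeff, Polynomial.nextCoeff_of_natDegree_pos]
    · rw [Matrix.charpoly_natDegree_eq_dim]
    · rw [Matrix.charpoly_natDegree_eq_dim]; exact Fintype.card_pos
  have hprime : ∀ q ∈ insert p N.primeFactors ∪ T, q.Prime := by
    intro q hq
    rcases Finset.mem_union.mp hq with h | h
    · rcases Finset.mem_insert.mp h with rfl | h
      · exact hp
      · exact Nat.prime_of_mem_primeFactors h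
    · exact (hx.mem_T q h).1
  have hex : ∀ v : ℕ, ∃ (A : ValuationSubring (AlgebraicClosure ℚ)) (φ σ : GQ) (e : 𝒪),
      e ^ 2 = 1 ∧ (v ∈ T → A.LiesOverPrime v ∧ A.IsFrobeniusAt φ v ∧ IsTameGen A p v σ ∧
        (rb φ).charpoly = (X - C (residue 𝒪 e)) * (X - C (residue 𝒪 (e * (v : 𝒪))))) := by
    intro v
    by_cases hv : v ∈ T
    · obtain ⟨A, hA⟩ := Frob.exists_liesOverPrime v (hx.mem_T v hv).1
      obtain ⟨φ, hφ⟩ := Frob.exists_isFrobeniusAt (hx.mem_T v hv).1 hA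
      obtain ⟨σ, hσ⟩ := exists_isTameGen (hx.mem_T v hv).1 hp hA (hx.mem_T v hv).2.1
      obtain ⟨e, he, hch⟩ := hx.T_frob v hv A hA φ hφ
      rw [charpoly_of_hasMat hrb] at hch
      exact ⟨A, φ, σ, e, he, fun _ => ⟨hA, hφ, hσ, hch⟩⟩
    · exact ⟨⊤, 1, 1, 1, one_pow 2, fun h => absurd h hv⟩
  choose A φ σ e he hAT using hex
  have hTS : T.filter (fun v => ∃ a : ResidueField 𝒪, rb (φ v) = Matrix.scalar (Fin 2) a) ∪
      T.filter (fun v => ¬ ∃ a : ResidueField 𝒪, rb (φ v) = Matrix.scalar (Fin 2) a) = T :=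
    Finset.filter_union_filter_not_eq _ _
  have hSminT : Disjoint (insert p N.primeFactors) T := by
    rw [Finset.disjoint_left]
    intro q hq hqT
    obtain ⟨-, h1, h2⟩ := hx.mem_T q hqT
    rcases Finset.mem_insert.mp hq with h | h
    · exact h1 h
    · exact h2 (Nat.dvd_of_mem_primeFactors h)
  have hSS : insert p N.primeFactors ∪ T = S := by
    ext q
    rw [hx.mem_S, Finset.mem_union, Finset.mem_insert, Nat.mem_primeFactors]
    constructor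
    · rintro ((h | ⟨h1, h2, -⟩) | h)
      · exact ⟨h ▸ hp, Or.inl h⟩
      · exact ⟨h1, Or.inr (Or.inl h2)⟩
      · exact ⟨(hx.mem_T q h).1, Or.inr (Or.inr h)⟩
    · rintro ⟨h1, h | h | h⟩
      · exact Or.inl (Or.inl h)
      · exact Or.inl (Or.inr ⟨h1, h, hN⟩)
      · exact Or.inr h
  refine ⟨{
    ρbar := x.residual, rb := rb, hrb := hrb, hlev := hlev, hp := hp, hp2 := hp2, hp𝒪 := hp𝒪,
    habs := hx.abs, hcyc := hcyc,
    hsplit := fun σ => by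
      rw [← charpoly_of_hasMat hrb]
      exact hx.split σ
    Smin := insert p N.primeFactors,
    T₀ := T.filter (fun v => ∃ a : ResidueField 𝒪, rb (φ v) = Matrix.scalar (Fin 2) a),
    V := T.filter (fun v => ¬ ∃ a : ResidueField 𝒪, rb (φ v) = Matrix.scalar (Fin 2) a),
    hpS := Finset.mem_insert_self _ _,
    disj := by rw [hTS]; exact hSminT
    disj' := Finset.disjoint_filter_filter_not _ _ _
    prime := by rw [hTS]; exact hprime
    bound := fun q hq hqp B hB => by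
      have hqN : q ∈ N.primeFactors := (Finset.mem_insert.mp hq).resolve_left hqp
      have hq' := Nat.prime_of_mem_primeFactors hqN
      by_cases hqr : q = r
      · subst hqr
        refine (localBound_aux hlev hcyc hq' hqp ?_ hB (hres1 hx.r_unr B hB) ?_).mono
          (fun c _ => trivial)
        · intro h
          have h1 : ((q : ℕ) : ResidueField 𝒪) = ((1 : ℕ) : ResidueField 𝒪) := by
            rw [h, Nat.cast_one]
          have h2 := (CharP.natCast_eq_natCast (ResidueField 𝒪) p).mp h1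
          apply hx.r_not_one
          have h3 : q % p = 1 % p := h2
          rw [h3, Nat.mod_eq_of_lt hp.one_lt]
        · intro φ' hφ'
          have h1 := hx.r_frob B hB φ' hφ'
          rwa [htr] at h1
      · exact localBound_isUnipotentOnInertiaAt hp2 hq' hqp hlev
          (not_unramified_matrix hrb
            (hx.ram q hq' (Nat.dvd_of_mem_primeFactors hqN) hqr)) B hB
    unr := fun q hq hqS => by
      by_cases hqT : q ∈ T
      · exact hx.T_unr q hqT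
      · refine isUnramifiedAt_residual (hunr q hq ?_)
        rw [← hSS, Finset.mem_union]
        exact fun h => h.elim hqS hqT
    ε := e
    hε := he
    A := A
    hA := by rw [hTS]; exact fun v hv => (hAT v hv).1
    φ := φ
    hφ := by rw [hTS]; exact fun v hv => (hAT v hv).2.1
    σ := σ
    hσ := by rw [hTS]; exact fun v hv => (hAT v hv).2.2.1
    noLine := hx.tw rb hrb
    hT₀ := fun v hv => by
      obtain ⟨hvT, b, hb⟩ := Finset.mem_filter.mp hv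
      have h1 := (hAT v hvT).2.2.2
      rw [hb] at h1 ⊢
      have h2 := congrArg (Polynomial.eval (residue 𝒪 (e v))) h1
      rw [Polynomial.eval_mul, Polynomial.eval_sub, Polynomial.eval_X, Polynomial.eval_C, sub_self,
        zero_mul, Matrix.charpoly_fin_two] at h2
      have h3 : (residue 𝒪 (e v) - b) ^ 2 = 0 := by
        rw [← h2]
        simp
        ring
      rw [sub_eq_zero.mp (pow_eq_zero_iff (two_ne_zero)|>.mp h3)]
    hV := fun v hv => (Finset.mem_filter.mp hv).2 }, rfl, rfl, hTS, ?_⟩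
  show insert p N.primeFactors ∪ (_ ∪ _) = S
  rw [hTS]
  exact hSS

end Build


section LinearForm

variable {𝒪 : Type} [CommRing 𝒪] [IsDomain 𝒪] [IsDiscreteValuationRing 𝒪]
  [IsAdicComplete (maximalIdeal 𝒪) 𝒪]

/-- `locK ⊔ 𝔪 ^ 2` is contained in the ideal generated by `𝔪_𝒪`, the local variables and
`𝔪 ^ 2`. -/
theorem mem_of_mem_locK_sup {ι₀ ι₁ κ : Type} [Fintype ι₀] [Fintype ι₁] [Fintype κ]
    {J : Ideal (LamT 𝒪 ι₀ ι₁ κ)} (hJC : (maximalIdeal 𝒪).map (MvPowerSeries.C (R := 𝒪)) ≤ J)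
    (hJX : ∀ s : Var ι₀ (Ka ι₁ κ), (∀ t, s ≠ Sum.inr (Sum.inr (Sum.inr t))) →
      (MvPowerSeries.X s : LamT 𝒪 ι₀ ι₁ κ) ∈ J)
    (hJ2 : maximalIdeal (LamT 𝒪 ι₀ ι₁ κ) ^ 2 ≤ J) {f : LamT 𝒪 ι₀ ι₁ κ}
    (hf : f ∈ locK 𝒪 ι₀ ι₁ κ ⊔ maximalIdeal (LamT 𝒪 ι₀ ι₁ κ) ^ 2) : f ∈ J := by
  classical
  obtain ⟨g, hg⟩ := exists_eq_C_add_sum f
  have h5 : ∀ (σ : Type) (R : Type) [CommRing R] (s : σ) (c : R), MvPowerSeries.coeff
      (Finsupp.single s 1) (MvPowerSeries.C c : MvPowerSeries σ R) = 0 := by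
    intro σ R _ s c
    rw [MvPowerSeries.coeff_C, if_neg]
    intro h
    rw [Finsupp.single_eq_zero] at h
    exact one_ne_zero h
  have h3 : ∀ s s' : Var ι₀ (Ka ι₁ κ), MvPowerSeries.coeff (Finsupp.single s' 1)
      (MvPowerSeries.X s : LamT 𝒪 ι₀ ι₁ κ) = if s = s' then 1 else 0 := by
    intro s s'
    rw [MvPowerSeries.coeff_X]
    by_cases h : s = s'
    · rw [if_pos h, if_pos (by rw [h])]
    · rw [if_neg h, if_neg]
      intro h4
      rw [Finsupp.single_left_inj one_ne_zero] at h4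
      exact h h4.symm
  have e2 : ∀ s' : Var ι₀ (Ka ι₁ κ), MvPowerSeries.coeff (Finsupp.single s' 1) f =
      MvPowerSeries.constantCoeff (g s') := by
    intro s'
    conv_lhs => rw [hg]
    rw [map_add, map_sum, h5, zero_add]
    simp only [coeff_single_mul, h3, MvPowerSeries.constantCoeff_X, mul_zero, zero_add, mul_ite,
      mul_one, Finset.sum_ite_eq', Finset.mem_univ, if_true]
  have hfm : f ∈ maximalIdeal (LamT 𝒪 ι₀ ι₁ κ) := by
    have h1 : locK 𝒪 ι₀ ι₁ κ ⊔ maximalIdeal (LamT 𝒪 ι₀ ι₁ κ) ^ 2 ≤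
        maximalIdeal (LamT 𝒪 ι₀ ι₁ κ) :=
      sup_le (IsLocalRing.le_maximalIdeal (Ideal.IsPrime.ne_top inferInstance))
        (Ideal.pow_le_self two_ne_zero)
    exact h1 hf
  rw [mem_maximalIdeal_mvPowerSeries_iff] at hfm
  rw [hg]
  refine Ideal.add_mem _ (hJC (Ideal.mem_map_of_mem _ hfm)) (Ideal.sum_mem _ fun s _ => ?_)
  by_cases hs : ∃ t, s = Sum.inr (Sum.inr (Sum.inr t))
  · obtain ⟨t, rfl⟩ := hs
    refine hJ2 ?_
    rw [pow_two]
    have h6 := coeff_mem_of_mem_locK_sup hf t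
    rw [e2] at h6
    exact Ideal.mul_mem_mul ((mem_maximalIdeal_mvPowerSeries_iff _).mpr h6) (X_mem_maximalIdeal _)
  · push Not at hs
    exact Ideal.mul_mem_left _ _ (hJX s hs)

end LinearForm

namespace Setup

variable {𝒪 : Type} [CommRing 𝒪] [IsDomain 𝒪] [IsDiscreteValuationRing 𝒪]
  [IsAdicComplete (maximalIdeal 𝒪) 𝒪] {p : ℕ}

theorem notMem_locK (𝓢 : Setup 𝒪 p) {g : ℕ} {ℓ : 𝓢.Lam g}
    (h : ℓ ∉ (maximalIdeal 𝒪).map (MvPowerSeries.C (R := 𝒪)) ⊔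
      Ideal.span (Set.range fun s : 𝓢.LocIdx => (MvPowerSeries.X (𝓢.lv g s) : 𝓢.Lam g)) ⊔
      maximalIdeal (𝓢.Lam g) ^ 2) :
    ℓ ∉ locK 𝒪 {v // v ∈ 𝓢.T₀} {v // v ∈ 𝓢.V} (Fin g) ⊔ maximalIdeal (𝓢.Lam g) ^ 2 := by
  refine fun h1 => h (mem_of_mem_locK_sup (le_sup_left.trans le_sup_left) (fun s hs => ?_)
    le_sup_right h1)
  refine Ideal.mem_sup_left (Ideal.mem_sup_right (Ideal.subset_span ?_))
  rcases s with s | s | s | s
  · exact ⟨Sum.inl s, rfl⟩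
  · exact ⟨Sum.inr (Sum.inl s), rfl⟩
  · exact ⟨Sum.inr (Sum.inr s), rfl⟩
  · exact absurd rfl (hs s)

/-- **The Galois side of the patching argument.** -/
structure GalSide (𝓢 : Setup 𝒪 p) (L : PCond) (S : Finset ℕ) where
  /-- the number of Taylor-Wiles primes -/
  m : ℕ
  δ_le : 𝓢.δ ≤ m
  /-- the Taylor-Wiles primes -/
  qv : ℕ → Fin m → ℕ
  good : ∀ n, 𝓢.GoodQ (n + 1) S (qv n)
  /-- the deformation rings and their presentations -/
  Lv : ∀ n, 𝓢.Level L (qv n) (m - 𝓢.δ)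
  D₀ : DeformationRingData 𝒪 𝓢.ρbar (𝓢.type L ∅)
  ψ : ∀ n, (Lv n).D.R →ₐ[𝒪] D₀.R
  ψ_local : ∀ n, IsLocalHom (ψ n : (Lv n).D.R →+* D₀.R)
  ψ_equiv : ∀ n,
    ((Lv n).D.ρ.baseChangeAlong (ψ n : (Lv n).D.R →+* D₀.R) (ψ_local n)).IsEquiv D₀.ρ
  ψ_surj : ∀ n, Function.Surjective (ψ n)
  ψ_θ : ∀ n i, ψ n (((Lv n).tw i).θ : (Lv n).D.R) = 1
  /-- the linear forms, for conditions at `p` with the local bound `3` -/
  linear : ∀ L' : PCond, GoodCond L' (ResidueField 𝒪) →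
    (∀ A : ValuationSubring (AlgebraicClosure ℚ), A.LiesOverPrime p →
      LocalBound 𝓢.rb (A.decompositionSubgroup ℚ) (fun c => L' (defAdic 𝓢.hlev c)) 3) →
    ∀ n (I : Ideal (Lv n).D.R),
      (∀ (f : (Lv n).D.R →+* DualNumber (ResidueField 𝒪)) (hf : IsLocalHom f),
        (∀ x ∈ I, f x = 0) → L' ((Lv n).D.ρ.baseChangeAlong f hf)) →
      ∃ ℓ : 𝓢.Lam (m - 𝓢.δ), (Lv n).γ ℓ ∈ I ∧
        ℓ ∉ locK 𝒪 {v // v ∈ 𝓢.T₀} {v // v ∈ 𝓢.V} (Fin (m - 𝓢.δ)) ⊔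
          maximalIdeal (𝓢.Lam (m - 𝓢.δ)) ^ 2

open Classical in
/-- Existence of the Galois side. -/
theorem nonempty_galSide [Fact p.Prime] [Finite (ResidueField 𝒪)] (𝓢 : Setup 𝒪 p) (hGW : GWcoc p)
    {L : PCond} (hL : GoodCond L (ResidueField 𝒪))
    (hbound : ∀ A : ValuationSubring (AlgebraicClosure ℚ), A.LiesOverPrime p →
      LocalBound 𝓢.rb (A.decompositionSubgroup ℚ) (fun c => L (defAdic 𝓢.hlev c)) 4)
    (hD : ∀ Q : Finset ℕ, Nonempty (DeformationRingData 𝒪 𝓢.ρbar (𝓢.type L Q)))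
    {S : Finset ℕ} (hS : 𝓢.Sg ⊆ S) : Nonempty (𝓢.GalSide L S) := by
  have hchar := 𝓢.charP
  have hUn : UnramOutside 𝓢.Sg (fun σ => 𝓢.rb σ - 1) := fun q hq hqS =>
    𝓢.unrT q hq fun h => hqS (Finset.mem_union_left _ h)
  obtain ⟨m, hm⟩ := 𝓢.exists_levels (TWGroup.twElements 𝓢.hp 𝓢.hp2 𝓢.hcyc 𝓢.hsplit 𝓢.noLine)
    (TWGroup.twDetect 𝓢.hp 𝓢.hp2 𝓢.hcyc 𝓢.hsplit 𝓢.noLine)
    (gwad_of_gwcoc 𝓢.hp2 hGW 𝓢.hlev 𝓢.hcyc)
    (dualFin p _ 𝓢.rb 𝓢.hlev 𝓢.hcyc 𝓢.Sg (Finset.mem_union_left _ 𝓢.hpS) 𝓢.prime hUn)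
  choose qv hq hA hB using fun n : ℕ => hm S (n + 1) hS (Nat.succ_ne_zero n)
  obtain ⟨D₀⟩ := hD ∅
  have hδ := (hA 0 L hL hbound).1
  have hlv : ∀ n, Nonempty (𝓢.Level L (qv n) (m - 𝓢.δ)) := fun n => by
    obtain ⟨D⟩ := hD (Finset.univ.image (qv n))
    obtain ⟨Lv, -⟩ := (hA n L hL hbound).2 D
    exact ⟨Lv⟩
  let Lv : ∀ n, 𝓢.Level L (qv n) (m - 𝓢.δ) := fun n => (hlv n).some
  choose ψ h1 h2 h3 h4 using fun n => Level.exists_bottom hL hS (hq n) (Lv n) D₀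
  exact ⟨{
    m := m, δ_le := hδ, qv := qv, good := hq, Lv := Lv, D₀ := D₀, ψ := ψ, ψ_local := h1,
    ψ_equiv := h2, ψ_surj := h3, ψ_θ := h4
    linear := fun L' hL' hb n I hI => by
      obtain ⟨ℓ, h5, h6⟩ := hB n L L' hL hL' hb (Lv n) I hI
      exact ⟨ℓ, h5, 𝓢.notMem_locK h6⟩ }⟩


/-! ### Existence of the deformation rings -/

lemma unram_Sg (𝓢 : Setup 𝒪 p) (Q : Finset ℕ) :
    UnramOutside (𝓢.Sg ∪ Q) (fun σ => 𝓢.rb σ - 1) := fun q hq hqS =>
  𝓢.unrT q hq fun h => hqS (Finset.mem_union_left _ (Finset.mem_union_left _ h))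

/-- Existence of the deformation rings, flat case. -/
theorem nonempty_ring_flat [Fact p.Prime] [Finite (ResidueField 𝒪)] (𝓢 : Setup 𝒪 p)
    (hbar : 𝓢.type (Lflat p) ∅ (GaloisRepAdic.ofResidualGaloisRep 𝓢.ρbar)) (Q : Finset ℕ) :
    Nonempty (DeformationRingData 𝒪 𝓢.ρbar (𝓢.type (Lflat p) Q)) := by
  have hchar := 𝓢.charP
  exact nonempty_condFlat 𝓢.hp𝒪 𝓢.habs (𝓢.Sg ∪ Q) 𝓢.Sg
    (𝓢.type_mono (Finset.empty_subset Q) hbar) 𝓢.rb 𝓢.hrb
    (finite_unramOutside (homFin p) 𝓢.hlev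
      (Finset.mem_union_left _ (Finset.mem_union_left _ 𝓢.hpS)) (𝓢.unram_Sg Q) 0)

/-- Existence of the deformation rings, strictly ordinary case. -/
theorem nonempty_ring_ord [Fact p.Prime] [Finite (ResidueField 𝒪)] (𝓢 : Setup 𝒪 p)
    (hbar : 𝓢.type (Lord p) ∅ (GaloisRepAdic.ofResidualGaloisRep 𝓢.ρbar)) (Q : Finset ℕ) :
    Nonempty (DeformationRingData 𝒪 𝓢.ρbar (𝓢.type (Lord p) Q)) := by
  have hchar := 𝓢.charP
  exact nonempty_condOrd 𝓢.hp𝒪 𝓢.hp2 𝓢.habs (𝓢.Sg ∪ Q) 𝓢.Sg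
    (𝓢.type_mono (Finset.empty_subset Q) hbar) 𝓢.rb 𝓢.hrb
    (finite_unramOutside (homFin p) 𝓢.hlev
      (Finset.mem_union_left _ (Finset.mem_union_left _ 𝓢.hpS)) (𝓢.unram_Sg Q) 0)

/-- The trivial deformation to the dual numbers. -/
lemma defAdic_zero_isEquiv (𝓢 : Setup 𝒪 p)
    (h : IsLocalHom (algebraMap (ResidueField 𝒪) (DualNumber (ResidueField 𝒪)))) :
    ((GaloisRepAdic.ofResidualGaloisRep 𝓢.ρbar).baseChangeAlong
      (algebraMap (ResidueField 𝒪) (DualNumber (ResidueField 𝒪))) h).IsEquiv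
      (defAdic 𝓢.hlev (0 : Z1 𝓢.rb (MonoidHom.id GQ) 0)) := by
  refine isEquiv_of_hasMat (𝓢.hrb.ofResidual.baseChangeAlong _ h)
    ((defAdic_hasMat 𝓢.hlev 0).of_eq fun σ => ?_)
  refine dm_ext ?_ ?_
  · rw [dualMat, fm_dm]
    rfl
  · rw [dualMat, sm_dm]
    show ((0 : Z1 𝓢.rb (MonoidHom.id GQ) 0) : GQ → M2 (ResidueField 𝒪)) σ * 𝓢.rb σ = _
    ext i j
    show ((0 : M2 (ResidueField 𝒪)) * 𝓢.rb σ) i j = _
    rw [zero_mul]
    rfl

/-- The Galois side in the flat case. -/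
theorem nonempty_galSide_flat [Fact p.Prime] [Finite (ResidueField 𝒪)] (𝓢 : Setup 𝒪 p)
    (hGW : GWcoc p) (hbar : 𝓢.type (Lflat p) ∅ (GaloisRepAdic.ofResidualGaloisRep 𝓢.ρbar))
    {S : Finset ℕ} (hS : 𝓢.Sg ⊆ S) : Nonempty (𝓢.GalSide (Lflat p) S) := by
  have hchar := 𝓢.charP
  have hloc : IsLocalHom (algebraMap (ResidueField 𝒪) (DualNumber (ResidueField 𝒪))) :=
    ⟨fun a ha => by
      rw [isUnit_iff_ne_zero]
      rintro rfl
      rw [map_zero] at ha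
      exact not_isUnit_zero ha⟩
  refine 𝓢.nonempty_galSide hGW (goodCond_flat p _)
    (FlatP.flatBound p 𝓢.hp2 _ 𝓢.rb 𝓢.hlev 𝓢.hcyc 𝓢.hsplit ?_) (𝓢.nonempty_ring_flat hbar) hS
  exact FlatGS.isFlatAt_of_isEquiv (𝓢.defAdic_zero_isEquiv hloc)
    (FlatGS.isFlatAt_baseChangeAlong _ hloc _ (finite_residueField_dual _) hbar.1.2.1)

/-- The Galois side in the strictly ordinary case. -/
theorem nonempty_galSide_ord [Fact p.Prime] [Finite (ResidueField 𝒪)] (𝓢 : Setup 𝒪 p)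
    (hGW : GWcoc p) (hbar : 𝓢.type (Lord p) ∅ (GaloisRepAdic.ofResidualGaloisRep 𝓢.ρbar))
    {S : Finset ℕ} (hS : 𝓢.Sg ⊆ S) : Nonempty (𝓢.GalSide (Lord p) S) := by
  have hchar := 𝓢.charP
  exact 𝓢.nonempty_galSide hGW (goodCond_ord p _)
    (fun A hA => localBound_isStrictOrdinaryAt 𝓢.hp2 𝓢.hlev 𝓢.hcyc A hA)
    (𝓢.nonempty_ring_ord hbar) hS

/-- The linear form for strict and flat deformations. -/
theorem GalSide.linear_both [Fact p.Prime] [Finite (ResidueField 𝒪)] {𝓢 : Setup 𝒪 p}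
    {L : PCond} {S : Finset ℕ} (G : 𝓢.GalSide L S) (n : ℕ) (I : Ideal (G.Lv n).D.R)
    (hI : ∀ (f : (G.Lv n).D.R →+* DualNumber (ResidueField 𝒪)) (hf : IsLocalHom f),
        (∀ x ∈ I, f x = 0) → Lboth p ((G.Lv n).D.ρ.baseChangeAlong f hf)) :
    ∃ ℓ : 𝓢.Lam (G.m - 𝓢.δ), (G.Lv n).γ ℓ ∈ I ∧
        ℓ ∉ locK 𝒪 {v // v ∈ 𝓢.T₀} {v // v ∈ 𝓢.V} (Fin (G.m - 𝓢.δ)) ⊔
          maximalIdeal (𝓢.Lam (G.m - 𝓢.δ)) ^ 2 := by
  have hchar := 𝓢.charP
  exact G.linear (Lboth p) (goodCond_both p _)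
    (fun A hA => FlatP.localBound_flat_strictOrdinary 𝓢.hp2 𝓢.hlev 𝓢.hcyc A hA) n I hI

/-- A lift of `ρbar` of the right type is a point of `R_∅`. -/
theorem GalSide.exists_point {𝓢 : Setup 𝒪 p} {L : PCond} {S : Finset ℕ} (G : 𝓢.GalSide L S)
    {x : GaloisRepAdic 𝒪} (hx : x.residual.IsEquiv 𝓢.ρbar) (ht : 𝓢.type L ∅ x) :
    ∃ (x₀ : G.D₀.R →ₐ[𝒪] 𝒪) (h : IsLocalHom (x₀ : G.D₀.R →+* 𝒪)),
      (G.D₀.ρ.baseChangeAlong (x₀ : G.D₀.R →+* 𝒪) h).IsEquiv x := by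
  have hs : Function.Surjective (residue 𝒪 ∘ algebraMap 𝒪 𝒪) := residue_surjective
  have h0 : x.residual.IsEquiv
      (𝓢.ρbar.baseChangeAlong (ResidueField.map (algebraMap 𝒪 𝒪))) := by
    obtain ⟨e⟩ := hx
    have h1 : HasMat (x.residual.ρ : GQ → _) 𝓢.rb := 𝓢.hrb.of_isEquiv_res ⟨e.symm⟩
    refine isEquiv_of_hasMat_res h1 ((𝓢.hrb.baseChangeAlong_res _).of_eq fun σ => ?_)
    ext i j
    rw [Matrix.map_apply]
    exact RingHom.congr_fun (ResidueField.map_id (R := 𝒪)) _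
  obtain ⟨φ, ⟨hφ, h1⟩, -⟩ := G.D₀.universal 𝒪 hs x ht h0
  exact ⟨φ, hφ, h1⟩

end Setup

end Fermat.Agent.RTD
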