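import Fermat.Agent.RTD.TWLocal

set_option autoImplicit false

/-!
# The groups of diamond operators

`Dia p qv = ∏ i, ℤ/P_i` where `P_i` is the `p`-part of `qv i - 1`, the characters
`tauM p qv M : (ZMod M)ˣ →* Dia p qv` and the generators `gen p qv i`.
-/

namespace Fermat.Agent.RTD

variable (p : ℕ)

instance pPart_neZero [NeZero p] (q : ℕ) : NeZero (pPart p q) := by
  unfold pPart
  infer_instance

lemma pPart_dvd (q : ℕ) : pPart p q ∣ q - 1 := Nat.ordProj_dvd _ _

/-- A surjective homomorphism `(ℤ/q)ˣ → ℤ/P` exists. -/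
lemma exists_dlog {q : ℕ} (hq : q.Prime) :
    ∃ f : (ZMod q)ˣ →* Multiplicative (ZMod (pPart p q)), Function.Surjective f := by
  haveI : Fact q.Prime := ⟨hq⟩
  have hcard : Nat.card (ZMod q)ˣ = q - 1 := by
    rw [Nat.card_eq_fintype_card, ZMod.card_units_eq_totient, Nat.totient_prime hq]
  have hd : pPart p q ∣ Nat.card (ZMod q)ˣ := by rw [hcard]; exact pPart_dvd p q
  let e : Multiplicative (ZMod (Nat.card (ZMod q)ˣ)) ≃* (ZMod q)ˣ :=
    zmodCyclicMulEquiv (inferInstance : IsCyclic (ZMod q)ˣ)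
  let c : ZMod (Nat.card (ZMod q)ˣ) →+* ZMod (pPart p q) := ZMod.castHom hd _
  refine ⟨(AddMonoidHom.toMultiplicative c.toAddMonoidHom).comp e.symm.toMonoidHom, ?_⟩
  intro y
  obtain ⟨x, hx⟩ := ZMod.castHom_surjective hd (Multiplicative.toAdd y)
  refine ⟨e (Multiplicative.ofAdd x), ?_⟩
  show Multiplicative.ofAdd (c (Multiplicative.toAdd (e.symm (e (Multiplicative.ofAdd x))))) = y
  rw [MulEquiv.symm_apply_apply, toAdd_ofAdd]
  exact congrArg Multiplicative.ofAdd hx

open Classical in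
/-- The discrete logarithm `(ℤ/q)ˣ → ℤ/P`. -/
noncomputable def dlog (q : ℕ) : (ZMod q)ˣ →* Multiplicative (ZMod (pPart p q)) :=
  if h : ∃ f : (ZMod q)ˣ →* Multiplicative (ZMod (pPart p q)), Function.Surjective f then h.choose
  else 1

lemma dlog_surjective {q : ℕ} (hq : q.Prime) : Function.Surjective (dlog p q) := by
  classical
  have h := exists_dlog p hq
  rw [dlog, dif_pos h]
  exact h.choose_spec

variable {m : ℕ} (qv : Fin m → ℕ)

/-- The group of diamond operators at the Taylor-Wiles primes `qv`. -/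
abbrev Dia : Type := ∀ i, Multiplicative (ZMod (pPart p (qv i)))

noncomputable instance [NeZero p] : Fintype (Dia p qv) := by
  classical
  infer_instance

/-- The generators of `Dia`. -/
noncomputable def gen (i : Fin m) : Dia p qv :=
  Pi.mulSingle (M := fun i => Multiplicative (ZMod (pPart p (qv i)))) i
    (Multiplicative.ofAdd 1)

lemma eq_zpow_ofAdd_one {n : ℕ} (x : Multiplicative (ZMod n)) :
    ∃ k : ℤ, x = Multiplicative.ofAdd (1 : ZMod n) ^ k := by
  obtain ⟨k, hk⟩ := ZMod.intCast_surjective (Multiplicative.toAdd x)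
  refine ⟨k, ?_⟩
  rw [← ofAdd_zsmul, zsmul_one, hk, ofAdd_toAdd]

lemma mulSingle_mem_zpowers (i : Fin m) (x : Multiplicative (ZMod (pPart p (qv i)))) :
    Pi.mulSingle (M := fun i => Multiplicative (ZMod (pPart p (qv i)))) i x ∈
      Subgroup.zpowers (gen p qv i) := by
  obtain ⟨k, rfl⟩ := eq_zpow_ofAdd_one x
  refine Subgroup.mem_zpowers_iff.mpr ⟨k, ?_⟩
  rw [gen, ← Pi.mulSingle_zpow]

/-- The generators generate. -/
theorem closure_gen : Subgroup.closure (Set.range (gen p qv)) = ⊤ := by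
  rw [eq_top_iff]
  rintro x -
  rw [← Finset.univ_prod_mulSingle x]
  refine Subgroup.prod_mem _ fun i _ => ?_
  have h : Subgroup.zpowers (gen p qv i) ≤ Subgroup.closure (Set.range (gen p qv)) := by
    rw [Subgroup.zpowers_le]
    exact Subgroup.subset_closure ⟨i, rfl⟩
  exact h (mulSingle_mem_zpowers p qv i (x i))

/-- The components of a product of powers of generators. -/
lemma prod_gen_apply (e : Fin m → ℤ) (i : Fin m) :
    (∏ j, gen p qv j ^ e j) i = Multiplicative.ofAdd (1 : ZMod (pPart p (qv i))) ^ e i := by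
  rw [Finset.prod_apply, Finset.prod_eq_single i]
  · rw [Pi.pow_apply, gen, Pi.mulSingle_eq_same]
  · intro j _ hj
    rw [Pi.pow_apply, gen, Pi.mulSingle_eq_of_ne (Ne.symm hj), one_zpow]
  · intro h
    exact absurd (Finset.mem_univ i) h

/-- The relations between the generators are divisible by the `P_i`. -/
theorem dvd_of_prod_gen {e : Fin m → ℤ} (h : ∏ i, gen p qv i ^ e i = 1) (i : Fin m) :
    ((pPart p (qv i) : ℕ) : ℤ) ∣ e i := by
  have h1 := prod_gen_apply p qv e i
  rw [h, Pi.one_apply, ← ofAdd_zsmul, ← ofAdd_zero] at h1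
  have h2 : (0 : ZMod (pPart p (qv i))) = e i • (1 : ZMod (pPart p (qv i))) :=
    Multiplicative.ofAdd.injective h1
  rw [zsmul_one] at h2
  exact (ZMod.intCast_zmod_eq_zero_iff_dvd _ _).mp h2.symm

/-- The relations between the generators are divisible by `p ^ n`. -/
theorem pow_dvd_of_prod_gen [hp : Fact p.Prime] {n : ℕ} (hq : ∀ i, qv i ≠ 0 ∧ qv i ≠ 1)
    (hn : ∀ i, p ^ n ∣ qv i - 1) {e : Fin m → ℤ} (h : ∏ i, gen p qv i ^ e i = 1) (i : Fin m) :
    ((p ^ n : ℕ) : ℤ) ∣ e i := by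
  refine dvd_trans ?_ (dvd_of_prod_gen p qv h i)
  have h1 : p ^ n ∣ pPart p (qv i) := by
    unfold pPart
    refine pow_dvd_pow _ ?_
    refine (hp.out.pow_dvd_iff_le_factorization ?_).mp (hn i)
    have := hq i
    omega
  exact_mod_cast h1

lemma gen_pow (i : Fin m) : gen p qv i ^ pPart p (qv i) = 1 := by
  rw [gen, ← Pi.mulSingle_pow, ← ofAdd_nsmul]
  have : pPart p (qv i) • (1 : ZMod (pPart p (qv i))) = 0 := by
    rw [nsmul_one, ZMod.natCast_self]
  rw [this, ofAdd_zero, Pi.mulSingle_one]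

lemma odd_pPart [hp : Fact p.Prime] (hp2 : p ≠ 2) (q : ℕ) : Odd (pPart p q) :=
  (hp.out.odd_of_ne_two hp2).pow

/-- The group of diamond operators is a `p`-group. -/
lemma exists_card_Dia [NeZero p] : ∃ k, Nat.card (Dia p qv) = p ^ k := by
  classical
  rw [Nat.card_eq_fintype_card, Fintype.card_pi]
  refine ⟨∑ i, (qv i - 1).factorization p, ?_⟩
  rw [← Finset.prod_pow_eq_pow_sum]
  refine Finset.prod_congr rfl fun i _ => ?_
  rw [Fintype.card_multiplicative, ZMod.card]
  rfl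

/-- The character of conductor dividing `∏ qv i` with values in the diamond group. -/
noncomputable def tauM (M : ℕ) (hM : ∀ i, qv i ∣ M) : (ZMod M)ˣ →* Dia p qv :=
  Pi.monoidHom fun i => (dlog p (qv i)).comp (ZMod.unitsMap (hM i))

variable {p qv}

lemma tauM_apply {M : ℕ} (hM : ∀ i, qv i ∣ M) (u : (ZMod M)ˣ) (i : Fin m) :
    tauM p qv M hM u i = dlog p (qv i) (ZMod.unitsMap (hM i) u) := rfl

/-- Compatibility with change of level. -/
theorem tauM_comp {M M' : ℕ} (hM : ∀ i, qv i ∣ M) (hM' : ∀ i, qv i ∣ M') (h : M ∣ M') :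
    tauM p qv M' hM' = (tauM p qv M hM).comp (ZMod.unitsMap h) := by
  ext u i
  have h1 : ZMod.unitsMap (hM' i) u = ZMod.unitsMap (hM i) (ZMod.unitsMap h u) := by
    rw [← MonoidHom.comp_apply, ZMod.unitsMap_comp]
  show dlog p (qv i) (ZMod.unitsMap (hM' i) u) =
    dlog p (qv i) (ZMod.unitsMap (hM i) (ZMod.unitsMap h u))
  rw [h1]

/-- The kernel of `(ℤ/M)ˣ → (ℤ/m')ˣ` is mapped to the group generated by `gen i`, `M = qv i * m'`. -/
theorem tauM_mem_zpowers {M m' : ℕ} (hM : ∀ i, qv i ∣ M) (h : m' ∣ M) (i : Fin m)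
    (hj : ∀ j, j ≠ i → qv j ∣ m') {u : (ZMod M)ˣ} (hu : ZMod.unitsMap h u = 1) :
    tauM p qv M hM u ∈ Subgroup.zpowers (gen p qv i) := by
  have h1 : tauM p qv M hM u =
      Pi.mulSingle (M := fun i => Multiplicative (ZMod (pPart p (qv i)))) i
        (tauM p qv M hM u i) := by
    funext j
    by_cases hji : j = i
    · subst hji
      rw [Pi.mulSingle_eq_same]
    · rw [Pi.mulSingle_eq_of_ne hji, tauM_apply]
      have h2 : ZMod.unitsMap (hM j) u = ZMod.unitsMap (hj j hji) (ZMod.unitsMap h u) := by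
        rw [← MonoidHom.comp_apply, ZMod.unitsMap_comp]
      rw [h2, hu, map_one, map_one]
  rw [h1]
  exact mulSingle_mem_zpowers p qv i _

/-- `gen i` is the image of an element of the kernel of `(ℤ/M)ˣ → (ℤ/m')ˣ`. -/
theorem exists_tauM_eq_gen {M m' : ℕ} (hM : ∀ i, qv i ∣ M) (h : m' ∣ M) (i : Fin m)
    (hi : (qv i).Prime) (hMi : M = qv i * m') (him : ¬ qv i ∣ m') (hj : ∀ j, j ≠ i → qv j ∣ m') :
    ∃ u : (ZMod M)ˣ, ZMod.unitsMap h u = 1 ∧ tauM p qv M hM u = gen p qv i := by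
  obtain ⟨w, hw⟩ := dlog_surjective p hi (Multiplicative.ofAdd 1)
  have hcop : Nat.Coprime (qv i) m' := (Nat.Prime.coprime_iff_not_dvd hi).mpr him
  subst hMi
  let e := ZMod.chineseRemainder hcop
  let u : (ZMod (qv i * m'))ˣ := Units.mapEquiv e.symm.toMulEquiv (MulEquiv.prodUnits.symm (w, 1))
  have hu1 : ZMod.unitsMap (hM i) u = w := by
    apply Units.ext
    show ZMod.castHom (hM i) (ZMod (qv i)) (e.symm ((w : ZMod (qv i)), 1)) = w
    have h1 : ZMod.castHom (hM i) (ZMod (qv i)) = (RingHom.fst _ _).comp e.toRingHom :=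
      RingHom.ext_zmod _ _
    rw [h1]
    show (e (e.symm ((w : ZMod (qv i)), 1))).1 = w
    rw [RingEquiv.apply_symm_apply]
  have hu2 : ZMod.unitsMap h u = 1 := by
    apply Units.ext
    show ZMod.castHom h (ZMod m') (e.symm ((w : ZMod (qv i)), 1)) = 1
    have h1 : ZMod.castHom h (ZMod m') = (RingHom.snd _ _).comp e.toRingHom :=
      RingHom.ext_zmod _ _
    rw [h1]
    show (e (e.symm ((w : ZMod (qv i)), 1))).2 = 1
    rw [RingEquiv.apply_symm_apply]
  refine ⟨u, hu2, ?_⟩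
  funext j
  by_cases hji : j = i
  · subst hji
    rw [tauM_apply, hu1, hw, gen, Pi.mulSingle_eq_same]
  · rw [tauM_apply, gen, Pi.mulSingle_eq_of_ne hji]
    have h2 : ZMod.unitsMap (hM j) u = ZMod.unitsMap (hj j hji) (ZMod.unitsMap h u) := by
      rw [← MonoidHom.comp_apply, ZMod.unitsMap_comp]
    rw [h2, hu2, map_one, map_one]

end Fermat.Agent.RTD
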