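import Fermat.Agent.RTD.RelTangent
import Fermat.Agent.LocRing.Eval

set_option autoImplicit false

/-!
# Functoriality of deformation rings

If the universal deformation of type `𝒟` is also of type `𝒟'`, there is a unique map `R' → R`
compatible with the universal deformations, and it is surjective.
-/

namespace Fermat.Agent.RTD

open IsLocalRing Matrix Fermat.Agent.S53norm GaloisRep Fermat.Agent.TW

/-- A map to the dual numbers compatible with the residue map is local. -/
theorem isLocalHom_dual {𝒪 : Type} [CommRing 𝒪] [IsLocalRing 𝒪] {R : Type} [CommRing R]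
    [IsLocalRing R] [Algebra 𝒪 R] (f : R →+* DualNumber (ResidueField 𝒪))
    (hf : f.comp (algebraMap 𝒪 R) =
      (algebraMap (ResidueField 𝒪) (DualNumber (ResidueField 𝒪))).comp (residue 𝒪)) :
    IsLocalHom f := by
  let g : R →+* ResidueField 𝒪 :=
    (TrivSqZeroExt.fstHom (ResidueField 𝒪) (ResidueField 𝒪) (ResidueField 𝒪) :
      DualNumber (ResidueField 𝒪) →+* ResidueField 𝒪).comp f
  have hg : Function.Surjective g := by
    intro y
    obtain ⟨c, hc⟩ := residue_surjective y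
    refine ⟨algebraMap 𝒪 R c, ?_⟩
    show TrivSqZeroExt.fst (f (algebraMap 𝒪 R c)) = y
    have := RingHom.congr_fun hf c
    rw [RingHom.comp_apply] at this
    rw [this]
    exact hc
  have hgm : RingHom.ker g = maximalIdeal R :=
    IsLocalRing.eq_maximalIdeal (RingHom.ker_isMaximal_of_surjective g hg)
  constructor
  intro a ha
  by_contra hna
  have h1 : a ∈ RingHom.ker g := by rw [hgm]; exact hna
  have h2 : TrivSqZeroExt.fst (f a) = 0 := h1
  have h3 := (TrivSqZeroExt.isUnit_iff_isUnit_fst).mp ha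
  rw [h2] at h3
  exact not_isUnit_zero h3

variable {𝒪 : Type} [CommRing 𝒪] [IsDomain 𝒪] [IsDiscreteValuationRing 𝒪]
  [IsAdicComplete (maximalIdeal 𝒪) 𝒪]
  {ρbar : ResidualGaloisRep (ResidueField 𝒪)}
  {𝒟 𝒟' : ∀ ⦃A : Type⦄ [CommRing A] [IsLocalRing A] [Algebra 𝒪 A], GaloisRepAdic A → Prop}

/-- Functoriality: existence of the map. -/
theorem exists_functor (D' : DeformationRingData 𝒪 ρbar 𝒟') (D : DeformationRingData 𝒪 ρbar 𝒟)
    (h : 𝒟' D.ρ) : ∃ (ψ : D'.R →ₐ[𝒪] D.R) (hψ : IsLocalHom (ψ : D'.R →+* D.R)),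
      (D'.ρ.baseChangeAlong (ψ : D'.R →+* D.R) hψ).IsEquiv D.ρ := by
  obtain ⟨ψ, ⟨hψ, h1⟩, -⟩ := D'.universal D.R D.residue_surjective D.ρ h D.residual_isEquiv
  exact ⟨ψ, hψ, h1⟩

/-- The residual representation of a base change of the universal deformation. -/
theorem residual_baseChangeAlong_isEquiv {R : Type} [CommRing R] [IsLocalRing R] [Algebra 𝒪 R]
    [IsLocalHom (algebraMap 𝒪 R)] {ρ : GaloisRepAdic R}
    (h0 : ρ.residual.IsEquiv (ρbar.baseChangeAlong (ResidueField.map (algebraMap 𝒪 R))))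
    {A : Type} [CommRing A] [IsLocalRing A] [Algebra 𝒪 A] [IsLocalHom (algebraMap 𝒪 A)]
    (f : R →ₐ[𝒪] A) (hf : IsLocalHom (f : R →+* A)) :
    (ρ.baseChangeAlong (f : R →+* A) hf).residual.IsEquiv
      (ρbar.baseChangeAlong (ResidueField.map (algebraMap 𝒪 A))) := by
  obtain ⟨rb, hrb⟩ := exists_hasMat_res ρbar
  obtain ⟨r, hr⟩ := exists_hasMat_adic ρ
  obtain ⟨e⟩ := h0
  have h1 := (hrb.baseChangeAlong_res (ResidueField.map (algebraMap 𝒪 R))).of_isEquiv_res ⟨e.symm⟩
  obtain ⟨U, hU⟩ := hr.residual.exists_conj h1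
  let fb : ResidueField R →+* ResidueField A := ResidueField.map (f : R →+* A)
  let U' : (M2 (ResidueField A))ˣ := Units.map (fb.mapMatrix (m := Fin 2)).toMonoidHom U
  have hU' : (U' : M2 (ResidueField A)) = (U : M2 (ResidueField R)).map fb := rfl
  have h2 := ((hr.baseChangeAlong (f : R →+* A) hf).residual).conj U'
  refine isEquiv_of_hasMat_res h2
    ((hrb.baseChangeAlong_res (ResidueField.map (algebraMap 𝒪 A))).of_eq fun σ => ?_)
  have h3 : (rb σ).map (ResidueField.map (algebraMap 𝒪 A)) =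
      ((rb σ).map (ResidueField.map (algebraMap 𝒪 R))).map fb := by
    rw [Matrix.map_map]
    congr 1
    ext x
    obtain ⟨x, rfl⟩ := residue_surjective x
    show residue A (algebraMap 𝒪 A x) = residue A (f (algebraMap 𝒪 R x))
    rw [f.commutes]
  have h4 : ((r σ).map (f : R →+* A)).map (residue A) = ((r σ).map (residue R)).map fb := by
    rw [Matrix.map_map, Matrix.map_map]
    rfl
  show (rb σ).map (ResidueField.map (algebraMap 𝒪 A)) =
    (U' : M2 (ResidueField A)) * (((r σ).map (f : R →+* A)).map (residue A)) *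
      ((U'⁻¹ : (M2 (ResidueField A))ˣ) : M2 (ResidueField A))
  rw [h3, h4, hU', ← Matrix.map_mul, hU σ, Matrix.map_mul, ← hU', mul_assoc, Units.mul_inv, mul_one]

/-- Two homomorphisms from a deformation ring to the same ring which give equivalent
representations are equal. -/
theorem algHom_ext_of_isEquiv (D : DeformationRingData 𝒪 ρbar 𝒟) {A : Type} [CommRing A]
    [IsLocalRing A] [IsNoetherianRing A] [IsAdicComplete (maximalIdeal A) A] [Algebra 𝒪 A]
    [IsLocalHom (algebraMap 𝒪 A)]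
    (hres : Function.Surjective (residue A ∘ algebraMap 𝒪 A))
    (f g : D.R →ₐ[𝒪] A) (hf : IsLocalHom (f : D.R →+* A)) (hg : IsLocalHom (g : D.R →+* A))
    (hD : 𝒟 (D.ρ.baseChangeAlong (f : D.R →+* A) hf))
    (h : (D.ρ.baseChangeAlong (g : D.R →+* A) hg).IsEquiv
      (D.ρ.baseChangeAlong (f : D.R →+* A) hf)) : f = g := by
  obtain ⟨φ, -, huniq⟩ := D.universal A hres _ hD
    (residual_baseChangeAlong_isEquiv D.residual_isEquiv f hf)
  rw [huniq f ⟨hf, ⟨GaloisRepAdic.Equiv.refl _⟩⟩, huniq g ⟨hg, h⟩]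

/-- The base change of the compatibility of a functoriality map. -/
theorem isEquiv_baseChange_comp {R R' A : Type} [CommRing R] [IsLocalRing R] [CommRing R']
    [IsLocalRing R'] [CommRing A] [IsLocalRing A] {ρ : GaloisRepAdic R} {ρ' : GaloisRepAdic R'}
    (ψ : R' →+* R) (hψ : IsLocalHom ψ) (h : (ρ'.baseChangeAlong ψ hψ).IsEquiv ρ)
    (f : R →+* A) (hf : IsLocalHom f) (g : R' →+* A) (hg : IsLocalHom g) (hgf : g = f.comp ψ) :
    (ρ'.baseChangeAlong g hg).IsEquiv (ρ.baseChangeAlong f hf) := by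
  obtain ⟨r, hr⟩ := exists_hasMat_adic ρ'
  have h1 := ((hr.baseChangeAlong ψ hψ).of_isEquiv h).baseChangeAlong f hf
  refine isEquiv_of_hasMat (hr.baseChangeAlong g hg) (h1.of_eq fun σ => ?_)
  rw [Matrix.map_map, hgf]
  rfl

/-- **Surjectivity of the functoriality map.** -/
theorem functor_surjective [Finite (ResidueField 𝒪)] (D' : DeformationRingData 𝒪 ρbar 𝒟')
    (D : DeformationRingData 𝒪 ρbar 𝒟)
    (ψ : D'.R →ₐ[𝒪] D.R) (hψ : IsLocalHom (ψ : D'.R →+* D.R))
    (heq : (D'.ρ.baseChangeAlong (ψ : D'.R →+* D.R) hψ).IsEquiv D.ρ)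
    (hstab : letI := dualAlg 𝒪
      ∀ (φ : D.R →ₐ[𝒪] DualNumber (ResidueField 𝒪))
        (hφ : IsLocalHom (φ : D.R →+* DualNumber (ResidueField 𝒪))),
        𝒟 (D.ρ.baseChangeAlong (φ : D.R →+* DualNumber (ResidueField 𝒪)) hφ)) :
    Function.Surjective ψ := by
  classical
  obtain ⟨s, hs⟩ := (IsNoetherian.noetherian (maximalIdeal D'.R) : (maximalIdeal D'.R).FG)
  let z' : s → D'.R := fun i => i.1
  have hz' : ∀ i, z' i ∈ maximalIdeal D'.R := fun i => by
    rw [← hs]
    exact Ideal.subset_span i.2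
  have hz : ∀ i, ψ (z' i) ∈ maximalIdeal D.R := fun i hu =>
    hz' i (hψ.map_nonunit _ hu)
  -- the tangent space vanishes
  have hcard : Nat.card {f : D.R →+* DualNumber (ResidueField 𝒪) //
        f.comp (algebraMap 𝒪 D.R) =
          (algebraMap (ResidueField 𝒪) (DualNumber (ResidueField 𝒪))).comp (residue 𝒪) ∧
        ∀ i, f (ψ (z' i)) = 0} ≤ Nat.card (ResidueField 𝒪) ^ 0 := by
    rw [pow_zero]
    suffices hsub : Subsingleton {f : D.R →+* DualNumber (ResidueField 𝒪) //
        f.comp (algebraMap 𝒪 D.R) =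
          (algebraMap (ResidueField 𝒪) (DualNumber (ResidueField 𝒪))).comp (residue 𝒪) ∧
        ∀ i, f (ψ (z' i)) = 0} by
      have hfin := Finite.of_subsingleton (α := {f : D.R →+* DualNumber (ResidueField 𝒪) //
        f.comp (algebraMap 𝒪 D.R) =
          (algebraMap (ResidueField 𝒪) (DualNumber (ResidueField 𝒪))).comp (residue 𝒪) ∧
        ∀ i, f (ψ (z' i)) = 0})
      exact Finite.card_le_one_iff_subsingleton.mpr hsub
    refine ⟨?_⟩
    rintro ⟨f, hf1, hf2⟩ ⟨g, hg1, hg2⟩
    apply Subtype.ext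
    show f = g
    letI := dualAlg 𝒪
    have hkill : ∀ (f : D.R →+* DualNumber (ResidueField 𝒪)), (∀ i, f (ψ (z' i)) = 0) →
        ∀ x ∈ maximalIdeal D'.R, f (ψ x) = 0 := by
      intro f hf x hx
      have h1 : maximalIdeal D'.R ≤ RingHom.ker (f.comp (ψ : D'.R →+* D.R)) := by
        rw [← hs, Ideal.span_le]
        intro y hy
        exact hf ⟨y, hy⟩
      exact h1 hx
    have hfg : f.comp (ψ : D'.R →+* D.R) = g.comp (ψ : D'.R →+* D.R) := by
      ext1 x
      obtain ⟨c, hc⟩ := D'.residue_surjective (residue D'.R x)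
      have h1 : x - algebraMap 𝒪 D'.R c ∈ maximalIdeal D'.R := by
        rw [← residue_eq_zero_iff, map_sub, sub_eq_zero]
        exact hc.symm
      have h2 := hkill f hf2 _ h1
      have h3 := hkill g hg2 _ h1
      rw [map_sub, map_sub, sub_eq_zero, ψ.commutes] at h2 h3
      show f (ψ x) = g (ψ x)
      rw [h2, h3]
      exact (RingHom.congr_fun hf1 c).trans (RingHom.congr_fun hg1 c).symm
    have hfl := isLocalHom_dual f hf1
    have hgl := isLocalHom_dual g hg1
    let fa : D.R →ₐ[𝒪] DualNumber (ResidueField 𝒪) :=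
      { f with commutes' := fun z => RingHom.congr_fun hf1 z }
    let ga : D.R →ₐ[𝒪] DualNumber (ResidueField 𝒪) :=
      { g with commutes' := fun z => RingHom.congr_fun hg1 z }
    have hA := dual_isArtinianTestAlgebra (𝒪 := 𝒪)
    haveI := hA.isLocalHom
    haveI := hA.isArtinian
    haveI := isAdicComplete_dual (𝒪 := 𝒪)
    have hcl : IsLocalHom (f.comp (ψ : D'.R →+* D.R)) := by
      haveI := hψ
      haveI := hfl
      infer_instance
    have this : fa = ga := by
      refine algHom_ext_of_isEquiv D hA.residue_surjective fa ga hfl hgl (hstab fa hfl) ?_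
      have e1 := isEquiv_baseChange_comp (ψ : D'.R →+* D.R) hψ heq f hfl
        (f.comp (ψ : D'.R →+* D.R)) hcl rfl
      have e2 := isEquiv_baseChange_comp (ψ : D'.R →+* D.R) hψ heq g hgl
        (f.comp (ψ : D'.R →+* D.R)) hcl hfg
      obtain ⟨e1⟩ := e1
      obtain ⟨e2⟩ := e2
      exact ⟨e2.symm.trans e1⟩
    exact congrArg (fun φ : D.R →ₐ[𝒪] DualNumber (ResidueField 𝒪) =>
      (φ : D.R →+* DualNumber (ResidueField 𝒪))) this
  obtain ⟨γ, hγ, hX⟩ := exists_surjective_of_card_rel (𝒪 := 𝒪) D.residue_surjective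
    (fun i => ψ (z' i)) hz 0 hcard
  let w : s ⊕ Fin 0 → D'.R := Sum.elim z' (fun i => i.elim0)
  have hw : ∀ i, w i ∈ maximalIdeal D'.R := by
    rintro (i | i)
    · exact hz' i
    · exact i.elim0
  let γ' : MvPowerSeries (s ⊕ Fin 0) 𝒪 →ₐ[𝒪] D'.R := Fermat.Agent.LocRing.ev w hw
  have h1 : γ = ψ.comp γ' := by
    refine Fermat.Agent.LocRing.algHom_ext_of_mem (maximalIdeal D.R) ?_ ?_
    · rintro (i | i)
      · rw [hX]; exact hz i
      · exact i.elim0
    · rintro (i | i)
      · rw [hX, AlgHom.comp_apply]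
        show _ = ψ (Fermat.Agent.LocRing.ev w hw _)
        rw [Fermat.Agent.LocRing.ev_X]
        rfl
      · exact i.elim0
  intro x
  obtain ⟨y, rfl⟩ := hγ x
  exact ⟨γ' y, by rw [h1]; rfl⟩

end Fermat.Agent.RTD
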