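import Fermat.Agent.RTD.Diamond
import Fermat.Agent.RT.ThetaGroup
import Fermat.Agent.RT.NormEq

set_option autoImplicit false

/-!
# The action of the diamond group through the inertia elements `θ`
-/

namespace Fermat.Agent.RTD

open Fermat.Agent.RT IsLocalRing

section Hom

variable {p m : ℕ} {qv : Fin m → ℕ} {R : Type*} [CommRing R] {θ : Fin m → Rˣ}

/-- The homomorphism `ℤ/n → G` sending `1` to `g`. -/
noncomputable def cycHom {G : Type*} [CommGroup G] (n : ℕ) (g : G) (hg : g ^ n = 1) :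
    Multiplicative (ZMod n) →* G :=
  AddMonoidHom.toMultiplicativeLeft (ZMod.lift n ⟨zmultiplesHom (Additive G) (Additive.ofMul g), by
    rw [zmultiplesHom_apply, natCast_zsmul, ← ofMul_pow, hg, ofMul_one]⟩)

lemma cycHom_ofAdd_one {G : Type*} [CommGroup G] (n : ℕ) (g : G) (hg : g ^ n = 1) :
    cycHom n g hg (Multiplicative.ofAdd 1) = g := by
  show Additive.toMul (ZMod.lift n _ (1 : ZMod n)) = g
  have h1 : (1 : ZMod n) = ((1 : ℤ) : ZMod n) := by push_cast; rfl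
  rw [h1, ZMod.lift_coe]
  show Additive.toMul ((1 : ℤ) • Additive.ofMul g) = g
  rw [one_zsmul]
  rfl

/-- The homomorphism from the diamond group to the units sending `gen i` to `θ i`. -/
noncomputable def thetaHom (hθ : ∀ i, θ i ^ pPart p (qv i) = 1) : Dia p qv →* Rˣ :=
  ∏ i, (cycHom (pPart p (qv i)) (θ i) (hθ i)).comp
    (Pi.evalMonoidHom (fun i => Multiplicative (ZMod (pPart p (qv i)))) i)

lemma thetaHom_gen (hθ : ∀ i, θ i ^ pPart p (qv i) = 1) (i : Fin m) :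
    thetaHom hθ (gen p qv i) = θ i := by
  rw [thetaHom, MonoidHom.finset_prod_apply, Finset.prod_eq_single i]
  · show cycHom _ (θ i) (hθ i) (gen p qv i i) = θ i
    rw [gen, Pi.mulSingle_eq_same, cycHom_ofAdd_one]
  · intro j _ hj
    show cycHom _ (θ j) (hθ j) (gen p qv i j) = 1
    rw [gen, Pi.mulSingle_eq_of_ne hj, map_one]
  · intro h
    exact absurd (Finset.mem_univ i) h

variable {𝒪 : Type*} [CommRing 𝒪] [Algebra 𝒪 R]

/-- The algebra homomorphism `𝒪[Δ] → R` sending `gen i` to `θ i`. -/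
noncomputable def thetaAlg (𝒪 : Type*) [CommRing 𝒪] [Algebra 𝒪 R]
    (hθ : ∀ i, θ i ^ pPart p (qv i) = 1) : MonoidAlgebra 𝒪 (Dia p qv) →ₐ[𝒪] R :=
  MonoidAlgebra.lift 𝒪 R (Dia p qv) ((Units.coeHom R).comp (thetaHom hθ))

lemma thetaAlg_gen (hθ : ∀ i, θ i ^ pPart p (qv i) = 1) (i : Fin m) :
    thetaAlg 𝒪 hθ (gr 𝒪 (Dia p qv) (gen p qv i)) = (θ i : R) := by
  rw [thetaAlg, gr, MonoidAlgebra.lift_of, MonoidHom.comp_apply, thetaHom_gen]
  rfl

end Hom

section PGroup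

variable (p : ℕ) [hp : Fact p.Prime] {m : ℕ} (qv : Fin m → ℕ)

/-- The diamond group is a `p`-group. -/
theorem isPGroup_Dia : IsPGroup p (Dia p qv) := by
  obtain ⟨k, hk⟩ := exists_card_Dia p qv
  exact IsPGroup.of_card hk

lemma orderOf_gen (i : Fin m) : orderOf (gen p qv i) = pPart p (qv i) := by
  apply Nat.dvd_antisymm
  · exact orderOf_dvd_of_pow_eq_one (gen_pow p qv i)
  · have h : ∏ j, gen p qv j ^ (Pi.single i ((orderOf (gen p qv i) : ℕ) : ℤ) : Fin m → ℤ) j =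
        1 := by
      rw [Finset.prod_eq_single i]
      · rw [Pi.single_eq_same, zpow_natCast, pow_orderOf_eq_one]
      · intro j _ hj
        rw [Pi.single_eq_of_ne hj, zpow_zero]
      · intro h
        exact absurd (Finset.mem_univ i) h
    have h1 := dvd_of_prod_gen p qv h i
    rw [Pi.single_eq_same] at h1
    exact_mod_cast h1

/-- The norm element of a generator. -/
lemma nrm_gen (𝒪 : Type*) [CommRing 𝒪] (i : Fin m) :
    nrm 𝒪 (gen p qv i) = nOp (pPart p (qv i)) (gr 𝒪 (Dia p qv) (gen p qv i)) := by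
  rw [nrm, orderOf_gen]
  rfl

end PGroup

section Theta

variable {p : ℕ} [hp : Fact p.Prime] {m : ℕ} {qv : Fin m → ℕ}
  {𝒪 : Type*} [CommRing 𝒪] [IsLocalRing 𝒪]
  {M : Type*} [AddCommGroup M] [Module 𝒪 M] [Module (MonoidAlgebra 𝒪 (Dia p qv)) M]
  [IsScalarTower 𝒪 (MonoidAlgebra 𝒪 (Dia p qv)) M]
  [Module.Finite (MonoidAlgebra 𝒪 (Dia p qv)) M] [Module.Free (MonoidAlgebra 𝒪 (Dia p qv)) M]
  (Θ : MonoidAlgebra 𝒪 (Dia p qv) →ₐ[𝒪] Module.End 𝒪 M)
  (hcomm : ∀ (a b : MonoidAlgebra 𝒪 (Dia p qv)) (x : M), Θ a (b • x) = b • Θ a x)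

include hcomm in
/-- The augmentation submodules for the two structures agree. -/
theorem toTM_mem (hp𝒪 : (p : 𝒪) ∈ maximalIdeal 𝒪)
    (hN : ∀ i (x : M), Θ (nrm 𝒪 (gen p qv i)) x = nrm 𝒪 (gen p qv i) • x) {x : M}
    (hx : x ∈ (RingHom.ker (aug 𝒪 (Dia p qv)) • ⊤ :
        Submodule (MonoidAlgebra 𝒪 (Dia p qv)) M)) :
    toTM Θ x ∈ (RingHom.ker (aug 𝒪 (Dia p qv)) • ⊤ :
      Submodule (MonoidAlgebra 𝒪 (Dia p qv)) (TM Θ)) := by
  have hloc := isLocalRing_groupRing (p := p) hp𝒪 (isPGroup_Dia p qv)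
  have hker := ker_aug_eq (𝒪 := 𝒪) (gen p qv) (closure_gen p qv)
  have key : ∀ i (y : M), toTM Θ ((gr 𝒪 (Dia p qv) (gen p qv i) - 1 :
      MonoidAlgebra 𝒪 (Dia p qv)) • y) ∈ (RingHom.ker (aug 𝒪 (Dia p qv)) • ⊤ :
      Submodule (MonoidAlgebra 𝒪 (Dia p qv)) (TM Θ)) := by
    intro i y
    have h1 := range_theta_eq Θ hcomm hp𝒪 (isPGroup_Dia p qv) (gen p qv i) (hN i)
    have h2 : (gr 𝒪 (Dia p qv) (gen p qv i) - 1 : MonoidAlgebra 𝒪 (Dia p qv)) • y ∈
        Set.range (fun m : M => Θ (gr 𝒪 (Dia p qv) (gen p qv i) - 1) m) := by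
      rw [h1]
      exact ⟨y, rfl⟩
    obtain ⟨z, hz⟩ := h2
    have h3 : toTM Θ ((gr 𝒪 (Dia p qv) (gen p qv i) - 1 : MonoidAlgebra 𝒪 (Dia p qv)) • y) =
        (gr 𝒪 (Dia p qv) (gen p qv i) - 1 : MonoidAlgebra 𝒪 (Dia p qv)) • toTM Θ z := by
      rw [smul_toTM, ← hz]
    rw [h3]
    refine Submodule.smul_mem_smul ?_ trivial
    rw [hker]
    exact Ideal.subset_span ⟨i, rfl⟩
  refine Submodule.smul_induction_on hx (fun r hr y _ => ?_) (fun y z hy hz => ?_)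
  · rw [hker, Ideal.mem_span_range_iff_exists_fun] at hr
    obtain ⟨c, rfl⟩ := hr
    rw [Finset.sum_smul, map_sum]
    refine Submodule.sum_mem _ fun i _ => ?_
    rw [mul_comm, mul_smul]
    exact key i _
  · rw [map_add]
    exact Submodule.add_mem _ hy hz

end Theta

end Fermat.Agent.RTD
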