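import Mathlib
import Fermat.Agent.S53_Glue

set_option autoImplicit false

/-!
# Equational deformation conditions

A condition on Galois representations which is given by equations, natural in the coefficient
`𝒪`-algebra, between the matrix entries of the representation is a deformation condition.
-/

namespace Fermat.Agent.RTD

open IsLocalRing Matrix Fermat.Agent.S53norm GaloisRep

variable (𝒪 : Type) [CommRing 𝒪] [IsLocalRing 𝒪]

/-- The type of conditions on Galois representations over local `𝒪`-algebras. -/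
abbrev Cond : Type 1 :=
  ∀ ⦃A : Type⦄ [CommRing A] [IsLocalRing A] [Algebra 𝒪 A], GaloisRepAdic A → Prop

/-- The intersection of two conditions. -/
def Cond.and (𝒟 𝒟' : Cond 𝒪) : Cond 𝒪 := fun _ _ _ _ ρ => 𝒟 ρ ∧ 𝒟' ρ

/-- The intersection of a family of conditions. -/
def Cond.all {ι : Type} (𝒟 : ι → Cond 𝒪) : Cond 𝒪 := fun _ _ _ _ ρ => ∀ i, 𝒟 i ρ

variable {𝒪}

/-- An intersection of deformation conditions is a deformation condition. -/
theorem isDeformationCondition_all {ι : Type} {𝒟 : ι → Cond 𝒪}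
    (h : ∀ i, IsDeformationCondition 𝒪 (𝒟 i)) : IsDeformationCondition 𝒪 (Cond.all 𝒪 𝒟) where
  of_isEquiv := fun _ _ _ _ hA _ _ he hρ i => (h i).of_isEquiv hA he (hρ i)
  baseChangeAlong := fun _ _ _ _ _ _ _ _ hA hB φ hφ _ hρ i =>
    (h i).baseChangeAlong hA hB φ hφ (hρ i)
  of_baseChangeAlong_injective := fun _ _ _ _ _ _ _ _ hA hB φ hφ hinj _ hρ i =>
    (h i).of_baseChangeAlong_injective hA hB φ hφ hinj (hρ i)
  of_fibreProduct := fun _ _ _ _ _ _ _ _ _ _ _ _ _ _ _ _ hA hB hC hP f g pA pB hpA hpB h1 h2 h3 _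
      hρ hρ' i =>
    (h i).of_fibreProduct hA hB hC hP f g pA pB hpA hpB h1 h2 h3 (hρ i) (hρ' i)
  iff_forall_surjective := fun A _ _ _ _ _ hloc hs ρ =>
    ⟨fun hρ B _ _ _ hB q hq hqs i =>
      ((h i).iff_forall_surjective hloc hs ρ).mp (hρ i) hB q hq hqs,
     fun hρ i => ((h i).iff_forall_surjective hloc hs ρ).mpr fun B _ _ _ hB q hq hqs =>
      hρ hB q hq hqs i⟩

/-- An intersection of two deformation conditions is a deformation condition. -/
theorem isDeformationCondition_and {𝒟 𝒟' : Cond 𝒪}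
    (h : IsDeformationCondition 𝒪 𝒟) (h' : IsDeformationCondition 𝒪 𝒟') :
    IsDeformationCondition 𝒪 (fun _ _ _ _ ρ => 𝒟 ρ ∧ 𝒟' ρ) where
  of_isEquiv := fun _ _ _ _ hA _ _ he hρ => ⟨h.of_isEquiv hA he hρ.1, h'.of_isEquiv hA he hρ.2⟩
  baseChangeAlong := fun _ _ _ _ _ _ _ _ hA hB φ hφ _ hρ =>
    ⟨h.baseChangeAlong hA hB φ hφ hρ.1, h'.baseChangeAlong hA hB φ hφ hρ.2⟩
  of_baseChangeAlong_injective := fun _ _ _ _ _ _ _ _ hA hB φ hφ hinj _ hρ =>
    ⟨h.of_baseChangeAlong_injective hA hB φ hφ hinj hρ.1,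
      h'.of_baseChangeAlong_injective hA hB φ hφ hinj hρ.2⟩
  of_fibreProduct := fun _ _ _ _ _ _ _ _ _ _ _ _ _ _ _ _ hA hB hC hP f g pA pB hpA hpB h1 h2 h3 _
      hρ hρ' =>
    ⟨h.of_fibreProduct hA hB hC hP f g pA pB hpA hpB h1 h2 h3 hρ.1 hρ'.1,
      h'.of_fibreProduct hA hB hC hP f g pA pB hpA hpB h1 h2 h3 hρ.2 hρ'.2⟩
  iff_forall_surjective := fun A _ _ _ _ _ hloc hs ρ =>
    ⟨fun hρ B _ _ _ hB q hq hqs =>
      ⟨(h.iff_forall_surjective hloc hs ρ).mp hρ.1 hB q hq hqs,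
        (h'.iff_forall_surjective hloc hs ρ).mp hρ.2 hB q hq hqs⟩,
     fun hρ => ⟨(h.iff_forall_surjective hloc hs ρ).mpr fun B _ _ _ hB q hq hqs =>
        (hρ hB q hq hqs).1,
      (h'.iff_forall_surjective hloc hs ρ).mpr fun B _ _ _ hB q hq hqs =>
        (hρ hB q hq hqs).2⟩⟩

/-- Conditions which are equivalent over Artinian test algebras and complete Noetherian algebras. -/
theorem IsDeformationCondition.congr {𝒟 𝒟' : Cond 𝒪} (h : IsDeformationCondition 𝒪 𝒟)
    (heq : ∀ ⦃A : Type⦄ [CommRing A] [IsLocalRing A] [Algebra 𝒪 A],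
      IsLocalHom (algebraMap 𝒪 A) → IsHausdorff (maximalIdeal A) A →
      ∀ ρ : GaloisRepAdic A, 𝒟 ρ ↔ 𝒟' ρ)
    (hart : ∀ ⦃A : Type⦄ [CommRing A] [IsLocalRing A] [Algebra 𝒪 A],
      IsArtinianTestAlgebra 𝒪 A → IsHausdorff (maximalIdeal A) A) :
    IsDeformationCondition 𝒪 𝒟' where
  of_isEquiv := fun _ _ _ _ hA _ _ he hρ =>
    (heq hA.isLocalHom (hart hA) _).mp (h.of_isEquiv hA he ((heq hA.isLocalHom (hart hA) _).mpr hρ))
  baseChangeAlong := fun _ _ _ _ _ _ _ _ hA hB φ hφ _ hρ =>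
    (heq hB.isLocalHom (hart hB) _).mp (h.baseChangeAlong hA hB φ hφ
      ((heq hA.isLocalHom (hart hA) _).mpr hρ))
  of_baseChangeAlong_injective := fun _ _ _ _ _ _ _ _ hA hB φ hφ hinj _ hρ =>
    (heq hA.isLocalHom (hart hA) _).mp (h.of_baseChangeAlong_injective hA hB φ hφ hinj
      ((heq hB.isLocalHom (hart hB) _).mpr hρ))
  of_fibreProduct := fun _ _ _ _ _ _ _ _ _ _ _ _ _ _ _ _ hA hB hC hP f g pA pB hpA hpB h1 h2 h3 _
      hρ hρ' =>
    (heq hP.isLocalHom (hart hP) _).mp (h.of_fibreProduct hA hB hC hP f g pA pB hpA hpB h1 h2 h3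
      ((heq hA.isLocalHom (hart hA) _).mpr hρ) ((heq hB.isLocalHom (hart hB) _).mpr hρ'))
  iff_forall_surjective := fun A _ _ _ hc _ hloc hs ρ => by
    rw [← heq hloc hc.toIsHausdorff ρ, h.iff_forall_surjective hloc hs ρ]
    exact ⟨fun hρ B _ _ _ hB q hq hqs => (heq hB.isLocalHom (hart hB) _).mp (hρ hB q hq hqs),
      fun hρ B _ _ _ hB q hq hqs => (heq hB.isLocalHom (hart hB) _).mpr (hρ hB q hq hqs)⟩

lemma isHausdorff_of_test {A : Type} [CommRing A] [IsLocalRing A] [Algebra 𝒪 A]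
    (hA : IsArtinianTestAlgebra 𝒪 A) : IsHausdorff (maximalIdeal A) A := by
  have := hA.isArtinian
  obtain ⟨n, hn⟩ := (isArtinianRing_iff_isNilpotent_maximalIdeal A).mp hA.isArtinian
  refine ⟨fun x hx => ?_⟩
  have h1 := hx n
  rw [hn, SModEq.zero, Ideal.zero_eq_bot, Submodule.bot_smul, Submodule.mem_bot] at h1
  exact h1

/-- The condition `𝒟` is given by natural equations in the matrices of the representation. -/
structure EqCond (𝒟 : Cond 𝒪) where
  ι : Type
  F : ∀ (A : Type) [CommRing A] [Algebra 𝒪 A], ι → (GQ → M2 A) → M2 A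
  map : ∀ (A B : Type) [CommRing A] [Algebra 𝒪 A] [CommRing B] [Algebra 𝒪 B] (φ : A →ₐ[𝒪] B)
    (i : ι) (r : GQ → M2 A), F B i (fun σ => (r σ).map φ) = (F A i r).map φ
  iff : ∀ ⦃A : Type⦄ [CommRing A] [IsLocalRing A] [Algebra 𝒪 A],
    IsLocalHom (algebraMap 𝒪 A) → IsHausdorff (maximalIdeal A) A →
    ∀ (ρ : GaloisRepAdic A) (r : GQ → M2 A), HasMat (ρ.ρ : GQ → _) r →
      (𝒟 ρ ↔ ∀ i, F A i r = 0)

lemma map_eq_zero_imp {A B : Type} [CommRing A] [CommRing B] (φ : A →+* B)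
    (hφ : Function.Injective φ) {X : M2 A} (h : X.map φ = 0) : X = 0 := by
  ext a b
  have h1 := congrFun (congrFun h a) b
  rw [Matrix.map_apply, Matrix.zero_apply] at h1
  exact hφ (by rw [h1, Matrix.zero_apply, map_zero])

lemma zero_map {A B : Type} [CommRing A] [CommRing B] (φ : A →+* B) :
    (0 : M2 A).map φ = 0 := by
  ext a b; simp

/-- Equational conditions are deformation conditions. -/
theorem EqCond.isDeformationCondition {𝒟 : Cond 𝒪} (E : EqCond 𝒟) :
    IsDeformationCondition 𝒪 𝒟 where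
  of_isEquiv := by
    intro A _ _ _ hA ρ ρ' he hρ
    obtain ⟨r, hr⟩ := exists_hasMat_adic ρ
    rw [E.iff hA.isLocalHom (isHausdorff_of_test hA) ρ r hr] at hρ
    rw [E.iff hA.isLocalHom (isHausdorff_of_test hA) ρ' r (hr.of_isEquiv he)]
    exact hρ
  baseChangeAlong := by
    intro A B _ _ _ _ _ _ hA hB φ hφ ρ hρ
    obtain ⟨r, hr⟩ := exists_hasMat_adic ρ
    rw [E.iff hA.isLocalHom (isHausdorff_of_test hA) ρ r hr] at hρ
    rw [E.iff hB.isLocalHom (isHausdorff_of_test hB) _ _ (hr.baseChangeAlong _ hφ)]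
    intro i
    have h1 := E.map A B φ i r
    rw [hρ i] at h1
    exact h1.trans (zero_map (φ : A →+* B))
  of_baseChangeAlong_injective := by
    intro A B _ _ _ _ _ _ hA hB φ hφ hinj ρ hρ
    obtain ⟨r, hr⟩ := exists_hasMat_adic ρ
    rw [E.iff hA.isLocalHom (isHausdorff_of_test hA) ρ r hr]
    rw [E.iff hB.isLocalHom (isHausdorff_of_test hB) _ _ (hr.baseChangeAlong _ hφ)] at hρ
    intro i
    have h1 := E.map A B φ i r
    exact map_eq_zero_imp (φ : A →+* B) hinj (h1.symm.trans (hρ i))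
  of_fibreProduct := by
    intro A B C P _ _ _ _ _ _ _ _ _ _ _ _ hA hB hC hP f g pA pB hpA hpB h1 h2 h3 ρ hρ hρ'
    obtain ⟨r, hr⟩ := exists_hasMat_adic ρ
    rw [E.iff hP.isLocalHom (isHausdorff_of_test hP) ρ r hr]
    rw [E.iff hA.isLocalHom (isHausdorff_of_test hA) _ _ (hr.baseChangeAlong _ hpA)] at hρ
    rw [E.iff hB.isLocalHom (isHausdorff_of_test hB) _ _ (hr.baseChangeAlong _ hpB)] at hρ'
    intro i
    have h4 := (E.map P A pA i r).symm.trans (hρ i)
    have h5 := (E.map P B pB i r).symm.trans (hρ' i)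
    ext a b
    have h6 := congrFun (congrFun h4 a) b
    have h7 := congrFun (congrFun h5 a) b
    refine h2 ?_
    show (pA _, pB _) = (pA _, pB _)
    rw [Matrix.zero_apply, map_zero, map_zero]
    exact Prod.ext h6 h7
  iff_forall_surjective := by
    intro A _ _ _ hc _ hloc hs ρ
    obtain ⟨r, hr⟩ := exists_hasMat_adic ρ
    rw [E.iff hloc hc.toIsHausdorff ρ r hr]
    constructor
    · intro hρ B _ _ _ hB q hq hqs
      rw [E.iff hB.isLocalHom (isHausdorff_of_test hB) _ _ (hr.baseChangeAlong _ hq)]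
      intro i
      have h1 := E.map A B q i r
      rw [hρ i] at h1
      exact h1.trans (zero_map (q : A →+* B))
    · intro hρ i
      ext a b
      refine eq_of_forall_quot fun n => ?_
      have := isLocalRing_quot (A := A) n
      have hq := isLocalHom_quot (𝒪 := 𝒪) (A := A) n
      have hB := isArtinianTestAlgebra_quot (𝒪 := 𝒪) (A := A) hs n
      have h1 := hρ hB (Ideal.Quotient.mkₐ 𝒪 (maximalIdeal A ^ (n + 1))) hq
        Ideal.Quotient.mk_surjective
      rw [E.iff hB.isLocalHom (isHausdorff_of_test hB) _ _ (hr.baseChangeAlong _ hq)] at h1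
      have h2 := E.map A (A ⧸ maximalIdeal A ^ (n + 1))
        (Ideal.Quotient.mkₐ 𝒪 (maximalIdeal A ^ (n + 1))) i r
      have h3 := congrFun (congrFun (h2.symm.trans (h1 i)) a) b
      rw [Matrix.zero_apply] at h3 ⊢
      rw [map_zero]
      exact h3

end Fermat.Agent.RTD
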