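import Mathlib
import Fermat.Agent.RTD.EqCond
import Fermat.Agent.S30_Cyclo
import Fermat.Prelude.Def_GaloisRep_StrictOrdinary

set_option autoImplicit false

/-!
# The basic local conditions are deformation conditions
-/

namespace Fermat.Agent.RTD

open IsLocalRing Matrix Fermat.Agent.S53norm GaloisRep Fermat.Agent.S30aux

section HasMat

variable {G : Type} {A : Type} [CommRing A] {V : Type} [AddCommGroup V] [Module A V]

lemma conj_eq_toLin' {ρ : G → Module.End A V} {r : G → M2 A} (e : V ≃ₗ[A] (Fin 2 → A))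
    (he : ∀ σ v, e (ρ σ v) = r σ *ᵥ e v) (σ : G) : e.conj (ρ σ) = Matrix.toLin' (r σ) := by
  refine LinearMap.ext fun v => ?_
  rw [LinearEquiv.conj_apply_apply, he, LinearEquiv.apply_symm_apply, Matrix.toLin'_apply]

lemma hasMat_charpoly [Module.Free A V] [Module.Finite A V] {ρ : G → Module.End A V}
    {r : G → M2 A} (h : HasMat ρ r) (σ : G) :
    LinearMap.charpoly (ρ σ) = (r σ).charpoly := by
  obtain ⟨e, he⟩ := h
  rw [← LinearEquiv.charpoly_conj e (ρ σ), conj_eq_toLin' e he, Matrix.charpoly_toLin']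

lemma hasMat_det {ρ : G → Module.End A V}
    {r : G → M2 A} (h : HasMat ρ r) (σ : G) :
    LinearMap.det (ρ σ) = (r σ).det := by
  obtain ⟨e, he⟩ := h
  rw [← LinearMap.det_conj (ρ σ) e]
  have h1 := conj_eq_toLin' e he σ
  rw [LinearEquiv.conj_apply] at h1
  rw [LinearMap.comp_assoc] at h1
  have h2 : (e : V →ₗ[A] (Fin 2 → A)) ∘ₗ ρ σ ∘ₗ (e.symm : (Fin 2 → A) →ₗ[A] V) =
      Matrix.toLin' (r σ) := h1
  rw [h2, LinearMap.det_toLin']

lemma hasMat_eq_one_iff {ρ : G → Module.End A V} {r : G → M2 A} (h : HasMat ρ r) (σ : G) :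
    ρ σ = 1 ↔ r σ = 1 := by
  obtain ⟨e, he⟩ := h
  constructor
  · intro h1
    refine mat_ext fun v => ?_
    have h2 := he σ (e.symm v)
    rw [h1, Module.End.one_apply, LinearEquiv.apply_symm_apply] at h2
    rw [← h2, Matrix.one_mulVec]
  · intro h1
    refine LinearMap.ext fun v => e.injective ?_
    rw [he, h1, Matrix.one_mulVec, Module.End.one_apply]

end HasMat

section Unramified

variable {𝒪 : Type} [CommRing 𝒪] [IsLocalRing 𝒪]

lemma scalar_map {A B : Type} [CommRing A] [CommRing B] (φ : A →+* B) (a : A) :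
    (Matrix.scalar (Fin 2) a).map φ = Matrix.scalar (Fin 2) (φ a) := by
  ext i j
  by_cases h : i = j
  · subst h; simp
  · simp [h]

lemma map_det' {A B : Type} [CommRing A] [CommRing B] (φ : A →+* B) (X : M2 A) :
    (X.map φ).det = φ X.det := by
  rw [Matrix.det_fin_two, Matrix.det_fin_two]
  simp

lemma map_trace' {A B : Type} [CommRing A] [CommRing B] (φ : A →+* B) (X : M2 A) :
    (X.map φ).trace = φ X.trace := by
  rw [Matrix.trace_fin_two, Matrix.trace_fin_two]
  simp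

lemma scalar_eq_zero_iff {A : Type} [CommRing A] {a : A} :
    Matrix.scalar (Fin 2) a = (0 : M2 A) ↔ a = 0 := by
  constructor
  · intro h
    have := congrFun (congrFun h 0) 0
    simpa using this
  · rintro rfl
    simp

/-- Triviality on a set of Galois elements. -/
def eqCondTrivial (X : Set GQ) : EqCond (𝒪 := 𝒪) (fun _ _ _ _ ρ => ∀ σ ∈ X, ρ.ρ σ = 1) where
  ι := X
  F := fun _ _ _ i r => r i - 1
  map := fun A B _ _ _ _ φ i r => by
    ext a b
    by_cases hab : a = b
    · subst hab; simp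
    · simp [Matrix.one_apply_ne hab]
  iff := fun A _ _ _ _ _ ρ r hr => by
    constructor
    · intro h i
      rw [(hasMat_eq_one_iff hr i.1).mp (h i.1 i.2), sub_self]
    · intro h σ hσ
      exact (hasMat_eq_one_iff hr σ).mpr (sub_eq_zero.mp (h ⟨σ, hσ⟩))

/-- Being unramified outside `S` is a deformation condition. -/
theorem isDeformationCondition_unramified (S : Set ℕ) :
    IsDeformationCondition 𝒪 (fun _ _ _ _ ρ =>
      ∀ q : ℕ, q.Prime → q ∉ S → ρ.IsUnramifiedAt q) := by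
  have h := (eqCondTrivial (𝒪 := 𝒪) {σ | ∃ q : ℕ, q.Prime ∧ q ∉ S ∧
    ∃ P : ValuationSubring (AlgebraicClosure ℚ), P.LiesOverPrime q ∧
      σ ∈ P.inertiaSubgroupIn ℚ}).isDeformationCondition
  refine IsDeformationCondition.congr h ?_ (fun _ _ _ _ hA => isHausdorff_of_test hA)
  intro A _ _ _ _ _ ρ
  constructor
  · intro h1 q hq hqS P hP σ hσ
    exact h1 σ ⟨q, hq, hqS, P, hP, hσ⟩
  · rintro h1 σ ⟨q, hq, hqS, P, hP, hσ⟩
    exact h1 q hq hqS P hP σ hσ

end Unramified

section Unipotent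

variable {𝒪 : Type} [CommRing 𝒪] [IsLocalRing 𝒪]

lemma charpoly_eq_iff {A : Type} [CommRing A] [Nontrivial A] (X : M2 A) :
    X.charpoly = (Polynomial.X - 1) ^ 2 ↔ X.trace = 2 ∧ X.det = 1 := by
  rw [Matrix.charpoly_fin_two]
  constructor
  · intro h
    have h0 := congrArg (fun p => Polynomial.coeff p 0) h
    have h1 := congrArg (fun p => Polynomial.coeff p 1) h
    have e1 : ((Polynomial.X - 1 : Polynomial A) ^ 2) =
        Polynomial.X ^ 2 - Polynomial.C 2 * Polynomial.X + Polynomial.C 1 := by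
      simp only [map_ofNat, map_one]
      ring
    rw [e1] at h0 h1
    simp only [Polynomial.coeff_add, Polynomial.coeff_sub, Polynomial.coeff_C_mul,
      Polynomial.coeff_X_pow, Polynomial.coeff_X_zero, Polynomial.coeff_X_one,
      Polynomial.coeff_C_zero, Polynomial.coeff_C_succ] at h0 h1
    constructor
    · simpa using h1
    · simpa using h0
  · rintro ⟨h1, h2⟩
    rw [h1, h2]
    simp only [map_ofNat, map_one]
    ring

/-- Unipotence of a set of Galois elements. -/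
def eqCondUnipotent (X : Set GQ) : EqCond (𝒪 := 𝒪) (fun _ _ _ _ ρ =>
    ∀ σ ∈ X, LinearMap.charpoly (ρ.ρ σ) = (Polynomial.X - 1) ^ 2) where
  ι := X × Bool
  F := fun _ _ _ i r => bif i.2 then Matrix.scalar (Fin 2) ((r i.1).trace - 2)
    else Matrix.scalar (Fin 2) ((r i.1).det - 1)
  map := fun A B _ _ _ _ φ i r => by
    obtain ⟨σ, b⟩ := i
    cases b
    · show Matrix.scalar (Fin 2) (((r σ).map φ).det - 1) =
        (Matrix.scalar (Fin 2) ((r σ).det - 1)).map (φ : A →+* B)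
      rw [scalar_map, show ((r σ).map φ).det = (φ : A →+* B) (r σ).det from
        map_det' (φ : A →+* B) _]
      congr 1
      simp
    · show Matrix.scalar (Fin 2) (((r σ).map φ).trace - 2) =
        (Matrix.scalar (Fin 2) ((r σ).trace - 2)).map (φ : A →+* B)
      rw [scalar_map, show ((r σ).map φ).trace = (φ : A →+* B) (r σ).trace from
        map_trace' (φ : A →+* B) _]
      congr 1
      rw [map_sub, map_ofNat]
  iff := fun A _ _ _ _ _ ρ r hr => by
    constructor
    · rintro h ⟨σ, b⟩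
      have h1 := h σ.1 σ.2
      rw [hasMat_charpoly hr, charpoly_eq_iff] at h1
      cases b
      · show Matrix.scalar (Fin 2) ((r σ).det - 1) = 0
        rw [h1.2, sub_self, map_zero]
      · show Matrix.scalar (Fin 2) ((r σ).trace - 2) = 0
        rw [h1.1, sub_self, map_zero]
    · intro h σ hσ
      rw [hasMat_charpoly hr, charpoly_eq_iff]
      have h1 : Matrix.scalar (Fin 2) ((r σ).det - 1) = (0 : M2 A) := h (⟨σ, hσ⟩, false)
      have h2 : Matrix.scalar (Fin 2) ((r σ).trace - 2) = (0 : M2 A) := h (⟨σ, hσ⟩, true)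
      rw [scalar_eq_zero_iff, sub_eq_zero] at h1 h2
      exact ⟨h2, h1⟩

/-- Unipotence on inertia is a deformation condition. -/
theorem isDeformationCondition_unipotent (S : Set ℕ) :
    IsDeformationCondition 𝒪 (fun _ _ _ _ ρ =>
      ∀ q ∈ S, ρ.IsUnipotentOnInertiaAt q) := by
  have h := (eqCondUnipotent (𝒪 := 𝒪) {σ | ∃ q ∈ S,
    ∃ P : ValuationSubring (AlgebraicClosure ℚ), P.LiesOverPrime q ∧
      σ ∈ P.inertiaSubgroupIn ℚ}).isDeformationCondition
  refine IsDeformationCondition.congr h ?_ (fun _ _ _ _ hA => isHausdorff_of_test hA)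
  intro A _ _ _ _ _ ρ
  constructor
  · intro h1 q hqS P hP σ hσ
    exact h1 σ ⟨q, hqS, P, hP, hσ⟩
  · rintro h1 σ ⟨q, hqS, P, hP, hσ⟩
    exact h1 q hqS P hP σ hσ

end Unipotent

section Det

variable {𝒪 : Type} [CommRing 𝒪] [IsLocalRing 𝒪] [IsAdicComplete (maximalIdeal 𝒪) 𝒪]
  {p : ℕ} [Fact p.Prime] (hp : (p : 𝒪) ∈ maximalIdeal 𝒪)

omit [IsAdicComplete (maximalIdeal 𝒪) 𝒪] in
include hp in
lemma natCast_mem_maximal {A : Type} [CommRing A] [IsLocalRing A] [Algebra 𝒪 A]
    (hA : IsLocalHom (algebraMap 𝒪 A)) : (p : A) ∈ maximalIdeal A := by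
  have h1 : algebraMap 𝒪 A (p : 𝒪) ∈ maximalIdeal A := fun h => hp (hA.map_nonunit _ h)
  rwa [map_natCast] at h1

/-- The cyclotomic character is congruent to its finite level values, as an exact multiple. -/
lemma cycO_sub_mem_span (n : ℕ) (σ : GQ) :
    ((cycO hp σ : 𝒪ˣ) : 𝒪) - (cn p n σ : 𝒪) ∈ Ideal.span {((p ^ n : ℕ) : 𝒪)} := by
  rw [coe_cycO]
  have h1 : PadicInt.toZModPow n (((cyc p σ : ℤ_[p]ˣ) : ℤ_[p]) - (cn p n σ : ℤ_[p])) = 0 := by
    rw [map_sub, map_natCast, cast_cn, sub_self]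
  rw [← RingHom.mem_ker, PadicInt.ker_toZModPow, Ideal.mem_span_singleton] at h1
  obtain ⟨u, hu⟩ := h1
  have h2 := congrArg (padicMap p 𝒪 hp) hu
  rw [map_sub, map_natCast, map_mul, map_pow, map_natCast] at h2
  rw [h2, Ideal.mem_span_singleton, Nat.cast_pow]
  exact dvd_mul_right _ _

lemma cn_sub_mem_span {A : Type} [CommRing A] {n : ℕ} {σ : GQ} {a : ℕ}
    (h : ∀ μ : AlgebraicClosure ℚ, μ ^ p ^ n = 1 → σ μ = μ ^ a) :
    (cn p n σ : A) - (a : A) ∈ Ideal.span {((p ^ n : ℕ) : A)} := by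
  obtain ⟨ζ, hζ⟩ := exists_primitive p n
  have h1 := cn_unique p n σ a ζ hζ (h ζ hζ.pow_eq_one)
  have h2 : ((cn p n σ : ℤ) : ZMod (p ^ n)) = ((a : ℤ) : ZMod (p ^ n)) := by
    push_cast
    exact h1.symm
  rw [ZMod.intCast_eq_intCast_iff_dvd_sub] at h2
  obtain ⟨u, hu⟩ := h2
  rw [Ideal.mem_span_singleton]
  refine ⟨-(u : A), ?_⟩
  have h3 := congrArg (fun z : ℤ => (z : A)) hu
  push_cast at h3 ⊢
  linear_combination -h3

/-- The determinant condition in terms of the `𝒪`-valued cyclotomic character. -/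
lemma detIsCyclotomic_iff {A : Type} [CommRing A] [IsLocalRing A] [Algebra 𝒪 A]
    (hA : IsLocalHom (algebraMap 𝒪 A)) (hH : IsHausdorff (maximalIdeal A) A)
    (ρ : GaloisRepAdic A) : ρ.DetIsCyclotomic p ↔
      ∀ σ, LinearMap.det (ρ.ρ σ) = algebraMap 𝒪 A ((cycO hp σ : 𝒪ˣ) : 𝒪) := by
  have hpA := natCast_mem_maximal hp hA
  have hcyc : ∀ (n : ℕ) (σ : GQ), algebraMap 𝒪 A ((cycO hp σ : 𝒪ˣ) : 𝒪) - (cn p n σ : A) ∈
      Ideal.span {((p ^ n : ℕ) : A)} := by
    intro n σ
    have h1 := Ideal.mem_map_of_mem (algebraMap 𝒪 A) (cycO_sub_mem_span hp n σ)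
    rw [Ideal.map_span, Set.image_singleton, map_natCast, map_sub, map_natCast] at h1
    exact h1
  constructor
  · rintro ⟨-, h⟩ σ
    rw [← sub_eq_zero]
    refine hH.haus _ fun n => ?_
    rw [SModEq.sub_mem, sub_zero, smul_eq_mul, Ideal.mul_top]
    have h1 := h n σ (cn p n σ) (cn_spec p n σ)
    have h2 : Ideal.span {((p ^ n : ℕ) : A)} ≤ maximalIdeal A ^ n := by
      rw [Ideal.span_singleton_le_iff_mem, Nat.cast_pow]
      exact Ideal.pow_mem_pow hpA n
    have h3 := Ideal.sub_mem _ (h2 h1) (h2 (hcyc n σ))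
    convert h3 using 1
    ring
  · intro h
    refine ⟨hpA, fun n σ a ha => ?_⟩
    rw [h σ]
    have h1 := Ideal.add_mem _ (hcyc n σ) (cn_sub_mem_span (A := A) ha)
    convert h1 using 1
    ring

/-- The determinant condition. -/
noncomputable def eqCondDet : EqCond (𝒪 := 𝒪) (fun _ _ _ _ ρ => ρ.DetIsCyclotomic p) where
  ι := GQ
  F := fun A _ _ σ r => Matrix.scalar (Fin 2)
    ((r σ).det - algebraMap 𝒪 A ((cycO hp σ : 𝒪ˣ) : 𝒪))
  map := fun A B _ _ _ _ φ σ r => by
    show _ = (Matrix.scalar (Fin 2) _).map (φ : A →+* B)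
    rw [scalar_map, show ((r σ).map φ).det = (φ : A →+* B) (r σ).det from
        map_det' (φ : A →+* B) _]
    congr 1
    simp
  iff := fun A _ _ _ hA hH ρ r hr => by
    rw [detIsCyclotomic_iff hp hA hH]
    constructor
    · intro h σ
      rw [scalar_eq_zero_iff, ← h σ, hasMat_det hr, sub_self]
    · intro h σ
      have h1 := h σ
      rw [scalar_eq_zero_iff, sub_eq_zero] at h1
      rw [hasMat_det hr, h1]

include hp in
/-- Having cyclotomic determinant is a deformation condition. -/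
theorem isDeformationCondition_det :
    IsDeformationCondition 𝒪 (fun _ _ _ _ ρ => ρ.DetIsCyclotomic p) :=
  (eqCondDet hp).isDeformationCondition

end Det

end Fermat.Agent.RTD
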