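import Mathlib
import Fermat.Agent.RTD.CondBasic
import Fermat.Agent.TW.Conditions
import Fermat.Agent.Mazur.Radical

set_option autoImplicit false

/-!
# Strict ordinarity is a deformation condition
-/

namespace Fermat.Agent.RTD

open IsLocalRing Matrix Fermat.Agent.S53norm GaloisRep Fermat.Agent.S30aux

section Idem

variable {A : Type} [CommRing A]

/-- The standard idempotent. -/
def D0 (A : Type) [CommRing A] : M2 A := !![1, 0; 0, 0]

/-- Rank one idempotents over a local ring are conjugate to the standard one. -/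
lemma exists_unit_of_idem [IsLocalRing A] {e : M2 A} (he : e * e = e) (ht : e.trace = 1) :
    ∃ U : (M2 A)ˣ, (U : M2 A) * e * ((U⁻¹ : (M2 A)ˣ) : M2 A) = D0 A := by
  have htr : e 0 0 + e 1 1 = 1 := by rw [← Matrix.trace_fin_two]; exact ht
  have h00 : e 0 0 * e 0 0 + e 0 1 * e 1 0 = e 0 0 := by
    have := congrFun (congrFun he 0) 0
    rwa [Matrix.mul_apply, Fin.sum_univ_two] at this
  have h01 : e 0 0 * e 0 1 + e 0 1 * e 1 1 = e 0 1 := by
    have := congrFun (congrFun he 0) 1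
    rwa [Matrix.mul_apply, Fin.sum_univ_two] at this
  have h10 : e 1 0 * e 0 0 + e 1 1 * e 1 0 = e 1 0 := by
    have := congrFun (congrFun he 1) 0
    rwa [Matrix.mul_apply, Fin.sum_univ_two] at this
  have h11 : e 1 0 * e 0 1 + e 1 1 * e 1 1 = e 1 1 := by
    have := congrFun (congrFun he 1) 1
    rwa [Matrix.mul_apply, Fin.sum_univ_two] at this
  have key : ∀ P : M2 A, IsUnit P.det → e * P = P * D0 A →
      ∃ U : (M2 A)ˣ, (U : M2 A) * e * ((U⁻¹ : (M2 A)ˣ) : M2 A) = D0 A := by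
    intro P hP h
    obtain ⟨W, hW⟩ := (Matrix.isUnit_iff_isUnit_det P).mpr hP
    refine ⟨W⁻¹, ?_⟩
    rw [inv_inv, mul_assoc, hW, h, ← hW, ← mul_assoc, Units.inv_mul, one_mul]
  rcases IsLocalRing.isUnit_or_isUnit_of_add_one htr with hu | hu
  · refine key !![e 0 0, - e 0 1; e 1 0, e 0 0] ?_ ?_
    · rw [Matrix.det_fin_two]
      simp only [Matrix.of_apply, Matrix.cons_val', Matrix.cons_val_zero, Matrix.cons_val_one,
        Matrix.cons_val_fin_one]
      have : e 0 0 * e 0 0 - -e 0 1 * e 1 0 = e 0 0 := by linear_combination h00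
      rw [this]
      exact hu
    · ext i j
      fin_cases i <;> fin_cases j <;>
        simp [Matrix.mul_apply, Fin.sum_univ_two, D0]
      · linear_combination h00
      · ring
      · linear_combination h10
      · linear_combination e 0 0 * htr - h00
  · refine key !![e 0 1, e 1 1; e 1 1, - e 1 0] ?_ ?_
    · rw [Matrix.det_fin_two]
      simp only [Matrix.of_apply, Matrix.cons_val', Matrix.cons_val_zero, Matrix.cons_val_one,
        Matrix.cons_val_fin_one]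
      have : e 0 1 * -e 1 0 - e 1 1 * e 1 1 = - e 1 1 := by linear_combination (-1 : A) * h11
      rw [this]
      exact hu.neg
    · ext i j
      fin_cases i <;> fin_cases j <;>
        simp [Matrix.mul_apply, Fin.sum_univ_two, D0]
      · linear_combination h01
      · linear_combination (e 0 0) * htr - h00
      · linear_combination h11
      · ring

end Idem

section Cyc

variable {𝒪 : Type} [CommRing 𝒪] [IsLocalRing 𝒪] [IsAdicComplete (maximalIdeal 𝒪) 𝒪]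
  {p : ℕ} [Fact p.Prime] (hp : (p : 𝒪) ∈ maximalIdeal 𝒪)

/-- Some element of inertia at `p` has cyclotomic character not congruent to one. -/
theorem exists_isUnit_cycO_sub_one (hp2 : p ≠ 2) {P : ValuationSubring (AlgebraicClosure ℚ)}
    (hP : P.LiesOverPrime p) :
    ∃ σ ∈ P.inertiaSubgroupIn ℚ, IsUnit (((cycO hp σ : 𝒪ˣ) : 𝒪) - 1) := by
  have hpp : p.Prime := Fact.out
  obtain ⟨ζ, hζ⟩ := exists_primitive p 1
  rw [pow_one] at hζ
  have h1 := Fermat.Agent.Mazur.not_fixed_of_isPrimitiveRoot hpp hp2 hP hζ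
  push Not at h1
  obtain ⟨σ, hσ, hne⟩ := h1
  refine ⟨σ, hσ, ?_⟩
  by_contra hnu
  have h2 : ((cycO hp σ : 𝒪ˣ) : 𝒪) - 1 ∈ maximalIdeal 𝒪 := hnu
  have h3 := cycO_sub_mem hp 1 σ
  rw [pow_one] at h3
  have h4 : ((cn p 1 σ : ℤ) - 1 : 𝒪) ∈ maximalIdeal 𝒪 := by
    have := Ideal.sub_mem _ h2 h3
    convert this using 1
    push_cast
    ring
  apply hne
  rw [cn_spec p 1 σ ζ (by rw [pow_one]; exact hζ.pow_eq_one)]
  have h5 : (p : ℤ) ∣ (cn p 1 σ : ℤ) - 1 := by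
    by_contra hnd
    have hcop : IsCoprime (p : ℤ) ((cn p 1 σ : ℤ) - 1) :=
      (Prime.coprime_iff_not_dvd (Nat.prime_iff_prime_int.mp hpp)).mpr hnd
    obtain ⟨u, w, huw⟩ := hcop
    have h6 : (1 : 𝒪) ∈ maximalIdeal 𝒪 := by
      have h7 := congrArg (fun z : ℤ => (z : 𝒪)) huw
      push_cast at h7
      rw [← h7]
      refine Ideal.add_mem _ (Ideal.mul_mem_left _ _ hp) (Ideal.mul_mem_left _ _ ?_)
      have h8 := h4
      push_cast at h8
      exact h8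
    exact (Ideal.ne_top_iff_one _).mp (maximalIdeal.isMaximal 𝒪).ne_top h6
  obtain ⟨u, hu⟩ := h5
  have h6 : (cn p 1 σ : ℤ) = 1 + p * u := by linarith
  have hζ0 : ζ ≠ 0 := hζ.ne_zero hpp.ne_zero
  rw [← zpow_natCast, h6, zpow_add₀ hζ0, _root_.zpow_mul, zpow_natCast, hζ.pow_eq_one,
    _root_.one_zpow, _root_.zpow_one, mul_one]

end Cyc

section Ord

variable {A : Type} [CommRing A]

/-- Strict ordinarity at the place `P` in matrix form. -/
def OrdMat (P : ValuationSubring (AlgebraicClosure ℚ)) (c : GQ → A) (r : GQ → M2 A) : Prop :=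
  ∀ σ ∈ P.decompositionSubgroup ℚ, r σ 1 0 = 0 ∧ (σ ∈ P.inertiaSubgroupIn ℚ → r σ 1 1 = 1) ∧
    r σ 0 0 = c σ * r σ 1 1

/-- The type of equations. -/
abbrev OrdIdx (P : ValuationSubring (AlgebraicClosure ℚ)) : Type :=
  Bool ⊕ (P.decompositionSubgroup ℚ ⊕ (P.inertiaSubgroupIn ℚ ⊕ P.decompositionSubgroup ℚ))

/-- The projector. -/
def ordE (ui : A) (σ₀ : GQ) (r : GQ → M2 A) : M2 A := ui • (r σ₀ - 1)

/-- The equations of strict ordinarity. -/
def ordF (P : ValuationSubring (AlgebraicClosure ℚ)) (c : GQ → A) (ui : A) (σ₀ : GQ) :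
    OrdIdx P → (GQ → M2 A) → M2 A
  | .inl false, r => ordE ui σ₀ r * ordE ui σ₀ r - ordE ui σ₀ r
  | .inl true, r => Matrix.scalar (Fin 2) ((ordE ui σ₀ r).trace - 1)
  | .inr (.inl σ), r => (1 - ordE ui σ₀ r) * r σ * ordE ui σ₀ r
  | .inr (.inr (.inl σ)), r => (1 - ordE ui σ₀ r) * (r σ - 1)
  | .inr (.inr (.inr σ)), r => Matrix.scalar (Fin 2)
      ((r σ * ordE ui σ₀ r).trace - c σ * (r σ * (1 - ordE ui σ₀ r)).trace)

lemma conj_scalar (U : (M2 A)ˣ) (a : A) :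
    (U : M2 A) * Matrix.scalar (Fin 2) a * ((U⁻¹ : (M2 A)ˣ) : M2 A) =
      Matrix.scalar (Fin 2) a := by
  rw [(Matrix.scalar_commute a (fun r' => Commute.all _ _) (U : M2 A)).symm.eq, mul_assoc,
    Units.mul_inv, mul_one]

lemma trace_conj (U : (M2 A)ˣ) (X : M2 A) :
    ((U : M2 A) * X * ((U⁻¹ : (M2 A)ˣ) : M2 A)).trace = X.trace := by
  rw [Matrix.trace_mul_cycle, Units.inv_mul, one_mul]

lemma ordE_conj (U : (M2 A)ˣ) (ui : A) (σ₀ : GQ) (r : GQ → M2 A) :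
    ordE ui σ₀ (fun σ => (U : M2 A) * r σ * ((U⁻¹ : (M2 A)ˣ) : M2 A)) =
      (U : M2 A) * ordE ui σ₀ r * ((U⁻¹ : (M2 A)ˣ) : M2 A) := by
  unfold ordE
  rw [mul_smul_comm, smul_mul_assoc, mul_sub, sub_mul, mul_one, Units.mul_inv]

lemma ordF_conj (P : ValuationSubring (AlgebraicClosure ℚ)) (c : GQ → A) (ui : A) (σ₀ : GQ)
    (i : OrdIdx P) (U : (M2 A)ˣ) (r : GQ → M2 A) :
    ordF P c ui σ₀ i (fun σ => (U : M2 A) * r σ * ((U⁻¹ : (M2 A)ˣ) : M2 A)) =
      (U : M2 A) * ordF P c ui σ₀ i r * ((U⁻¹ : (M2 A)ˣ) : M2 A) := by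
  have hmul : ∀ X Y : M2 A, (U : M2 A) * (X * Y) * ((U⁻¹ : (M2 A)ˣ) : M2 A) =
      ((U : M2 A) * X * ((U⁻¹ : (M2 A)ˣ) : M2 A)) *
        ((U : M2 A) * Y * ((U⁻¹ : (M2 A)ˣ) : M2 A)) := by
    intro X Y
    have h1 : ((U : M2 A) * X * ((U⁻¹ : (M2 A)ˣ) : M2 A)) *
        ((U : M2 A) * Y * ((U⁻¹ : (M2 A)ˣ) : M2 A)) =
        (U : M2 A) * X * (((U⁻¹ : (M2 A)ˣ) : M2 A) * (U : M2 A)) * Y *
          ((U⁻¹ : (M2 A)ˣ) : M2 A) := by noncomm_ring
    rw [h1, Units.inv_mul, mul_one, mul_assoc (U : M2 A) X Y]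
  have hsub : ∀ X Y : M2 A, (U : M2 A) * (X - Y) * ((U⁻¹ : (M2 A)ˣ) : M2 A) =
      ((U : M2 A) * X * ((U⁻¹ : (M2 A)ˣ) : M2 A)) -
        ((U : M2 A) * Y * ((U⁻¹ : (M2 A)ˣ) : M2 A)) := by
    intro X Y; noncomm_ring
  have hone : (U : M2 A) * 1 * ((U⁻¹ : (M2 A)ˣ) : M2 A) = 1 := by rw [mul_one, Units.mul_inv]
  rcases i with b | σ | σ | σ
  · cases b
    · simp only [ordF, ordE_conj]
      rw [hsub, hmul]
    · simp only [ordF, ordE_conj]
      rw [trace_conj, conj_scalar]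
  · simp only [ordF, ordE_conj]
    rw [hmul, hmul, hsub, hone]
  · simp only [ordF, ordE_conj]
    rw [hmul, hsub, hsub, hone]
  · simp only [ordF, ordE_conj]
    rw [conj_scalar]
    have h1 : (1 : M2 A) - (U : M2 A) * ordE ui σ₀ r * ((U⁻¹ : (M2 A)ˣ) : M2 A) =
        (U : M2 A) * (1 - ordE ui σ₀ r) * ((U⁻¹ : (M2 A)ˣ) : M2 A) := by rw [hsub, hone]
    rw [h1, ← hmul, ← hmul, trace_conj, trace_conj]

/-- Ordinary matrices satisfy the equations. -/
lemma ordF_of_ordMat {P : ValuationSubring (AlgebraicClosure ℚ)} {c : GQ → A} {ui : A} {σ₀ : GQ}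
    (hσ₀ : σ₀ ∈ P.inertiaSubgroupIn ℚ) (hui : ui * (c σ₀ - 1) = 1) {r : GQ → M2 A}
    (h : OrdMat P c r) (i : OrdIdx P) : ordF P c ui σ₀ i r = 0 := by
  have h0 := h σ₀ (TW.inertia_le_decomposition P hσ₀)
  have h11 := h0.2.1 hσ₀
  have hE : ordE ui σ₀ r = !![1, ui * r σ₀ 0 1; 0, 0] := by
    ext a b
    fin_cases a <;> fin_cases b <;> simp [ordE, h0.1, h11, h0.2.2, hui]
  rcases i with b | σ | σ | σ
  · cases b
    · show ordE ui σ₀ r * ordE ui σ₀ r - ordE ui σ₀ r = 0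
      rw [hE]
      ext a b
      fin_cases a <;> fin_cases b <;> simp [Matrix.mul_apply, Fin.sum_univ_two]
    · show Matrix.scalar (Fin 2) ((ordE ui σ₀ r).trace - 1) = 0
      rw [hE, scalar_eq_zero_iff, Matrix.trace_fin_two]
      simp
  · show (1 - ordE ui σ₀ r) * r σ * ordE ui σ₀ r = 0
    have h1 := (h σ.1 σ.2).1
    rw [hE]
    ext a b
    fin_cases a <;> fin_cases b <;>
      simp [Matrix.mul_apply, Fin.sum_univ_two, h1]
  · show (1 - ordE ui σ₀ r) * (r σ - 1) = 0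
    have h1 := (h σ.1 (TW.inertia_le_decomposition P σ.2)).1
    have h2 := (h σ.1 (TW.inertia_le_decomposition P σ.2)).2.1 σ.2
    rw [hE]
    ext a b
    fin_cases a <;> fin_cases b <;>
      simp [Matrix.mul_apply, Fin.sum_univ_two, h1, h2]
  · show Matrix.scalar (Fin 2)
      ((r σ * ordE ui σ₀ r).trace - c σ * (r σ * (1 - ordE ui σ₀ r)).trace) = 0
    have h1 := (h σ.1 σ.2).1
    have h2 := (h σ.1 σ.2).2.2
    rw [hE, scalar_eq_zero_iff]
    simp [Matrix.trace_fin_two, Matrix.mul_apply, Fin.sum_univ_two, h1, h2]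

/-- The equations in the standard basis. -/
lemma ordMat_of_ordF {P : ValuationSubring (AlgebraicClosure ℚ)} {c : GQ → A} {ui : A} {σ₀ : GQ}
    {r : GQ → M2 A} (hE : ordE ui σ₀ r = D0 A) (h : ∀ i, ordF P c ui σ₀ i r = 0) :
    OrdMat P c r := by
  intro σ hσ
  refine ⟨?_, ?_, ?_⟩
  · have h1 : (1 - ordE ui σ₀ r) * r σ * ordE ui σ₀ r = 0 := h (.inr (.inl ⟨σ, hσ⟩))
    rw [hE] at h1
    have h2 := congrFun (congrFun h1 1) 0
    simpa [D0, Matrix.mul_apply, Fin.sum_univ_two] using h2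
  · intro hσI
    have h1 : (1 - ordE ui σ₀ r) * (r σ - 1) = 0 := h (.inr (.inr (.inl ⟨σ, hσI⟩)))
    rw [hE] at h1
    have h2 := congrFun (congrFun h1 1) 1
    rw [← sub_eq_zero]
    simpa [D0, Matrix.mul_apply, Fin.sum_univ_two] using h2
  · have h1 : Matrix.scalar (Fin 2)
      ((r σ * ordE ui σ₀ r).trace - c σ * (r σ * (1 - ordE ui σ₀ r)).trace) = (0 : M2 A) :=
      h (.inr (.inr (.inr ⟨σ, hσ⟩)))
    rw [hE, scalar_eq_zero_iff, sub_eq_zero] at h1
    simpa [D0, Matrix.trace_fin_two, Matrix.mul_apply, Fin.sum_univ_two] using h1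

end Ord

section Main

variable {𝒪 : Type} [CommRing 𝒪] [IsLocalRing 𝒪] [IsAdicComplete (maximalIdeal 𝒪) 𝒪]
  {p : ℕ} [Fact p.Prime] (hp : (p : 𝒪) ∈ maximalIdeal 𝒪)

/-- Strict ordinarity at the place `P`. -/
def OrdAt (P : ValuationSubring (AlgebraicClosure ℚ)) : Cond 𝒪 := fun A _ _ _ ρ =>
  ∃ r : GQ → M2 A, HasMat (ρ.ρ : GQ → _) r ∧
    OrdMat P (fun σ => algebraMap 𝒪 A ((cycO hp σ : 𝒪ˣ) : 𝒪)) r

lemma isStrictOrdinaryAt_iff_forall {A : Type} [CommRing A] [IsLocalRing A] [Algebra 𝒪 A]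
    (hA : IsLocalHom (algebraMap 𝒪 A)) (hH : IsHausdorff (maximalIdeal A) A)
    (ρ : GaloisRepAdic A) : ρ.IsStrictOrdinaryAt p ↔
      ∀ P : ValuationSubring (AlgebraicClosure ℚ), P.LiesOverPrime p → OrdAt hp P ρ := by
  have hpA := natCast_mem_maximal hp hA
  rw [TW.isStrictOrdinaryAt_iff]
  have hcyc : ∀ (n : ℕ) (σ : GQ) (a : ℕ), (∀ μ : AlgebraicClosure ℚ, μ ^ p ^ n = 1 → σ μ = μ ^ a) →
      algebraMap 𝒪 A ((cycO hp σ : 𝒪ˣ) : 𝒪) - (a : A) ∈ Ideal.span {((p ^ n : ℕ) : A)} := by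
    intro n σ a ha
    have h1 := Ideal.mem_map_of_mem (algebraMap 𝒪 A) (cycO_sub_mem_span hp n σ)
    rw [Ideal.map_span, Set.image_singleton, map_natCast, map_sub, map_natCast] at h1
    have h2 := Ideal.add_mem _ h1 (cn_sub_mem_span (A := A) ha)
    convert h2 using 1
    ring
  constructor
  · rintro ⟨-, h⟩ P hP
    obtain ⟨r', hr', h'⟩ := h P hP
    refine ⟨r', hr', fun σ hσ => ⟨(h' σ hσ).1, (h' σ hσ).2.1, ?_⟩⟩
    rw [← sub_eq_zero]
    refine hH.haus _ fun n => ?_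
    rw [SModEq.sub_mem, sub_zero, smul_eq_mul, Ideal.mul_top]
    have h1 := (h' σ hσ).2.2 n (cn p n σ) (cn_spec p n σ)
    have h2 : Ideal.span {((p ^ n : ℕ) : A)} ≤ maximalIdeal A ^ n := by
      rw [Ideal.span_singleton_le_iff_mem, Nat.cast_pow]
      exact Ideal.pow_mem_pow hpA n
    have h3 := Ideal.sub_mem _ (h2 h1) (Ideal.mul_mem_right (r' σ 1 1) _
      (h2 (hcyc n σ _ (cn_spec p n σ))))
    convert h3 using 1
    ring
  · intro h
    refine ⟨hpA, fun P hP => ?_⟩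
    obtain ⟨r', hr', h'⟩ := h P hP
    refine ⟨r', hr', fun σ hσ => ⟨(h' σ hσ).1, (h' σ hσ).2.1, fun n a hna => ?_⟩⟩
    rw [(h' σ hσ).2.2, ← sub_mul]
    exact Ideal.mul_mem_right _ _ (hcyc n σ a hna)

/-- Strict ordinarity at a place is given by equations. -/
noncomputable def eqCondOrd (P : ValuationSubring (AlgebraicClosure ℚ)) {σ₀ : GQ}
    (hσ₀ : σ₀ ∈ P.inertiaSubgroupIn ℚ) {ui : 𝒪}
    (hui : ui * (((cycO hp σ₀ : 𝒪ˣ) : 𝒪) - 1) = 1) : EqCond (𝒪 := 𝒪) (OrdAt hp P) where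
  ι := OrdIdx P
  F := fun A _ _ => ordF P (fun σ => algebraMap 𝒪 A ((cycO hp σ : 𝒪ˣ) : 𝒪)) (algebraMap 𝒪 A ui) σ₀
  map := fun A B _ _ _ _ φ i r => by
    have hE : ordE (algebraMap 𝒪 B ui) σ₀ (fun σ => (φ : A →+* B).mapMatrix (r σ)) =
        (φ : A →+* B).mapMatrix (ordE (algebraMap 𝒪 A ui) σ₀ r) := by
      ext a b
      simp only [ordE, Matrix.smul_apply, Matrix.sub_apply, Matrix.map_apply, smul_eq_mul,
        RingHom.mapMatrix_apply, RingHom.coe_coe, map_mul, map_sub, AlgHom.commutes]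
      by_cases hab : a = b
      · subst hab; simp
      · simp [Matrix.one_apply_ne hab]
    have hc : ∀ σ, algebraMap 𝒪 B ((cycO hp σ : 𝒪ˣ) : 𝒪) =
        (φ : A →+* B) (algebraMap 𝒪 A ((cycO hp σ : 𝒪ˣ) : 𝒪)) := fun σ => (φ.commutes _).symm
    have htr : ∀ X : M2 A, ((φ : A →+* B).mapMatrix X).trace = (φ : A →+* B) X.trace :=
      fun X => map_trace' _ _
    have hsc : ∀ a : A, Matrix.scalar (Fin 2) ((φ : A →+* B) a) =
        (φ : A →+* B).mapMatrix (Matrix.scalar (Fin 2) a) := fun a => (scalar_map _ a).symm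
    show ordF P _ _ _ i (fun σ => (φ : A →+* B).mapMatrix (r σ)) = (φ : A →+* B).mapMatrix _
    rcases i with b | σ | σ | σ
    · cases b
      · simp only [ordF, hE, map_sub, map_mul]
      · simp only [ordF, hE, htr]
        rw [← hsc, map_sub (φ : A →+* B), map_one]
    · simp only [ordF, hE, map_sub, map_mul, map_one]
    · simp only [ordF, hE, map_sub, map_mul, map_one]
    · have h1 : (1 : M2 B) - (φ : A →+* B).mapMatrix (ordE (algebraMap 𝒪 A ui) σ₀ r) =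
          (φ : A →+* B).mapMatrix (1 - ordE (algebraMap 𝒪 A ui) σ₀ r) := by
        rw [map_sub, map_one]
      simp only [ordF, hE, hc, h1]
      rw [← map_mul, ← map_mul, htr, htr, ← hsc, map_sub (φ : A →+* B), map_mul (φ : A →+* B)]
  iff := fun A _ _ _ hA hH ρ r hr => by
    have hui' : algebraMap 𝒪 A ui * (algebraMap 𝒪 A ((cycO hp σ₀ : 𝒪ˣ) : 𝒪) - 1) = 1 := by
      rw [← map_one (algebraMap 𝒪 A), ← map_sub, ← map_mul, hui]
    constructor
    · rintro ⟨r', hr', h⟩ i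
      obtain ⟨U, hU⟩ := hr.exists_conj hr'
      have h1 := ordF_of_ordMat hσ₀ hui' h i
      have h2 : r' = fun σ => (U : M2 A) * r σ * ((U⁻¹ : (M2 A)ˣ) : M2 A) := by
        funext σ
        rw [hU, mul_assoc, Units.mul_inv, mul_one]
      rw [h2, ordF_conj] at h1
      have h3 : ∀ X : M2 A, (U : M2 A) * X * ((U⁻¹ : (M2 A)ˣ) : M2 A) = 0 → X = 0 := by
        intro X hX
        have h4 : X = ((U⁻¹ : (M2 A)ˣ) : M2 A) *
            ((U : M2 A) * X * ((U⁻¹ : (M2 A)ˣ) : M2 A)) * (U : M2 A) := by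
          rw [← mul_assoc, ← mul_assoc, Units.inv_mul, one_mul, mul_assoc, Units.inv_mul, mul_one]
        rw [h4, hX, mul_zero, zero_mul]
      exact h3 _ h1
    · intro h
      have hidem : ordE (algebraMap 𝒪 A ui) σ₀ r * ordE (algebraMap 𝒪 A ui) σ₀ r =
          ordE (algebraMap 𝒪 A ui) σ₀ r := sub_eq_zero.mp (h (.inl false))
      have htr : (ordE (algebraMap 𝒪 A ui) σ₀ r).trace = 1 := by
        have h1 : Matrix.scalar (Fin 2) ((ordE (algebraMap 𝒪 A ui) σ₀ r).trace - 1) = (0 : M2 A) :=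
          h (.inl true)
        rwa [scalar_eq_zero_iff, sub_eq_zero] at h1
      obtain ⟨U, hU⟩ := exists_unit_of_idem hidem htr
      refine ⟨_, hr.conj U, ordMat_of_ordF (ui := algebraMap 𝒪 A ui) (σ₀ := σ₀) ?_ fun i => ?_⟩
      · rw [ordE_conj, hU]
      · rw [ordF_conj, h i, mul_zero, zero_mul]

include hp in
/-- Strict ordinarity at `p` is a deformation condition. -/
theorem isDeformationCondition_strictOrdinary (hp2 : p ≠ 2) :
    IsDeformationCondition 𝒪 (fun _ _ _ _ ρ => ρ.IsStrictOrdinaryAt p) := by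
  have h : ∀ P : {P : ValuationSubring (AlgebraicClosure ℚ) // P.LiesOverPrime p},
      IsDeformationCondition 𝒪 (OrdAt hp P.1) := by
    intro P
    obtain ⟨σ₀, hσ₀, hu⟩ := exists_isUnit_cycO_sub_one hp hp2 P.2
    obtain ⟨u, hu⟩ := hu
    exact (eqCondOrd hp P.1 hσ₀ (ui := ((u⁻¹ : 𝒪ˣ) : 𝒪))
      (by rw [← hu, Units.inv_mul])).isDeformationCondition
  refine IsDeformationCondition.congr (isDeformationCondition_all h) ?_
    (fun _ _ _ _ hA => isHausdorff_of_test hA)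
  intro A _ _ _ hA hH ρ
  rw [isStrictOrdinaryAt_iff_forall hp hA hH]
  exact ⟨fun h1 P hP => h1 ⟨P, hP⟩, fun h1 P => h1 P.1 P.2⟩

end Main

end Fermat.Agent.RTD
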