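import Mathlib
import Fermat.Agent.TW.Tangent
import Fermat.Agent.TW.Conditions
import Fermat.Agent.TW.Defs
import Fermat.Prelude.Def_GaloisRep_DeformationCondition

set_option autoImplicit false

/-!
# Finiteness of the tangent space from finiteness of cocycles
-/

namespace Fermat.Agent.RTD

open IsLocalRing Matrix Fermat.Agent.S53norm GaloisRep Fermat.Agent.TW

variable {𝒪 : Type} [CommRing 𝒪] [IsDomain 𝒪] [IsDiscreteValuationRing 𝒪]
  [IsAdicComplete (maximalIdeal 𝒪) 𝒪] [Finite (ResidueField 𝒪)]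

omit [IsAdicComplete (maximalIdeal 𝒪) 𝒪] in
/-- A lift to the dual numbers gives a cocycle. -/
lemma exists_cocycle_of_residual {ρbar : ResidualGaloisRep (ResidueField 𝒪)}
    (habs : ρbar.IsAbsolutelyIrreducible)
    {rbar : GQ → M2 (ResidueField 𝒪)} (hrbar : HasMat (ρbar.ρ : GQ → _) rbar)
    (ρ : GaloisRepAdic (DualNumber (ResidueField 𝒪)))
    (hres : letI : Algebra (ResidueField 𝒪) (ResidueField (DualNumber (ResidueField 𝒪))) :=
      ((IsLocalRing.residue (DualNumber (ResidueField 𝒪))).comp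
        (algebraMap (ResidueField 𝒪) (DualNumber (ResidueField 𝒪)))).toAlgebra
      ρ.residual.IsEquiv (ρbar.baseChange (ResidueField (DualNumber (ResidueField 𝒪))))) :
    ∃ c : GQ → M2 (ResidueField 𝒪), IsCocyc rbar c ∧ IsLevel c ∧
      HasMat (ρ.ρ : GQ → _) (dualMat rbar c) := by
  letI : Algebra 𝒪 (DualNumber (ResidueField 𝒪)) := dualAlg 𝒪
  letI : Algebra (ResidueField 𝒪) (ResidueField (DualNumber (ResidueField 𝒪))) :=
    ((IsLocalRing.residue (DualNumber (ResidueField 𝒪))).comp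
      (algebraMap (ResidueField 𝒪) (DualNumber (ResidueField 𝒪)))).toAlgebra
  have hA := dual_isArtinianTestAlgebra (𝒪 := 𝒪)
  haveI := hA.isLocalHom
  haveI := hA.isArtinian
  haveI := isAdicComplete_dual (𝒪 := 𝒪)
  obtain ⟨D, hD⟩ := exists_nfData_of habs hrbar
  have hinv : ∀ s, rbar s * rbar s⁻¹ = 1 := fun s => by
    rw [← hrbar.map_mul, mul_inv_cancel, hrbar.map_one]
  have hinv' : ∀ s, rbar s⁻¹ * rbar s = 1 := fun s => by
    rw [← hrbar.map_mul, inv_mul_cancel, hrbar.map_one]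
  have halg : ∀ x : ResidueField 𝒪,
      ResidueField.map (algebraMap 𝒪 (DualNumber (ResidueField 𝒪))) x =
        algebraMap (ResidueField 𝒪) (ResidueField (DualNumber (ResidueField 𝒪))) x := by
    intro x
    obtain ⟨z, rfl⟩ := residue_surjective x
    rfl
  have hres' : ρ.residual.IsEquiv (ρbar.baseChangeAlong
      (ResidueField.map (algebraMap 𝒪 (DualNumber (ResidueField 𝒪))))) := by
    have h1 : HasMat (ρbar.baseChangeAlong
      (ResidueField.map (algebraMap 𝒪 (DualNumber (ResidueField 𝒪))))).ρ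
        (fun σ => (rbar σ).map (ResidueField.map
          (algebraMap 𝒪 (DualNumber (ResidueField 𝒪))))) := hrbar.baseChangeAlong_res _
    have h2 : HasMat ((ρbar.baseChange (ResidueField (DualNumber (ResidueField 𝒪)))).ρ : GQ → _)
        (fun σ => (rbar σ).map (algebraMap (ResidueField 𝒪)
          (ResidueField (DualNumber (ResidueField 𝒪))))) := hrbar.baseChange_res
    have h3 : HasMat ((ρbar.baseChange (ResidueField (DualNumber (ResidueField 𝒪)))).ρ : GQ → _)
        (fun σ => (rbar σ).map (ResidueField.map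
          (algebraMap 𝒪 (DualNumber (ResidueField 𝒪))))) := by
      refine h2.of_eq fun σ => ?_
      ext a b
      rw [Matrix.map_apply, Matrix.map_apply, halg]
    obtain ⟨e⟩ := hres
    obtain ⟨e'⟩ := isEquiv_of_hasMat_res h3 h1
    exact ⟨e.trans e'⟩
  obtain ⟨r, hr, hlift, -⟩ := D.exists_normalForm hres'
  have hfst : ∀ σ, fm (r σ) = rbar σ := by
    intro σ
    ext a b
    obtain ⟨z, hz⟩ := residue_surjective (R := 𝒪) (rbar σ a b)
    have h1 := hlift σ a b z (by rw [hD, hz])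
    have h3 := fst_eq_zero_of_mem h1
    have h4 : algebraMap 𝒪 (DualNumber (ResidueField 𝒪)) z = TrivSqZeroExt.inl (rbar σ a b) := by
      rw [← hz]; rfl
    rw [h4, TrivSqZeroExt.fst_sub, TrivSqZeroExt.fst_inl, sub_eq_zero] at h3
    exact h3
  refine ⟨fun σ => sm (r σ) * rbar σ⁻¹, ?_, ?_, hr.of_eq ?_⟩
  · intro s t
    have h1 : sm (r (s * t)) = rbar s * sm (r t) + sm (r s) * rbar t := by
      rw [hr.map_mul, sm_mul, hfst, hfst]
    have h2 : rbar (s * t)⁻¹ = rbar t⁻¹ * rbar s⁻¹ := by rw [_root_.mul_inv_rev, hrbar.map_mul]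
    show sm (r (s * t)) * rbar (s * t)⁻¹ = sm (r s) * rbar s⁻¹ +
      rbar s * (sm (r t) * rbar t⁻¹) * rbar s⁻¹
    rw [h1, h2, add_mul, add_comm]
    congr 1
    · rw [mul_assoc, ← mul_assoc (rbar t), hinv, one_mul]
    · simp only [mul_assoc]
  · obtain ⟨L, hL, h1⟩ := hr.isCont 2
    refine ⟨L, hL, fun σ hσ => ?_⟩
    have h2 : r σ = 1 := by
      ext1 a b
      have h3 := h1 σ hσ a b
      rw [maximalIdeal_dual_sq, Ideal.mem_bot, Matrix.sub_apply, sub_eq_zero] at h3
      exact h3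
    show sm (r σ) * rbar σ⁻¹ = 0
    rw [h2, sm_one, zero_mul]
  · intro σ
    refine dm_ext ?_ ?_
    · rw [hfst, dualMat, fm_dm]
    · rw [dualMat, sm_dm, mul_assoc, hinv', mul_one]

omit [IsAdicComplete (maximalIdeal 𝒪) 𝒪] in
/-- Finiteness of the tangent space from finiteness of the allowed cocycles. -/
theorem tangentFinite_of_finite {ρbar : ResidualGaloisRep (ResidueField 𝒪)}
    {𝒟 : ∀ ⦃A : Type⦄ [CommRing A] [IsLocalRing A] [Algebra 𝒪 A], GaloisRepAdic A → Prop}
    (habs : ρbar.IsAbsolutelyIrreducible)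
    {rbar : GQ → M2 (ResidueField 𝒪)} (hrbar : HasMat (ρbar.ρ : GQ → _) rbar)
    (Z : Set (GQ → M2 (ResidueField 𝒪))) (hfin : Z.Finite)
    (hZ : letI := dualAlg 𝒪
      ∀ (c : GQ → M2 (ResidueField 𝒪)) (ρ : GaloisRepAdic (DualNumber (ResidueField 𝒪))),
        IsCocyc rbar c → IsLevel c → 𝒟 ρ → HasMat (ρ.ρ : GQ → _) (dualMat rbar c) → c ∈ Z) :
    TangentFinite 𝒪 ρbar 𝒟 := by
  unfold TangentFinite
  letI : Algebra 𝒪 (DualNumber (ResidueField 𝒪)) := dualAlg 𝒪
  letI : Algebra (ResidueField 𝒪) (ResidueField (DualNumber (ResidueField 𝒪))) :=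
    ((IsLocalRing.residue (DualNumber (ResidueField 𝒪))).comp
      (algebraMap (ResidueField 𝒪) (DualNumber (ResidueField 𝒪)))).toAlgebra
  have hch : ∀ ρ : {ρ : GaloisRepAdic (DualNumber (ResidueField 𝒪)) //
      𝒟 ρ ∧ ρ.residual.IsEquiv (ρbar.baseChange (ResidueField (DualNumber (ResidueField 𝒪)))) },
      ∃ c : Z, HasMat (ρ.1.ρ : GQ → _) (dualMat rbar c) := by
    intro ρ
    obtain ⟨c, h1, h2, h3⟩ := exists_cocycle_of_residual habs hrbar ρ.1 ρ.2.2
    exact ⟨⟨c, hZ c ρ.1 h1 h2 ρ.2.1 h3⟩, h3⟩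
  choose F hF using hch
  have := hfin.to_subtype
  refine Finite.of_injective (fun x => F (Quotient.out x)) ?_
  intro x y hxy
  have h1 := hF (Quotient.out x)
  have h2 := hF (Quotient.out y)
  have hxy' : F (Quotient.out x) = F (Quotient.out y) := hxy
  rw [hxy'] at h1
  have h3 := isEquiv_of_hasMat h1 h2
  rw [← Quotient.out_eq x, ← Quotient.out_eq y]
  exact Quotient.sound h3

end Fermat.Agent.RTD
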