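import Mathlib
import Fermat.Agent.RTD.TangentFin
import Fermat.Agent.RTD.CondOrd
import Fermat.Agent.S53
import Fermat.Prelude.Def_GaloisRep_Flat
import Fermat.Agent.FlatGS.BaseChange

set_option autoImplicit false

/-!
# Existence of the deformation rings `R_Q`
-/

namespace Fermat.Agent.RTD

open IsLocalRing Matrix Fermat.Agent.S53norm GaloisRep Fermat.Agent.TW

variable {𝒪 : Type} [CommRing 𝒪] [IsDomain 𝒪] [IsDiscreteValuationRing 𝒪]
  [IsAdicComplete (maximalIdeal 𝒪) 𝒪] [Finite (ResidueField 𝒪)]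

omit [IsAdicComplete (maximalIdeal 𝒪) 𝒪] in
/-- Finiteness of the tangent space for conditions implying a cyclotomic determinant and
unramifiedness outside a finite set. -/
theorem tangentFinite_of_unramified {p : ℕ} [Fact p.Prime] (hp : (p : 𝒪) ∈ maximalIdeal 𝒪)
    {ρbar : ResidualGaloisRep (ResidueField 𝒪)}
    {𝒟 : ∀ ⦃A : Type⦄ [CommRing A] [IsLocalRing A] [Algebra 𝒪 A], GaloisRepAdic A → Prop}
    (habs : ρbar.IsAbsolutelyIrreducible) (S : Finset ℕ)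
    (h𝒟 : letI := dualAlg 𝒪
      ∀ ρ : GaloisRepAdic (DualNumber (ResidueField 𝒪)), 𝒟 ρ →
        ρ.DetIsCyclotomic p ∧ ∀ q : ℕ, q.Prime → q ∉ S → ρ.IsUnramifiedAt q)
    (r : GQ →* M2 (ResidueField 𝒪)) (hr : HasMat (ρbar.ρ : GQ → _) r)
    (hfin : {c : GQ → M2 (ResidueField 𝒪) |
      c ∈ Z1 r (MonoidHom.id GQ) 0 ∧ UnramOutside S c}.Finite) :
    TangentFinite 𝒪 ρbar 𝒟 := by
  have hpk : (p : ResidueField 𝒪) = 0 := by
    rw [← map_natCast (residue 𝒪), residue_eq_zero_iff]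
    exact hp
  refine tangentFinite_of_finite habs hr _ hfin ?_
  intro c ρ h1 h2 h3 h4
  obtain ⟨h5, h6⟩ := h𝒟 ρ h3
  refine ⟨mem_Z1_of_isCocyc h1 h2 fun σ => ?_, ?_⟩
  · exact trace_eq_zero_of_detIsCyclotomic hpk (r_mul_inv r) h4 h5 σ
  · intro q hq hqS P hP σ hσ
    exact (eq_zero_of_isUnramifiedAt h4 (h6 q hq hqS) hP hσ).2

/-- The type of deformations attached to `R_Q` (strict ordinary case). -/
abbrev condOrd (𝒪 : Type) [CommRing 𝒪] (p : ℕ) (S Smin : Finset ℕ) :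
    ∀ ⦃A : Type⦄ [CommRing A] [IsLocalRing A] [Algebra 𝒪 A], GaloisRepAdic A → Prop :=
  fun _A _ _ _ ρ => strictOrdinaryCondition 𝒪 p S ρ ∧
    ∀ q ∈ Smin, q.Prime → q ≠ p → ρ.IsUnipotentOnInertiaAt q

/-- The type of deformations attached to `R_Q` (flat case). -/
abbrev condFlat (𝒪 : Type) [CommRing 𝒪] (p : ℕ) (S Smin : Finset ℕ) :
    ∀ ⦃A : Type⦄ [CommRing A] [IsLocalRing A] [Algebra 𝒪 A], GaloisRepAdic A → Prop :=
  fun _A _ _ _ ρ => flatCondition 𝒪 p S ρ ∧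
    ∀ q ∈ Smin, q.Prime → q ≠ p → ρ.IsUnipotentOnInertiaAt q

lemma isDeformationCondition_unipotent' {𝒪 : Type} [CommRing 𝒪] [IsLocalRing 𝒪] (p : ℕ) (S : Finset ℕ) :
    IsDeformationCondition 𝒪 (fun _ _ _ _ ρ =>
      ∀ q ∈ S, q.Prime → q ≠ p → ρ.IsUnipotentOnInertiaAt q) := by
  refine IsDeformationCondition.congr (isDeformationCondition_unipotent (𝒪 := 𝒪)
    {q | q ∈ S ∧ q.Prime ∧ q ≠ p}) ?_ (fun _ _ _ _ hA => isHausdorff_of_test hA)
  intro A _ _ _ _ _ ρ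
  exact ⟨fun h q h1 h2 h3 => h q ⟨h1, h2, h3⟩, fun h q hq => h q hq.1 hq.2.1 hq.2.2⟩

theorem isDeformationCondition_condOrd {𝒪 : Type} [CommRing 𝒪] [IsLocalRing 𝒪]
    [IsAdicComplete (maximalIdeal 𝒪) 𝒪] {p : ℕ} [Fact p.Prime]
    (hp : (p : 𝒪) ∈ maximalIdeal 𝒪) (hp2 : p ≠ 2)
    (S Smin : Finset ℕ) : IsDeformationCondition 𝒪 (condOrd 𝒪 p S Smin) := by
  have h1 := isDeformationCondition_and (isDeformationCondition_and (isDeformationCondition_det hp)
    (isDeformationCondition_and (isDeformationCondition_strictOrdinary hp hp2)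
      (isDeformationCondition_unramified (𝒪 := 𝒪) (S : Set ℕ))))
    (isDeformationCondition_unipotent' (𝒪 := 𝒪) p Smin)
  exact h1

/-- Existence of `R_Q` in the strict ordinary case. -/
theorem nonempty_condOrd {p : ℕ} [Fact p.Prime] (hp : (p : 𝒪) ∈ maximalIdeal 𝒪) (hp2 : p ≠ 2)
    {ρbar : ResidualGaloisRep (ResidueField 𝒪)}
    (habs : ρbar.IsAbsolutelyIrreducible) (S Smin : Finset ℕ)
    (hbar : condOrd 𝒪 p S Smin (GaloisRepAdic.ofResidualGaloisRep ρbar))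
    (r : GQ →* M2 (ResidueField 𝒪)) (hr : HasMat (ρbar.ρ : GQ → _) r)
    (hfin : {c : GQ → M2 (ResidueField 𝒪) |
      c ∈ Z1 r (MonoidHom.id GQ) 0 ∧ UnramOutside S c}.Finite) :
    Nonempty (DeformationRingData 𝒪 ρbar (condOrd 𝒪 p S Smin)) :=
  S53.result 𝒪 ρbar _ habs (isDeformationCondition_condOrd hp hp2 S Smin) hbar
    (tangentFinite_of_unramified hp habs S (fun _ h => ⟨h.1.1, h.1.2.2⟩) r hr hfin)

/-- The flat type of deformations is a deformation condition. -/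
theorem isDeformationCondition_condFlat {𝒪 : Type} [CommRing 𝒪] [IsLocalRing 𝒪]
    [IsAdicComplete (maximalIdeal 𝒪) 𝒪] [Finite (ResidueField 𝒪)] {p : ℕ} [Fact p.Prime]
    (hp : (p : 𝒪) ∈ maximalIdeal 𝒪)
    (S Smin : Finset ℕ) : IsDeformationCondition 𝒪 (condFlat 𝒪 p S Smin) := by
  have h1 := isDeformationCondition_and (isDeformationCondition_and (isDeformationCondition_det hp)
    (isDeformationCondition_and (FlatGS.isDeformationCondition_isFlatAt 𝒪 p)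
      (isDeformationCondition_unramified (𝒪 := 𝒪) (S : Set ℕ))))
    (isDeformationCondition_unipotent' (𝒪 := 𝒪) p Smin)
  exact h1

/-- Existence of `R_Q` in the flat case. -/
theorem nonempty_condFlat {p : ℕ} [Fact p.Prime] (hp : (p : 𝒪) ∈ maximalIdeal 𝒪)
    {ρbar : ResidualGaloisRep (ResidueField 𝒪)}
    (habs : ρbar.IsAbsolutelyIrreducible) (S Smin : Finset ℕ)
    (hbar : condFlat 𝒪 p S Smin (GaloisRepAdic.ofResidualGaloisRep ρbar))
    (r : GQ →* M2 (ResidueField 𝒪)) (hr : HasMat (ρbar.ρ : GQ → _) r)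
    (hfin : {c : GQ → M2 (ResidueField 𝒪) |
      c ∈ Z1 r (MonoidHom.id GQ) 0 ∧ UnramOutside S c}.Finite) :
    Nonempty (DeformationRingData 𝒪 ρbar (condFlat 𝒪 p S Smin)) :=
  S53.result 𝒪 ρbar _ habs (isDeformationCondition_condFlat hp S Smin) hbar
    (tangentFinite_of_unramified hp habs S (fun _ h => ⟨h.1.1, h.1.2.2⟩) r hr hfin)

end Fermat.Agent.RTD
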