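import Fermat.Agent.RTD.LocalRel
import Fermat.Agent.LocRing.TW

set_option autoImplicit false

/-!
# The local structure of deformations at Taylor-Wiles primes
-/

namespace Fermat.Agent.RTD

open Matrix IsLocalRing GaloisRep
open scoped Pointwise
open Fermat.Agent.S53norm (GQ M2 HasMat MemI exists_hasMat_adic exists_hasMat_res isEquiv_of_hasMat)
open Fermat.Agent.TW

/-- The order of the `p`-part of `(ℤ/q)ˣ`. -/
def pPart (p q : ℕ) : ℕ := p ^ (q - 1).factorization p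

/-- The local structure of `ρ` at a Taylor-Wiles prime `q`. -/
structure TWLoc {R : Type} [CommRing R] [IsLocalRing R] (ρ : GaloisRepAdic R) (p q : ℕ) where
  A : ValuationSubring (AlgebraicClosure ℚ)
  hA : A.LiesOverPrime q
  φ : GQ
  hφ : A.IsFrobeniusAt φ q
  σ₀ : GQ
  hσ₀ : IsTameGen A p q σ₀
  r : GQ →* M2 R
  hr : HasMat (ρ.ρ : GQ → _) r
  hI : ∀ σ ∈ A.inertiaSubgroupIn ℚ, MemI (maximalIdeal R) (r σ - 1)
  a : R
  b : R
  hφd : r φ = Matrix.diagonal ![a, b]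
  hab : residue R a ≠ residue R b
  θ : Rˣ
  hσd : r σ₀ = Matrix.diagonal ![(θ : R), ((θ⁻¹ : Rˣ) : R)]
  hθ : residue R (θ : R) = 1
  θ_pow : θ ^ pPart p q = 1

section Exists

variable {𝒪 : Type} [CommRing 𝒪] [IsDomain 𝒪] [IsDiscreteValuationRing 𝒪]
  [IsAdicComplete (maximalIdeal 𝒪) 𝒪]
  {ρbar : ResidualGaloisRep (ResidueField 𝒪)}
  {R : Type} [CommRing R] [IsLocalRing R] [IsNoetherianRing R] [Algebra 𝒪 R]
  [IsLocalHom (algebraMap 𝒪 R)] [IsAdicComplete (maximalIdeal R) R] {ρ : GaloisRepAdic R}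
  {A : ValuationSubring (AlgebraicClosure ℚ)} {p q : ℕ}

omit [IsDomain 𝒪] [IsDiscreteValuationRing 𝒪] [IsNoetherianRing R]
  [IsAdicComplete (maximalIdeal R) R] [IsAdicComplete (maximalIdeal 𝒪) 𝒪] in
lemma natCast_mem_maximalIdeal [IsLocalRing 𝒪] (hp𝒪 : (p : 𝒪) ∈ maximalIdeal 𝒪) :
    (p : R) ∈ maximalIdeal R := by
  have h1 : algebraMap 𝒪 R (p : 𝒪) ∈ maximalIdeal R := fun h =>
    hp𝒪 (IsLocalHom.map_nonunit (f := algebraMap 𝒪 R) _ h)
  rwa [map_natCast] at h1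

/-- Existence of the local structure. -/
theorem exists_twLoc (hp𝒪 : (p : 𝒪) ∈ maximalIdeal 𝒪) [hpf : Fact p.Prime]
    (h0 : ρ.residual.IsEquiv (ρbar.baseChangeAlong (ResidueField.map (algebraMap 𝒪 R))))
    {rb : GQ →* M2 (ResidueField 𝒪)} (hrb : HasMat (ρbar.ρ : GQ → _) rb)
    (hd : ρ.DetIsCyclotomic p) (hq : q.Prime) (hqp : q ≠ p) (hpq : p ∣ q - 1)
    (hA : A.LiesOverPrime q) (hur : ∀ σ ∈ A.inertiaSubgroupIn ℚ, rb σ = 1)
    {φ : GQ} (hφ : A.IsFrobeniusAt φ q) {σ₀ : GQ} (hσ₀ : IsTameGen A p q σ₀)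
    {α β : ResidueField 𝒪} (hαβ : α ≠ β) (htr : (rb φ).trace = α + β)
    (hdet : (rb φ).det = α * β) :
    ∃ W : TWLoc ρ p q, W.A = A ∧ W.φ = φ ∧ W.σ₀ = σ₀ ∧
      residue R W.a = ResidueField.map (algebraMap 𝒪 R) α ∧
      residue R W.b = ResidueField.map (algebraMap 𝒪 R) β := by
  obtain ⟨r, hr⟩ := exists_hom_hasMat ρ
  have hpR : (p : R) ∈ maximalIdeal R := natCast_mem_maximalIdeal hp𝒪
  have hcont := hr.isCont
  have hI : ∀ σ ∈ A.inertiaSubgroupIn ℚ, MemI (maximalIdeal R) (r σ - 1) :=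
    fun σ hσ => memI_sub_one h0 hrb hr (hur σ hσ)
  obtain ⟨hd1, hd2⟩ := det_of_cyclotomic hp𝒪 hd hr hq hqp hA
  set j := ResidueField.map (algebraMap 𝒪 R) with hj
  have hq1 : (q : R) - 1 ∈ maximalIdeal R := by
    obtain ⟨c, hc⟩ := hpq
    have h1 : (q : R) - 1 = ((q - 1 : ℕ) : R) := by
      rw [Nat.cast_sub hq.one_lt.le, Nat.cast_one]
    rw [h1, hc, Nat.cast_mul]
    exact Ideal.mul_mem_right _ _ hpR
  -- residual trace and determinant
  obtain ⟨U, hU⟩ := exists_residual_conj h0 hrb hr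
  have hconj : (rb φ).map j = (U : M2 (ResidueField R)) * (r φ).map (residue R) *
      ((U⁻¹ : (M2 (ResidueField R))ˣ) : M2 (ResidueField R)) := by
    rw [hU φ, mul_assoc, Units.mul_inv, mul_one]
  have htr' : residue R (r φ).trace = j α + j β := by
    rw [← map_add, ← htr, ← map_trace', ← map_trace', hconj, trace_conj]
  have hdet' : residue R (r φ).det = j α * j β := by
    rw [← map_mul, ← hdet, ← map_det', ← map_det', hconj, Matrix.det_mul, Matrix.det_mul,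
      mul_comm (Matrix.det (U : M2 (ResidueField R))), mul_assoc, ← Matrix.det_mul,
      Units.mul_inv, Matrix.det_one, mul_one]
  have hα0 : j α ≠ 0 := by
    intro h
    rw [h, zero_mul, residue_eq_zero_iff, hd2 φ hφ] at hdet'
    have h1 : (1 : R) ∈ maximalIdeal R := by
      have := Ideal.sub_mem _ hdet' hq1
      rwa [sub_sub_cancel] at this
    exact (Ideal.ne_top_iff_one _).mp (maximalIdeal.isMaximal R).ne_top h1
  obtain ⟨a, b, ξ, U', V', ha, hb, hξ, hξq, hUV, hVU, hdF, hdS⟩ :=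
    Fermat.Agent.LocRing.exists_diag_tame (r φ) (r σ₀) q hq1 (j α) (j β)
      (fun h => hαβ (RingHom.injective j h)) hα0 htr' hdet'
      (fun i j => hI σ₀ hσ₀.1 i j) (hd1 σ₀ hσ₀.1)
      (adic_tame_relation' hq hA hqp hpR inferInstance hcont hI hφ hσ₀.1)
  have hξu : IsUnit ξ := by
    rw [← residue_ne_zero_iff_isUnit, hξ]
    exact one_ne_zero
  obtain ⟨θ, hθ⟩ := hξu
  let Uu : (M2 R)ˣ := ⟨U', V', hUV, hVU⟩
  have hr' := hr.conj Uu
  let r' : GQ →* M2 R :=
    { toFun := fun σ => (Uu : M2 R) * r σ * ((Uu⁻¹ : (M2 R)ˣ) : M2 R)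
      map_one' := by rw [map_one, mul_one, Units.mul_inv]
      map_mul' := fun σ τ => by
        rw [map_mul]
        calc (Uu : M2 R) * (r σ * r τ) * ((Uu⁻¹ : (M2 R)ˣ) : M2 R) =
            (Uu : M2 R) * r σ * (((Uu⁻¹ : (M2 R)ˣ) : M2 R) * (Uu : M2 R)) * r τ *
              ((Uu⁻¹ : (M2 R)ˣ) : M2 R) := by
              rw [Units.inv_mul, mul_one]; simp only [mul_assoc]
          _ = _ := by simp only [mul_assoc] }
  have hpow : ξ ^ pPart p q = 1 := by
    have hq0 : q - 1 ≠ 0 := Nat.sub_ne_zero_of_lt hq.one_lt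
    refine Fermat.Agent.LocRing.pow_prime_pow_eq_one ξ hξ q (pPart p q)
      ((q - 1) / p ^ (q - 1).factorization p) ?_ ?_ hξq
    · have h1 := Nat.coprime_ordCompl hpf.out hq0
      by_contra h2
      have h3 : (((q - 1) / p ^ (q - 1).factorization p : ℕ) : R) ∈ maximalIdeal R := h2
      have h4 : (1 : R) ∈ maximalIdeal R := by
        have h5 := Nat.isCoprime_iff_coprime.mpr h1
        obtain ⟨x, y, hxy⟩ := h5
        have h6 := congrArg (fun z : ℤ => (z : R)) hxy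
        push_cast at h6
        rw [← h6]
        refine Ideal.add_mem _ (Ideal.mul_mem_left _ _ hpR) (Ideal.mul_mem_left _ _ ?_)
        exact_mod_cast h3
      exact (Ideal.ne_top_iff_one _).mp (maximalIdeal.isMaximal R).ne_top h4
    · exact (Nat.ordProj_mul_ordCompl_eq_self (q - 1) p).symm
  refine ⟨{ A := A, hA := hA, φ := φ, hφ := hφ, σ₀ := σ₀, hσ₀ := hσ₀, r := r', hr := hr',
            hI := fun σ hσ => memI_sub_one h0 hrb hr' (hur σ hσ), a := a, b := b, hφd := hdF, hab := ?_, θ := θ, hσd := ?_, hθ := by rw [hθ]; exact hξ,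
            θ_pow := ?_ }, rfl, rfl, rfl, ha, hb⟩
  · rw [ha, hb]
    exact fun h => hαβ (RingHom.injective j h)
  · have h1 := hdS ((θ⁻¹ : Rˣ) : R) (by rw [← hθ, Units.mul_inv])
    rw [← hθ] at h1
    exact h1
  · apply Units.ext
    rw [Units.val_pow_eq_pow_val, hθ, hpow, Units.val_one]

end Exists

namespace TWLoc

variable {R : Type} [CommRing R] [IsLocalRing R] {ρ : GaloisRepAdic R} {p q : ℕ}

lemma pow_r (W : TWLoc ρ p q) (i : ℕ) :
    W.r W.σ₀ ^ i = Matrix.diagonal ![((W.θ ^ i : Rˣ) : R), ((W.θ⁻¹ ^ i : Rˣ) : R)] := by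
  rw [W.hσd, Matrix.diagonal_pow]
  congr 1
  funext j
  fin_cases j <;> simp

/-- Every element of inertia acts as a power of the tame generator. -/
theorem exists_pow (W : TWLoc ρ p q) [IsNoetherianRing R] [hpf : Fact p.Prime] (hq : q.Prime)
    (hqp : q ≠ p) (hpR : (p : R) ∈ maximalIdeal R)
    {τ : GQ} (hτ : τ ∈ W.A.inertiaSubgroupIn ℚ) : ∃ i : ℕ, W.r τ = W.r W.σ₀ ^ i := by
  classical
  by_contra hcon
  push Not at hcon
  have hP : 0 < pPart p q := pow_pos hpf.out.pos _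
  have h1 : ∀ i : ℕ, ∃ n : ℕ, ¬ MemI (maximalIdeal R ^ n) (W.r τ - W.r W.σ₀ ^ i) := by
    intro i
    by_contra h
    push Not at h
    exact hcon i (eq_of_forall_memI inferInstance h)
  choose n hn using h1
  obtain ⟨i, hi⟩ := adic_inertia_approx hq W.hA hqp hpR W.hr.isCont W.hI W.hσ₀ hτ
    ((Finset.range (pPart p q)).sup n)
  have h2 : W.r W.σ₀ ^ i = W.r W.σ₀ ^ (i % pPart p q) := by
    have h3 : W.r W.σ₀ ^ pPart p q = 1 := by
      rw [W.pow_r, W.θ_pow, inv_pow, W.θ_pow]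
      simp only [inv_one, Units.val_one]
      ext a b
      fin_cases a <;> fin_cases b <;> simp
    conv_lhs => rw [← Nat.mod_add_div i (pPart p q), pow_add, pow_mul, h3, one_pow, mul_one]
  rw [h2] at hi
  refine hn (i % pPart p q) (hi.mono (Ideal.pow_le_pow_right ?_))
  exact Finset.le_sup (f := n) (Finset.mem_range.mpr (Nat.mod_lt _ hP))

theorem exists_pow_diag (W : TWLoc ρ p q) [IsNoetherianRing R] [hpf : Fact p.Prime] (hq : q.Prime)
    (hqp : q ≠ p) (hpR : (p : R) ∈ maximalIdeal R)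
    {τ : GQ} (hτ : τ ∈ W.A.inertiaSubgroupIn ℚ) :
    ∃ i : ℕ, W.r τ = Matrix.diagonal ![((W.θ ^ i : Rˣ) : R), ((W.θ⁻¹ ^ i : Rˣ) : R)] := by
  obtain ⟨i, hi⟩ := W.exists_pow hq hqp hpR hτ
  exact ⟨i, by rw [hi, W.pow_r]⟩

variable {B : Type} [CommRing B] [IsLocalRing B]

/-- If one place above `q` has trivial inertia action, `ρ` is unramified at `q`. -/
theorem isUnramifiedAt_of_place {ρ : GaloisRepAdic B} {r : GQ →* M2 B}
    (hr : HasMat (ρ.ρ : GQ → _) r) (hq : q.Prime) {A : ValuationSubring (AlgebraicClosure ℚ)}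
    (hA : A.LiesOverPrime q) (h : ∀ σ ∈ A.inertiaSubgroupIn ℚ, r σ = 1) :
    ρ.IsUnramifiedAt q := by
  intro P hP σ hσ
  obtain ⟨g, rfl⟩ := Frob.exists_smul_eq hq hA hP
  have h1 := h _ (Fermat.Agent.CFT.SKummer.conj_mem_inertia hσ)
  rw [hasMat_eq_one_iff hr]
  rw [map_mul, map_mul] at h1
  have hg : r g * r g⁻¹ = 1 := by rw [← map_mul, mul_inv_cancel, map_one]
  calc r σ = (r g * r g⁻¹) * r σ * (r g * r g⁻¹) := by rw [hg, one_mul, mul_one]
    _ = r g * (r g⁻¹ * r σ * r g) * r g⁻¹ := by simp only [mul_assoc]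
    _ = 1 := by rw [h1, mul_one, hg]

/-- At a Taylor-Wiles prime, a specialisation with `θ ↦ 1` is unramified. -/
theorem isUnramifiedAt_of_eq_one (W : TWLoc ρ p q) [IsNoetherianRing R] [hpf : Fact p.Prime]
    (hq : q.Prime) (hqp : q ≠ p) (hpR : (p : R) ∈ maximalIdeal R)
    (x : R →+* B) (hx : IsLocalHom x) (h : x (W.θ : R) = 1) :
    (ρ.baseChangeAlong x hx).IsUnramifiedAt q := by
  have hm := W.hr.baseChangeAlong x hx
  let r' : GQ →* M2 B :=
    { toFun := fun σ => (W.r σ).map x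
      map_one' := by rw [map_one, Matrix.map_one _ (map_zero x) (map_one x)]
      map_mul' := fun σ τ => by rw [map_mul, Matrix.map_mul] }
  refine isUnramifiedAt_of_place (r := r') hm hq W.hA fun σ hσ => ?_
  obtain ⟨i, hi⟩ := W.exists_pow_diag hq hqp hpR hσ
  show (W.r σ).map x = 1
  have h2 : x ((W.θ⁻¹ : Rˣ) : R) = 1 := by
    have h3 : x ((W.θ : R) * ((W.θ⁻¹ : Rˣ) : R)) = 1 := by rw [Units.mul_inv, map_one]
    rwa [map_mul, h, one_mul] at h3
  rw [hi]
  ext a b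
  fin_cases a <;> fin_cases b <;> simp [h, h2]

/-- At a Taylor-Wiles prime, a specialisation with values in a reduced ring which is unipotent on
inertia has `θ ↦ 1`. -/
theorem eq_one_of_isUnipotentOnInertiaAt (W : TWLoc ρ p q) [IsReduced B]
    (x : R →+* B) (hx : IsLocalHom x)
    (h : (ρ.baseChangeAlong x hx).IsUnipotentOnInertiaAt q) : x (W.θ : R) = 1 := by
  have hm := W.hr.baseChangeAlong x hx
  have h1 := trace_of_unipotent h hm W.hA W.hσ₀.1
  rw [W.hσd, Matrix.trace_fin_two, Matrix.det_fin_two] at h1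
  simp only [Matrix.map_apply, Matrix.diagonal_apply_eq, Matrix.cons_val_zero,
    Matrix.cons_val_one] at h1
  obtain ⟨h1, -⟩ := h1
  have h3 : x (W.θ : R) * x ((W.θ⁻¹ : Rˣ) : R) = 1 := by rw [← map_mul, Units.mul_inv, map_one]
  have h4 : (x (W.θ : R) - 1) ^ 2 = 0 := by
    linear_combination x (W.θ : R) * h1 - h3
  exact sub_eq_zero.mp (pow_eq_zero_iff two_ne_zero |>.mp h4)

/-- In particular for unramified specialisations. -/
theorem eq_one_of_isUnramifiedAt (W : TWLoc ρ p q)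
    (x : R →+* B) (hx : IsLocalHom x)
    (h : (ρ.baseChangeAlong x hx).IsUnramifiedAt q) : x (W.θ : R) = 1 := by
  have hm := W.hr.baseChangeAlong x hx
  have h1 := h W.A W.hA W.σ₀ W.hσ₀.1
  rw [hasMat_eq_one_iff hm, W.hσd] at h1
  have h2 := congrFun (congrFun h1 0) 0
  simpa using h2

end TWLoc

end Fermat.Agent.RTD
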