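import Fermat.Agent.RTD.Levels
import Fermat.Agent.FlatP.FlatStrict
import Fermat.Agent.FlatP.Bound

set_option autoImplicit false

/-!
# The bottom level, and the conditions at `p`
-/

namespace Fermat.Agent.RTD

open Matrix IsLocalRing GaloisRep
open scoped Pointwise
open Fermat.Agent.S53norm (GQ M2 HasMat MemI exists_hasMat_adic exists_hasMat_res isEquiv_of_hasMat
  dualAlg)
open Fermat.Agent.TW

section Conds

/-- Strict ordinary. -/
abbrev Lord (p : ℕ) : PCond := fun _ _ _ ρ => ρ.IsStrictOrdinaryAt p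

/-- Flat. -/
abbrev Lflat (p : ℕ) : PCond := fun _ _ _ ρ => ρ.IsFlatAt p

/-- Flat and strict ordinary. -/
abbrev Lboth (p : ℕ) : PCond := fun _ _ _ ρ => ρ.IsFlatAt p ∧ ρ.IsStrictOrdinaryAt p

theorem goodCond_ord (p : ℕ) (k : Type) [Field k] : GoodCond (Lord p) k where
  baseChange := fun _ f hf h => isStrictOrdinaryAt_baseChange f hf h
  equiv := fun _ _ he h => isStrictOrdinaryAt_of_isEquiv he h

theorem goodCond_flat (p : ℕ) (k : Type) [Field k] [Finite k] : GoodCond (Lflat p) k where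
  baseChange := fun ρ f hf h =>
    FlatGS.isFlatAt_baseChangeAlong f hf ρ (finite_residueField_dual k) h
  equiv := fun _ _ he h => FlatGS.isFlatAt_of_isEquiv he h

theorem goodCond_both (p : ℕ) (k : Type) [Field k] [Finite k] : GoodCond (Lboth p) k where
  baseChange := fun ρ f hf h =>
    ⟨(goodCond_flat p k).baseChange ρ f hf h.1, (goodCond_ord p k).baseChange ρ f hf h.2⟩
  equiv := fun ρ ρ' he h =>
    ⟨(goodCond_flat p k).equiv ρ ρ' he h.1, (goodCond_ord p k).equiv ρ ρ' he h.2⟩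

end Conds

namespace Setup

variable {𝒪 : Type} [CommRing 𝒪] [IsDomain 𝒪] [IsDiscreteValuationRing 𝒪]
  [IsAdicComplete (maximalIdeal 𝒪) 𝒪] {p : ℕ} (𝓢 : Setup 𝒪 p)

/-- The types for fewer primes imply the types for more primes. -/
lemma type_mono {L : PCond} {Q Q' : Finset ℕ} (h : Q ⊆ Q') {A : Type} [CommRing A] [IsLocalRing A]
    [Algebra 𝒪 A] {ρ : GaloisRepAdic A} (hρ : 𝓢.type L Q ρ) : 𝓢.type L Q' ρ :=
  ⟨⟨hρ.1.1, hρ.1.2.1, fun q hq hqS => hρ.1.2.2 q hq fun h1 => hqS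
    (Finset.union_subset_union_right h h1)⟩, hρ.2⟩

/-- The types are stable under base change to the dual numbers. -/
lemma type_baseChange {L : PCond} (hL : GoodCond L (ResidueField 𝒪)) {Q : Finset ℕ} {A : Type}
    [CommRing A] [IsLocalRing A] [Algebra 𝒪 A] [Algebra 𝒪 (DualNumber (ResidueField 𝒪))]
    {ρ : GaloisRepAdic A} (hρ : 𝓢.type L Q ρ)
    (f : A →+* DualNumber (ResidueField 𝒪)) (hf : IsLocalHom f) :
    𝓢.type L Q (ρ.baseChangeAlong f hf) := by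
  obtain ⟨⟨t1, t2, t3⟩, t4⟩ := hρ
  exact ⟨⟨detIsCyclotomic_baseChange f hf t1, hL.baseChange _ f hf t2,
    fun q hq hqS => isUnramifiedAt_baseChange f hf (t3 q hq hqS)⟩,
    fun q hq hq1 hq2 => isUnipotentOnInertiaAt_baseChange f hf (t4 q hq hq1 hq2)⟩

include 𝓢 in
lemma p_mem_maximalIdeal {R : Type} [CommRing R] [IsLocalRing R] [Algebra 𝒪 R]
    [IsLocalHom (algebraMap 𝒪 R)] : (p : R) ∈ maximalIdeal R :=
  natCast_mem_maximalIdeal 𝓢.hp𝒪

/-- At a Taylor-Wiles prime: a specialisation is unramified iff `θ ↦ 1`. -/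
theorem isUnramifiedAt_iff {N : ℕ} {S : Finset ℕ} (hS : 𝓢.Sg ⊆ S) {m : ℕ} {qv : Fin m → ℕ}
    (hq : 𝓢.GoodQ N S qv) {R : Type} [CommRing R] [IsLocalRing R] [IsNoetherianRing R]
    [Algebra 𝒪 R] [IsLocalHom (algebraMap 𝒪 R)] {ρ : GaloisRepAdic R} (i : Fin m)
    (W : TWLoc ρ p (qv i)) {B : Type} [CommRing B] [IsLocalRing B] (x : R →+* B)
    (hx : IsLocalHom x) :
    (ρ.baseChangeAlong x hx).IsUnramifiedAt (qv i) ↔ x (W.θ : R) = 1 := by
  have hf := 𝓢.fact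
  have hqp : qv i ≠ p := fun h => hq.notMem i (hS (Finset.mem_union_left _ (h ▸ 𝓢.hpS)))
  exact ⟨W.eq_one_of_isUnramifiedAt x hx, W.isUnramifiedAt_of_eq_one (hq.tw i).prime hqp
    𝓢.p_mem_maximalIdeal x hx⟩

/-- At a Taylor-Wiles prime: a specialisation with values in a reduced ring is unipotent on
inertia iff `θ ↦ 1`. -/
theorem isUnipotentOnInertiaAt_iff {N : ℕ} {S : Finset ℕ} (hS : 𝓢.Sg ⊆ S) {m : ℕ}
    {qv : Fin m → ℕ}
    (hq : 𝓢.GoodQ N S qv) {R : Type} [CommRing R] [IsLocalRing R] [IsNoetherianRing R]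
    [Algebra 𝒪 R] [IsLocalHom (algebraMap 𝒪 R)] {ρ : GaloisRepAdic R} (i : Fin m)
    (W : TWLoc ρ p (qv i)) {B : Type} [CommRing B] [IsLocalRing B] [IsReduced B] (x : R →+* B)
    (hx : IsLocalHom x) :
    (ρ.baseChangeAlong x hx).IsUnipotentOnInertiaAt (qv i) ↔ x (W.θ : R) = 1 := by
  refine ⟨W.eq_one_of_isUnipotentOnInertiaAt x hx, fun h => ?_⟩
  have h1 := (𝓢.isUnramifiedAt_iff hS hq i W x hx).mpr h
  intro P hP σ hσ
  rw [h1 P hP σ hσ]
  exact LinearMap.charpoly_one_of_rank2 _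
where
  LinearMap.charpoly_one_of_rank2 {B : Type} [CommRing B] [IsLocalRing B] (ρ : GaloisRepAdic B) :
      LinearMap.charpoly (1 : Module.End B ρ.V) = (Polynomial.X - 1) ^ 2 := by
    obtain ⟨r, hr⟩ := exists_hasMat_adic ρ
    have h2 := hasMat_charpoly hr 1
    rw [map_one] at h2
    rw [h2, hr.map_one, Matrix.charpoly_one]
    simp

/-- **The map to the bottom level.** -/
theorem Level.exists_bottom [Finite (ResidueField 𝒪)] {𝓢 : Setup 𝒪 p} {L : PCond}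
    (hL : GoodCond L (ResidueField 𝒪)) {N : ℕ} {S : Finset ℕ} (hS : 𝓢.Sg ⊆ S) {m g : ℕ}
    {qv : Fin m → ℕ} (hq : 𝓢.GoodQ N S qv) (Lv : 𝓢.Level L qv g)
    (D₀ : DeformationRingData 𝒪 𝓢.ρbar (𝓢.type L ∅)) :
    ∃ (ψ : Lv.D.R →ₐ[𝒪] D₀.R) (hψ : IsLocalHom (ψ : Lv.D.R →+* D₀.R)),
      (Lv.D.ρ.baseChangeAlong (ψ : Lv.D.R →+* D₀.R) hψ).IsEquiv D₀.ρ ∧
      Function.Surjective ψ ∧ ∀ i, ψ ((Lv.tw i).θ : Lv.D.R) = 1 := by
  obtain ⟨ψ, hψ, he⟩ := exists_functor Lv.D D₀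
    (𝓢.type_mono (Finset.empty_subset _) D₀.isOfType)
  refine ⟨ψ, hψ, he, functor_surjective Lv.D D₀ ψ hψ he
    (fun φ hφ => 𝓢.type_baseChange hL D₀.isOfType _ hφ), fun i => ?_⟩
  refine (𝓢.isUnramifiedAt_iff hS hq i (Lv.tw i) (ψ : Lv.D.R →+* D₀.R) hψ).mp ?_
  obtain ⟨e⟩ := he
  refine isUnramifiedAt_of_isEquiv ⟨e.symm⟩ (D₀.isOfType.1.2.2 _ (hq.tw i).prime ?_)
  rw [Finset.union_empty]
  exact fun h => hq.notMem i (hS h)

end Setup

end Fermat.Agent.RTD
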