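import Fermat.Agent.RTD.Setup

set_option autoImplicit false

/-!
# The Galois side of patching
-/

namespace Fermat.Agent.RTD

open Matrix IsLocalRing GaloisRep
open scoped Pointwise
open Fermat.Agent.S53norm (GQ M2 HasMat MemI exists_hasMat_adic exists_hasMat_res isEquiv_of_hasMat
  dualAlg)
open Fermat.Agent.TW
open Fermat.Agent.LocRing (LocData LamT Ka IT ITS IT_le_ker_iff mS mF mS₁ mST comp2 trT SgT
  mS_apply mF_apply mS₁_apply map_trT_inr map_trT_inl ev ev_X)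

namespace Setup

variable {𝒪 : Type} [CommRing 𝒪] [IsDomain 𝒪] [IsDiscreteValuationRing 𝒪]
  [IsAdicComplete (maximalIdeal 𝒪) 𝒪] {p : ℕ} (𝓢 : Setup 𝒪 p)

section LocMat

variable {R : Type} [CommRing R] [IsLocalRing R] [IsNoetherianRing R]
  [Algebra 𝒪 R] [IsLocalHom (algebraMap 𝒪 R)] {ρ : GaloisRepAdic R}

/-- The local relations at `v ∈ T₀ ∪ V`. -/
theorem exists_locMat
    (h0 : ρ.residual.IsEquiv (𝓢.ρbar.baseChangeAlong (ResidueField.map (algebraMap 𝒪 R))))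
    (hd : ρ.DetIsCyclotomic p) {v : ℕ} (hv : v ∈ 𝓢.T₀ ∪ 𝓢.V) (hu : ρ.IsUnipotentOnInertiaAt v)
    {r : GQ →* M2 R} (hr : HasMat (ρ.ρ : GQ → _) r) :
    MemI (maximalIdeal R) (r (𝓢.σ v) - 1) ∧ (r (𝓢.σ v)).det = 1 ∧ (r (𝓢.σ v)).trace = 2 ∧
      (r (𝓢.φ v)).det = (v : R) ∧
      r (𝓢.φ v) * r (𝓢.σ v) = r (𝓢.σ v) ^ v * r (𝓢.φ v) ∧
      (r (𝓢.φ v)).trace - algebraMap 𝒪 R (𝓢.tb v) ∈ maximalIdeal R := by
  have hf := 𝓢.fact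
  have hvp := 𝓢.prime_T hv
  have hA := 𝓢.hA v hv
  have hI : ∀ σ ∈ (𝓢.A v).inertiaSubgroupIn ℚ, MemI (maximalIdeal R) (r σ - 1) :=
    fun σ hσ => memI_sub_one h0 𝓢.hrb hr (𝓢.rb_inertia hvp (𝓢.notMem_Smin hv) hA hσ)
  have hσ := (𝓢.hσ v hv).1
  obtain ⟨hd1, hd2⟩ := det_of_cyclotomic 𝓢.hp𝒪 hd hr hvp (𝓢.ne_p hv) hA
  exact ⟨hI _ hσ, hd1 _ hσ, (trace_of_unipotent hu hr hA hσ).1, hd2 _ (𝓢.hφ v hv),
    adic_tame_relation' hvp hA (𝓢.ne_p hv) (natCast_mem_maximalIdeal 𝓢.hp𝒪) inferInstance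
      hr.isCont hI (𝓢.hφ v hv) hσ,
    trace_sub_mem h0 𝓢.hrb hr (𝓢.residue_tb v)⟩

/-- Companion form at `v ∈ V`. -/
theorem exists_companion_V
    (h0 : ρ.residual.IsEquiv (𝓢.ρbar.baseChangeAlong (ResidueField.map (algebraMap 𝒪 R))))
    (hd : ρ.DetIsCyclotomic p) {v : ℕ} (hv : v ∈ 𝓢.V) :
    ∃ r : GQ →* M2 R, HasMat (ρ.ρ : GQ → _) r ∧
      r (𝓢.φ v) = comp2 (v : R) (r (𝓢.φ v)).trace := by
  have hf := 𝓢.fact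
  have hv' := Finset.mem_union_right 𝓢.T₀ hv
  obtain ⟨r, hr⟩ := exists_hom_hasMat ρ
  obtain ⟨U, hU⟩ := exists_companion (r (𝓢.φ v))
    (not_scalar_of_residual h0 𝓢.hrb hr (𝓢.hV v hv))
  let r' : GQ →* M2 R :=
    { toFun := fun σ => (U : M2 R) * r σ * ((U⁻¹ : (M2 R)ˣ) : M2 R)
      map_one' := by rw [map_one, mul_one, Units.mul_inv]
      map_mul' := fun σ τ => by
        rw [map_mul]
        calc (U : M2 R) * (r σ * r τ) * ((U⁻¹ : (M2 R)ˣ) : M2 R) =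
            (U : M2 R) * r σ * (((U⁻¹ : (M2 R)ˣ) : M2 R) * (U : M2 R)) * r τ *
              ((U⁻¹ : (M2 R)ˣ) : M2 R) := by
              rw [Units.inv_mul, mul_one]; simp only [mul_assoc]
          _ = _ := by simp only [mul_assoc] }
  refine ⟨r', hr.conj U, ?_⟩
  have h1 : (r' (𝓢.φ v)).trace = (r (𝓢.φ v)).trace := trace_conj U _
  rw [h1]
  show (U : M2 R) * r (𝓢.φ v) * ((U⁻¹ : (M2 R)ˣ) : M2 R) = _
  rw [hU, (det_of_cyclotomic 𝓢.hp𝒪 hd hr (𝓢.prime_T hv') (𝓢.ne_p hv') (𝓢.hA v hv')).2 _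
    (𝓢.hφ v hv')]
  rfl

end LocMat

/-- Indices of the local variables. -/
abbrev LocIdx (𝓢 : Setup 𝒪 p) : Type :=
  (({v // v ∈ 𝓢.T₀} × Bool) × Fin 2 × Fin 2) ⊕ (({v // v ∈ 𝓢.V} × Fin 2 × Fin 2) ⊕ {v // v ∈ 𝓢.V})

/-- The ambient power series ring. -/
abbrev Lam (𝓢 : Setup 𝒪 p) (g : ℕ) : Type := LamT 𝒪 {v // v ∈ 𝓢.T₀} {v // v ∈ 𝓢.V} (Fin g)

/-- The embedding of the local variables. -/
def lv (𝓢 : Setup 𝒪 p) (g : ℕ) : 𝓢.LocIdx →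
    (({v // v ∈ 𝓢.T₀} × Bool) × Fin 2 × Fin 2) ⊕ Ka {v // v ∈ 𝓢.V} (Fin g) :=
  Sum.elim Sum.inl (Sum.elim (fun x => Sum.inr (Sum.inl x)) fun v => Sum.inr (Sum.inr (Sum.inl v)))

section LocZ

variable {R : Type} [CommRing R] [IsLocalRing R] [Algebra 𝒪 R]

/-- `z` is the family of local variables of `ρ`. -/
structure LocZ (𝓢 : Setup 𝒪 p) (ρ : GaloisRepAdic R) (z : 𝓢.LocIdx → R) : Prop where
  loc₀ : ∀ v : {v // v ∈ 𝓢.T₀}, ∃ r : GQ →* M2 R, HasMat (ρ.ρ : GQ → _) r ∧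
    (∀ i j, r (𝓢.σ v) i j = (1 : M2 R) i j + z (Sum.inl ((v, false), (i, j)))) ∧
    ∀ i j, r (𝓢.φ v) i j = algebraMap 𝒪 R (𝓢.ε v) * (1 : M2 R) i j +
      z (Sum.inl ((v, true), (i, j)))
  loc₁ : ∀ v : {v // v ∈ 𝓢.V}, ∃ r : GQ →* M2 R, HasMat (ρ.ρ : GQ → _) r ∧
    (∀ i j, r (𝓢.σ v) i j = (1 : M2 R) i j + z (Sum.inr (Sum.inl (v, (i, j))))) ∧
    r (𝓢.φ v) = comp2 (((v : ℕ) : R)) (algebraMap 𝒪 R (𝓢.tb v) + z (Sum.inr (Sum.inr v)))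

/-- Existence of the local variables. -/
theorem exists_locZ [IsNoetherianRing R] [IsLocalHom (algebraMap 𝒪 R)] {ρ : GaloisRepAdic R}
    (h0 : ρ.residual.IsEquiv (𝓢.ρbar.baseChangeAlong (ResidueField.map (algebraMap 𝒪 R))))
    (hd : ρ.DetIsCyclotomic p) (hu : ∀ v ∈ 𝓢.T₀ ∪ 𝓢.V, ρ.IsUnipotentOnInertiaAt v) :
    ∃ z : 𝓢.LocIdx → R, (∀ s, z s ∈ maximalIdeal R) ∧ 𝓢.LocZ ρ z := by
  obtain ⟨r, hr⟩ := exists_hom_hasMat ρ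
  choose r₁ hr₁ hc₁ using fun v : {v // v ∈ 𝓢.V} => 𝓢.exists_companion_V h0 hd v.2
  let z : 𝓢.LocIdx → R := Sum.elim
    (fun x => if x.1.2 then (r (𝓢.φ x.1.1) - Matrix.scalar (Fin 2)
        (algebraMap 𝒪 R (𝓢.ε x.1.1))) x.2.1 x.2.2
      else (r (𝓢.σ x.1.1) - 1) x.2.1 x.2.2)
    (Sum.elim (fun x => (r₁ x.1 (𝓢.σ x.1) - 1) x.2.1 x.2.2)
      (fun v => (r₁ v (𝓢.φ v)).trace - algebraMap 𝒪 R (𝓢.tb v)))
  refine ⟨z, ?_, ?_, ?_⟩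
  · rintro (⟨⟨v, b⟩, i, j⟩ | ⟨v, i, j⟩ | v)
    · have hv := Finset.mem_union_left 𝓢.V v.2
      cases b
      · exact (𝓢.exists_locMat h0 hd hv (hu v hv) hr).1 i j
      · exact memI_sub_scalar h0 𝓢.hrb hr (𝓢.hT₀ v v.2) i j
    · have hv := Finset.mem_union_right 𝓢.T₀ v.2
      exact (𝓢.exists_locMat h0 hd hv (hu v hv) (hr₁ v)).1 i j
    · have hv := Finset.mem_union_right 𝓢.T₀ v.2
      exact (𝓢.exists_locMat h0 hd hv (hu v hv) (hr₁ v)).2.2.2.2.2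
  · intro v
    refine ⟨r, hr, fun i j => ?_, fun i j => ?_⟩
    · show r (𝓢.σ v) i j = (1 : M2 R) i j + (r (𝓢.σ v) - 1) i j
      rw [Matrix.sub_apply]
      ring
    · show r (𝓢.φ v) i j = algebraMap 𝒪 R (𝓢.ε v) * (1 : M2 R) i j +
        (r (𝓢.φ v) - Matrix.scalar (Fin 2) (algebraMap 𝒪 R (𝓢.ε v))) i j
      rw [Matrix.sub_apply, Matrix.scalar_apply, Matrix.diagonal_apply, Matrix.one_apply]
      split_ifs <;> ring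
  · intro v
    refine ⟨r₁ v, hr₁ v, fun i j => ?_, ?_⟩
    · show r₁ v (𝓢.σ v) i j = (1 : M2 R) i j + (r₁ v (𝓢.σ v) - 1) i j
      rw [Matrix.sub_apply]
      ring
    · show r₁ v (𝓢.φ v) = comp2 _ (algebraMap 𝒪 R (𝓢.tb v) + ((r₁ v (𝓢.φ v)).trace -
        algebraMap 𝒪 R (𝓢.tb v)))
      rw [add_sub_cancel]
      exact hc₁ v

/-- Tangent vectors killing the local variables are locally trivial. -/
theorem LocZ.cobD [Finite (ResidueField 𝒪)] {ρ : GaloisRepAdic R} {z : 𝓢.LocIdx → R}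
    (hz : 𝓢.LocZ ρ z) (f : R →+* DualNumber (ResidueField 𝒪)) (hf : IsLocalHom f)
    (hfc : f.comp (algebraMap 𝒪 R) =
      (algebraMap (ResidueField 𝒪) (DualNumber (ResidueField 𝒪))).comp (residue 𝒪))
    (hfz : ∀ s, f (z s) = 0) {c : GQ → M2 (ResidueField 𝒪)}
    (hc : c ∈ Z1 𝓢.rb (MonoidHom.id GQ) 0)
    (hm : HasMat ((ρ.baseChangeAlong f hf).ρ : GQ → _) (dualMat 𝓢.rb c)) :
    ∀ v ∈ 𝓢.T₀ ∪ 𝓢.V, (fun σ : (𝓢.A v).decompositionSubgroup ℚ => c σ) ∈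
      Fermat.Agent.RTD.cobD 𝓢.rb ((𝓢.A v).decompositionSubgroup ℚ) := by
  have hfact := 𝓢.fact
  have hchar := 𝓢.charP
  have hfa : ∀ a, f (algebraMap 𝒪 R a) = TrivSqZeroExt.inl (residue 𝒪 a) := fun a =>
    RingHom.congr_fun hfc a
  intro v hv
  have hvp := 𝓢.prime_T hv
  rcases Finset.mem_union.mp hv with h | h
  · obtain ⟨r, hr, h1, h2⟩ := hz.loc₀ ⟨v, h⟩
    refine cobD_of_scalar hvp (𝓢.hA v hv) (𝓢.ne_p hv) (fun σ hσ => 𝓢.scalar_T₀ h hσ)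
      (𝓢.hφ v hv) (𝓢.hσ v hv) hr f hf hc hm (ε := residue 𝒪 (𝓢.ε v)) ?_ ?_
    · ext1 i j
      rw [Matrix.map_apply, h2 i j, map_add, hfz, add_zero, map_mul, hfa, Matrix.one_apply,
        Matrix.scalar_apply, Matrix.diagonal_apply]
      split_ifs <;> simp
    · ext1 i j
      rw [Matrix.map_apply, h1 i j, map_add, hfz, add_zero, Matrix.one_apply, Matrix.one_apply]
      split_ifs <;> simp
  · obtain ⟨r, hr, h1, h2⟩ := hz.loc₁ ⟨v, h⟩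
    refine cobD_of_nonscalar hvp 𝓢.hp2 (𝓢.hA v hv) (𝓢.ne_p hv) 𝓢.hlev
      (fun σ hσ => 𝓢.rb_inertia hvp (𝓢.notMem_Smin hv) (𝓢.hA v hv) hσ)
      (𝓢.hφ v hv) (𝓢.hV v h) (𝓢.hσ v hv) hr f hf hc hm (t := residue 𝒪 (𝓢.tb v)) ?_ ?_
    · have h3 : (r (𝓢.φ v)).trace = algebraMap 𝒪 R (𝓢.tb v) + z (Sum.inr (Sum.inr ⟨v, h⟩)) := by
        rw [show r (𝓢.φ v) = _ from h2, comp2, Matrix.trace_fin_two]
        simp
      rw [h3, map_add, hfz, add_zero, hfa]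
    · ext1 i j
      rw [Matrix.map_apply, h1 i j, map_add, hfz, add_zero, Matrix.one_apply, Matrix.one_apply]
      split_ifs <;> simp

/-- The local relations are killed. -/
theorem LocZ.IT_le_ker [IsNoetherianRing R] [IsLocalHom (algebraMap 𝒪 R)] {ρ : GaloisRepAdic R}
    {z : 𝓢.LocIdx → R} (hz : 𝓢.LocZ ρ z)
    (h0 : ρ.residual.IsEquiv (𝓢.ρbar.baseChangeAlong (ResidueField.map (algebraMap 𝒪 R))))
    (hd : ρ.DetIsCyclotomic p) (hu : ∀ v ∈ 𝓢.T₀ ∪ 𝓢.V, ρ.IsUnipotentOnInertiaAt v)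
    {g : ℕ} (γ : 𝓢.Lam g →ₐ[𝒪] R) (hγ : ∀ s, γ (MvPowerSeries.X (𝓢.lv g s)) = z s) :
    (∀ v : {v // v ∈ 𝓢.T₀}, ∃ r : GQ →* M2 R, HasMat (ρ.ρ : GQ → _) r ∧
        r (𝓢.σ v) = mS γ v ∧ r (𝓢.φ v) = mF 𝓢.locData.ε γ v) ∧
      (∀ v : {v // v ∈ 𝓢.V}, ∃ r : GQ →* M2 R, HasMat (ρ.ρ : GQ → _) r ∧
        r (𝓢.σ v) = mS₁ γ v ∧
          r (𝓢.φ v) = comp2 ((v : ℕ) : R) (γ (trT (Fin g) 𝓢.locData (Sum.inr v)))) ∧
      IT (Fin g) 𝓢.locData ≤ RingHom.ker γ := by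
  have e1 : ∀ v : {v // v ∈ 𝓢.T₀}, ∃ r : GQ →* M2 R, HasMat (ρ.ρ : GQ → _) r ∧
        r (𝓢.σ v) = mS γ v ∧ r (𝓢.φ v) = mF 𝓢.locData.ε γ v := by
    intro v
    obtain ⟨r, hr, h1, h2⟩ := hz.loc₀ v
    refine ⟨r, hr, ?_, ?_⟩
    · ext1 i j
      rw [h1 i j, mS_apply, ← hγ]
      rfl
    · ext1 i j
      rw [h2 i j, mF_apply, ← hγ]
      rfl
  have e2 : ∀ v : {v // v ∈ 𝓢.V}, ∃ r : GQ →* M2 R, HasMat (ρ.ρ : GQ → _) r ∧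
        r (𝓢.σ v) = mS₁ γ v ∧
          r (𝓢.φ v) = comp2 ((v : ℕ) : R) (γ (trT (Fin g) 𝓢.locData (Sum.inr v))) := by
    intro v
    obtain ⟨r, hr, h1, h2⟩ := hz.loc₁ v
    refine ⟨r, hr, ?_, ?_⟩
    · ext1 i j
      rw [h1 i j, mS₁_apply, ← hγ]
      rfl
    · rw [h2, map_trT_inr, ← hγ]
      rfl
  refine ⟨e1, e2, ?_⟩
  rw [IT_le_ker_iff]
  constructor
  · intro v
    obtain ⟨r, hr, h1, h2⟩ := e1 v
    have hv := Finset.mem_union_left 𝓢.V v.2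
    obtain ⟨-, m1, m2, m3, m4, -⟩ := 𝓢.exists_locMat h0 hd hv (hu v hv) hr
    rw [← h1, ← h2]
    exact ⟨m1, m3, m2, m4⟩
  · intro v
    obtain ⟨r, hr, h1, h2⟩ := e2 v
    have hv := Finset.mem_union_right 𝓢.T₀ v.2
    obtain ⟨-, m1, m2, m3, m4, -⟩ := 𝓢.exists_locMat h0 hd hv (hu v hv) hr
    rw [← h1]
    refine ⟨m1, m2, ?_⟩
    rw [h2] at m4
    exact m4

end LocZ

end Setup

end Fermat.Agent.RTD
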