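import Fermat.Agent.RTD.Datum

set_option autoImplicit false

/-!
# The Taylor-Wiles levels: Galois side
-/

namespace Fermat.Agent.RTD

open Matrix IsLocalRing GaloisRep
open scoped Pointwise
open Fermat.Agent.S53norm (GQ M2 HasMat MemI exists_hasMat_adic exists_hasMat_res isEquiv_of_hasMat
  dualAlg)
open Fermat.Agent.TW
open Fermat.Agent.LocRing (LocData LamT Ka IT ITS IT_le_ker_iff mS mF mS₁ mST comp2 trT SgT
  mS_apply mF_apply mS₁_apply map_trT_inr map_trT_inl ev ev_X)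

/-- The properties of a condition at `p` used here. -/
structure GoodCond (L : PCond) (k : Type) [Field k] : Prop where
  baseChange : ∀ {R : Type} [CommRing R] [IsLocalRing R] (ρ : GaloisRepAdic R)
    (f : R →+* DualNumber k) (hf : IsLocalHom f), L ρ → L (ρ.baseChangeAlong f hf)
  equiv : ∀ (ρ ρ' : GaloisRepAdic (DualNumber k)), ρ.IsEquiv ρ' → L ρ → L ρ'

namespace Setup

variable {𝒪 : Type} [CommRing 𝒪] [IsDomain 𝒪] [IsDiscreteValuationRing 𝒪]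
  [IsAdicComplete (maximalIdeal 𝒪) 𝒪] {p : ℕ}

/-- The type of deformations at level `Q`: unipotent at all bad primes different from `p`, no
condition at `Q`. -/
abbrev type (𝓢 : Setup 𝒪 p) (L : PCond) (Q : Finset ℕ) :
    ∀ ⦃A : Type⦄ [CommRing A] [IsLocalRing A] [Algebra 𝒪 A], GaloisRepAdic A → Prop :=
  condL L 𝒪 p (𝓢.Sg ∪ Q) 𝓢.Sg

/-- The number of variables needed for the primes in `T₀ ∪ V`. -/
def δ (𝓢 : Setup 𝒪 p) : ℕ := 3 * 𝓢.T₀.card + 𝓢.V.card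

/-- The Galois side of a Taylor-Wiles level. -/
structure Level (𝓢 : Setup 𝒪 p) (L : PCond) {m : ℕ} (qv : Fin m → ℕ) (g : ℕ) where
  /-- the deformation ring -/
  D : DeformationRingData 𝒪 𝓢.ρbar (𝓢.type L (Finset.univ.image qv))
  /-- the presentation -/
  γ : 𝓢.Lam g →ₐ[𝒪] D.R
  γ_surj : Function.Surjective γ
  IT_le : IT (Fin g) 𝓢.locData ≤ RingHom.ker γ
  locZ : 𝓢.LocZ D.ρ fun s => γ (MvPowerSeries.X (𝓢.lv g s))
  loc₀ : ∀ v : {v // v ∈ 𝓢.T₀}, ∃ r : GQ →* M2 D.R, HasMat (D.ρ.ρ : GQ → _) r ∧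
        r (𝓢.σ v) = mS γ v ∧ r (𝓢.φ v) = mF 𝓢.locData.ε γ v
  loc₁ : ∀ v : {v // v ∈ 𝓢.V}, ∃ r : GQ →* M2 D.R, HasMat (D.ρ.ρ : GQ → _) r ∧
        r (𝓢.σ v) = mS₁ γ v ∧
          r (𝓢.φ v) = comp2 ((v : ℕ) : D.R) (γ (trT (Fin g) 𝓢.locData (Sum.inr v)))
  /-- the local structure at the Taylor-Wiles primes -/
  tw : ∀ i, TWLoc D.ρ p (qv i)
  /-- lifts of `θ i - 1` -/
  Φ : MvPowerSeries (Fin m) 𝒪 →ₐ[𝒪] 𝓢.Lam g
  Φ_local : IsLocalHom (Φ : MvPowerSeries (Fin m) 𝒪 →+* 𝓢.Lam g)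
  Φ_X : ∀ i, γ (Φ (MvPowerSeries.X i)) = ((tw i).θ : D.R) - 1

variable (𝓢 : Setup 𝒪 p)

lemma type_unipotent {L : PCond} {Q : Finset ℕ} {A : Type} [CommRing A] [IsLocalRing A]
    [Algebra 𝒪 A] {ρ : GaloisRepAdic A} (h : 𝓢.type L Q ρ) :
    ∀ v ∈ 𝓢.T₀ ∪ 𝓢.V, ρ.IsUnipotentOnInertiaAt v := fun v hv =>
  h.2 v (Finset.mem_union_right _ hv) (𝓢.prime_T hv) (𝓢.ne_p hv)

/-- Conditions on Taylor-Wiles primes. -/
structure GoodQ {m : ℕ} (N : ℕ) (S : Finset ℕ) (qv : Fin m → ℕ) : Prop where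
  inj : Function.Injective qv
  tw : ∀ i, IsTWPrime p N 𝓢.rb (qv i)
  notMem : ∀ i, qv i ∉ S

lemma trace_det_of_charpoly {k : Type} [Field k] {M : M2 k} {α β : k}
    (h : M.charpoly = (Polynomial.X - Polynomial.C α) * (Polynomial.X - Polynomial.C β)) :
    M.trace = α + β ∧ M.det = α * β := by
  rw [Matrix.charpoly_fin_two] at h
  have h1 : (Polynomial.X ^ 2 - Polynomial.C M.trace * Polynomial.X + Polynomial.C M.det :
      Polynomial k) = Polynomial.X ^ 2 - Polynomial.C (α + β) * Polynomial.X +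
        Polynomial.C (α * β) := by
    rw [h, map_add, map_mul]
    ring
  constructor
  · have h2 := congrArg (fun P => Polynomial.coeff P 1) h1
    simp [Polynomial.coeff_C, Polynomial.coeff_X_pow] at h2
    linear_combination -h2
  · have h2 := congrArg (fun P => Polynomial.coeff P 0) h1
    simpa using h2

/-- Local structure at a Taylor-Wiles prime. -/
theorem exists_tw {R : Type} [CommRing R] [IsLocalRing R] [IsNoetherianRing R] [Algebra 𝒪 R]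
    [IsLocalHom (algebraMap 𝒪 R)] [IsAdicComplete (maximalIdeal R) R] {ρ : GaloisRepAdic R}
    (h0 : ρ.residual.IsEquiv (𝓢.ρbar.baseChangeAlong (ResidueField.map (algebraMap 𝒪 R))))
    (hd : ρ.DetIsCyclotomic p) {N q : ℕ} (hN : N ≠ 0) (hq : IsTWPrime p N 𝓢.rb q)
    (hqS : q ∉ 𝓢.Smin) : Nonempty (TWLoc ρ p q) := by
  have hf := 𝓢.fact
  have hqp : q ≠ p := fun h => hqS (h ▸ 𝓢.hpS)
  obtain ⟨A, hA⟩ := Frob.exists_liesOverPrime q hq.prime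
  obtain ⟨φ, hφ⟩ := Frob.exists_isFrobeniusAt hq.prime hA
  obtain ⟨σ₀, hσ₀⟩ := exists_isTameGen hq.prime 𝓢.hp hA hqp
  obtain ⟨α, β, hαβ⟩ := 𝓢.hsplit φ
  obtain ⟨h1, h2⟩ := trace_det_of_charpoly hαβ
  have hne : α ≠ β := by
    intro h
    apply hq.frob A hA φ hφ
    rw [h1, h2, h]
    ring
  obtain ⟨W, -⟩ := exists_twLoc 𝓢.hp𝒪 h0 𝓢.hrb hd hq.prime hqp
    ((dvd_pow_self p hN).trans hq.dvd) hA
    (fun σ hσ => 𝓢.rb_inertia hq.prime hqS hA hσ) hφ hσ₀ hne h1 h2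
  exact ⟨W⟩

open Classical in
/-- **Existence of the Taylor-Wiles levels.** -/
theorem exists_levels [Finite (ResidueField 𝒪)]
    (hTWe : TWElements p 𝓢.rb) (hTWd : TWDetect p 𝓢.rb) (hGW : GWad p 𝓢.rb)
    (hfin : (dualSet 𝓢.rb 𝓢.Sg).Finite) :
    ∃ m : ℕ, ∀ (S : Finset ℕ) (N : ℕ), 𝓢.Sg ⊆ S → N ≠ 0 → ∃ qv : Fin m → ℕ, 𝓢.GoodQ N S qv ∧
      (∀ L : PCond, GoodCond L (ResidueField 𝒪) →
        (∀ A : ValuationSubring (AlgebraicClosure ℚ), A.LiesOverPrime p →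
          LocalBound 𝓢.rb (A.decompositionSubgroup ℚ) (fun c => L (defAdic 𝓢.hlev c)) 4) →
        𝓢.δ ≤ m ∧ ∀ D : DeformationRingData 𝒪 𝓢.ρbar (𝓢.type L (Finset.univ.image qv)),
          ∃ Lv : 𝓢.Level L qv (m - 𝓢.δ), Lv.D = D) ∧
      (∀ L L' : PCond, GoodCond L (ResidueField 𝒪) → GoodCond L' (ResidueField 𝒪) →
        (∀ A : ValuationSubring (AlgebraicClosure ℚ), A.LiesOverPrime p →
          LocalBound 𝓢.rb (A.decompositionSubgroup ℚ) (fun c => L' (defAdic 𝓢.hlev c)) 3) →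
        ∀ (Lv : 𝓢.Level L qv (m - 𝓢.δ)) (I : Ideal Lv.D.R),
          (∀ (f : Lv.D.R →+* DualNumber (ResidueField 𝒪)) (hf : IsLocalHom f),
            (∀ x ∈ I, f x = 0) → L' (Lv.D.ρ.baseChangeAlong f hf)) →
          ∃ ℓ : 𝓢.Lam (m - 𝓢.δ), Lv.γ ℓ ∈ I ∧
            ℓ ∉ (maximalIdeal 𝒪).map (MvPowerSeries.C (R := 𝒪)) ⊔
              Ideal.span (Set.range fun s : 𝓢.LocIdx =>
                (MvPowerSeries.X (𝓢.lv (m - 𝓢.δ) s) : 𝓢.Lam (m - 𝓢.δ))) ⊔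
              maximalIdeal (𝓢.Lam (m - 𝓢.δ)) ^ 2) := by
  have hf := 𝓢.fact
  have hsum : ∑ v ∈ 𝓢.T₀ ∪ 𝓢.V, (3 - (if v ∈ 𝓢.T₀ then 0 else 2)) = 𝓢.δ := by
    rw [Finset.sum_union 𝓢.disj', δ]
    congr 1
    · rw [Finset.sum_congr rfl fun v hv => by rw [if_pos hv], Finset.sum_const, smul_eq_mul,
        mul_comm]
    · rw [Finset.sum_congr rfl fun v hv => by
        rw [if_neg fun h => Finset.disjoint_left.mp 𝓢.disj' h hv], Finset.sum_const, smul_eq_mul]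
      omega
  obtain ⟨m, hm⟩ := exists_tangent_count p 𝓢.hp2 𝓢.hp𝒪 𝓢.ρbar 𝓢.habs 𝓢.hrb 𝓢.hlev 𝓢.hcyc
    hTWe hTWd hGW 𝓢.Smin (𝓢.T₀ ∪ 𝓢.V) 𝓢.hpS 𝓢.disj (fun q hq => 𝓢.prime_Smin hq)
    (fun q hq => 𝓢.prime_T hq) 𝓢.unrT hfin
    𝓢.bound 𝓢.A 𝓢.hA (fun v => if v ∈ 𝓢.T₀ then 0 else 2)
    (fun v hv => by split_ifs <;> omega)
    (fun v hv => by
      by_cases h : v ∈ 𝓢.T₀
      · rw [if_pos h]
        exact 𝓢.card_cobD_T₀ h
      · rw [if_neg h]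
        exact 𝓢.card_cobD_V ((Finset.mem_union.mp hv).resolve_left h))
  refine ⟨m, fun S N hS hN => ?_⟩
  obtain ⟨qv, h1, h2, h3⟩ := hm S N hS hN
  refine ⟨qv, ⟨h1, fun i => (h2 i).1, fun i => (h2 i).2⟩, ?_, ?_⟩
  · intro L hL hD
    obtain ⟨hdim, hcount⟩ := h3 L 4 hL.equiv hD
    rw [hsum] at hdim hcount
    refine ⟨by omega, fun D => ?_⟩
    have hm4 : m + 4 - 4 - 𝓢.δ = m - 𝓢.δ := by omega
    rw [hm4] at hcount
    have hres := D.residual_isEquiv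
    have hdet := D.isOfType.1.1
    have hu := 𝓢.type_unipotent D.isOfType
    obtain ⟨z, hzm, hz⟩ := 𝓢.exists_locZ hres hdet hu
    have hcard := hcount L (fun ρ f hf => hL.baseChange ρ f hf) 𝓢.Sg
      Finset.subset_union_left D (fun f => ∀ s, f (z s) = 0)
      (fun f hf _ => hL.baseChange _ f hf D.isOfType.1.2.1)
      (fun f hf c hfc hfz hc hm' => hz.cobD 𝓢 f hf hfc hfz hc hm')
    obtain ⟨γ₀, hγ₀, hX⟩ := exists_surjective_of_card_rel (𝒪 := 𝒪) D.residue_surjective z hzm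
      (m - 𝓢.δ) hcard
    -- reindexing
    let e : (({v // v ∈ 𝓢.T₀} × Bool) × Fin 2 × Fin 2) ⊕ Ka {v // v ∈ 𝓢.V} (Fin (m - 𝓢.δ)) ≃
        𝓢.LocIdx ⊕ Fin (m - 𝓢.δ) :=
      ((Equiv.sumAssoc _ _ _).trans
        (Equiv.sumCongr (Equiv.refl _) (Equiv.sumAssoc _ _ _))).symm
    have he : ∀ s, e (𝓢.lv (m - 𝓢.δ) s) = Sum.inl s := by
      rintro (s | s | s) <;> rfl
    let γ : 𝓢.Lam (m - 𝓢.δ) →ₐ[𝒪] D.R := γ₀.comp
      ((MvPowerSeries.renameEquiv 𝒪 e : _ ≃ₐ[𝒪] _) : _ →ₐ[𝒪] _)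
    have hγ : Function.Surjective γ := hγ₀.comp (MvPowerSeries.renameEquiv 𝒪 e).surjective
    have hγX : ∀ s, γ (MvPowerSeries.X (𝓢.lv (m - 𝓢.δ) s)) = z s := by
      intro s
      have h4 : MvPowerSeries.renameEquiv 𝒪 e (MvPowerSeries.X (𝓢.lv (m - 𝓢.δ) s)) =
          MvPowerSeries.X (Sum.inl s) := by
        refine (MvPowerSeries.rename_X (R := 𝒪) (f := e) (𝓢.lv (m - 𝓢.δ) s)).trans ?_
        rw [he]
      show γ₀ (MvPowerSeries.renameEquiv 𝒪 e _) = _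
      rw [h4, hX]
    obtain ⟨l0, l1, hIT⟩ := hz.IT_le_ker 𝓢 hres hdet hu γ hγX
    have htw : ∀ i, Nonempty (TWLoc D.ρ p (qv i)) := fun i =>
      𝓢.exists_tw hres hdet hN (h2 i).1 fun h => (h2 i).2 (hS (Finset.mem_union_left _ h))
    let W : ∀ i, TWLoc D.ρ p (qv i) := fun i => (htw i).some
    choose y hy using fun i => hγ (((W i).θ : D.R) - 1)
    have hym : ∀ i, y i ∈ maximalIdeal (𝓢.Lam (m - 𝓢.δ)) := by
      intro i hu'
      have h4 : IsUnit (((W i).θ : D.R) - 1) := by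
        rw [← hy i]
        exact hu'.map γ
      have h5 : ((W i).θ : D.R) - 1 ∈ maximalIdeal D.R := by
        rw [← residue_eq_zero_iff, map_sub, (W i).hθ, map_one, sub_self]
      exact h5 h4
    let Φ : MvPowerSeries (Fin m) 𝒪 →ₐ[𝒪] 𝓢.Lam (m - 𝓢.δ) := ev y hym
    have hΦX : ∀ i, Φ (MvPowerSeries.X i) = y i := fun i => ev_X y hym i
    refine ⟨{ D := D, γ := γ, γ_surj := hγ, IT_le := hIT, locZ := ?_, loc₀ := l0, loc₁ := l1,
              tw := W, Φ := Φ, Φ_local := ?_, Φ_X := fun i => ?_ }, rfl⟩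
    · have h6 : (fun s => γ (MvPowerSeries.X (𝓢.lv (m - 𝓢.δ) s))) = z := funext hγX
      rw [h6]
      exact hz
    · constructor
      intro x hx
      by_contra hxn
      exact Fermat.Agent.LocRing.mem_maximalIdeal_of_mem Φ
        (fun s => by rw [hΦX]; exact hym s) (show x ∈ maximalIdeal _ from hxn) hx
    · rw [hΦX, hy]
  · intro L L' hL hL' hD Lv I hI
    obtain ⟨hdim, hcount⟩ := h3 L' 3 hL'.equiv hD
    rw [hsum] at hdim hcount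
    have hcard := hcount L (fun ρ f hf => hL.baseChange ρ f hf) 𝓢.Sg
      Finset.subset_union_left Lv.D (fun f => (∀ s, f (Lv.γ (MvPowerSeries.X
        (𝓢.lv (m - 𝓢.δ) s))) = 0) ∧ ∀ x ∈ I, f x = 0)
      (fun f hf hfP => hI f hf hfP.2)
      (fun f hf c hfc hfz hc hm' => Lv.locZ.cobD 𝓢 f hf hfc hfz.1 hc hm')
    let e : (({v // v ∈ 𝓢.T₀} × Bool) × Fin 2 × Fin 2) ⊕ Ka {v // v ∈ 𝓢.V} (Fin (m - 𝓢.δ)) ≃
        𝓢.LocIdx ⊕ Fin (m - 𝓢.δ) :=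
      ((Equiv.sumAssoc _ _ _).trans
        (Equiv.sumCongr (Equiv.refl _) (Equiv.sumAssoc _ _ _))).symm
    have he : ∀ s, e.symm (Sum.inl s) = 𝓢.lv (m - 𝓢.δ) s := by
      rintro (s | s | s) <;> rfl
    have hlt : Nat.card (ResidueField 𝒪) ^ (m + 3 - 4 - 𝓢.δ) <
        Nat.card (ResidueField 𝒪) ^ (m - 𝓢.δ) :=
      Nat.pow_lt_pow_right Finite.one_lt_card (by omega)
    obtain ⟨ℓ, h4, h5⟩ := exists_linear_form e Lv.γ Lv.γ_surj I (by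
      simp only [he]
      exact lt_of_le_of_lt hcard hlt)
    refine ⟨ℓ, h4, ?_⟩
    simp only [he] at h5
    exact h5

end Setup

end Fermat.Agent.RTD
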