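import Fermat.Agent.RTD.LocalVars
import Fermat.Agent.RTD.Functor

set_option autoImplicit false

/-!
# Relations between the local variables
-/

namespace Fermat.Agent.RTD

open Matrix IsLocalRing GaloisRep
open scoped Pointwise
open Fermat.Agent.S53norm (GQ M2 HasMat MemI exists_hasMat_adic exists_hasMat_res isEquiv_of_hasMat)
open Fermat.Agent.TW

section Mat

variable {R : Type} [CommRing R] [IsLocalRing R]

/-- A residually non-scalar matrix is conjugate to its companion matrix. -/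
theorem exists_companion (Φ : M2 R)
    (hns : ¬ ∃ a : ResidueField R, Φ.map (residue R) = Matrix.scalar (Fin 2) a) :
    ∃ U : (M2 R)ˣ, (U : M2 R) * Φ * ((U⁻¹ : (M2 R)ˣ) : M2 R) = !![0, -Φ.det; 1, Φ.trace] := by
  suffices h : ∃ P : M2 R, IsUnit P.det ∧ Φ * P = P * !![0, -Φ.det; 1, Φ.trace] by
    obtain ⟨P, hP, h⟩ := h
    obtain ⟨V, hV⟩ := (Matrix.isUnit_iff_isUnit_det P).mpr hP
    refine ⟨V⁻¹, ?_⟩
    rw [inv_inv, mul_assoc, hV, h, ← mul_assoc, ← hV, Units.inv_mul, one_mul]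
  have hcases : IsUnit (Φ 1 0) ∨ IsUnit (Φ 0 1) ∨
      (Φ 1 0 ∈ maximalIdeal R ∧ Φ 0 1 ∈ maximalIdeal R ∧ IsUnit (Φ 1 1 - Φ 0 0)) := by
    by_cases h1 : IsUnit (Φ 1 0)
    · exact Or.inl h1
    by_cases h2 : IsUnit (Φ 0 1)
    · exact Or.inr (Or.inl h2)
    refine Or.inr (Or.inr ⟨h1, h2, ?_⟩)
    by_contra h3
    apply hns
    refine ⟨residue R (Φ 0 0), ?_⟩
    ext i j
    fin_cases i <;> fin_cases j
    · simp
    · simpa using (residue_eq_zero_iff (Φ 0 1)).mpr h2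
    · simpa using (residue_eq_zero_iff (Φ 1 0)).mpr h1
    · have h4 := (residue_eq_zero_iff (Φ 1 1 - Φ 0 0)).mpr h3
      rw [map_sub, sub_eq_zero] at h4
      simpa using h4
  rcases hcases with h | h | ⟨h1, h2, h3⟩
  · refine ⟨!![1, Φ 0 0; 0, Φ 1 0], by rw [Matrix.det_fin_two_of]; simpa using h, ?_⟩
    ext i j
    fin_cases i <;> fin_cases j <;>
      simp [Matrix.mul_apply, Fin.sum_univ_two, Matrix.det_fin_two, Matrix.trace_fin_two] <;> ring
  · refine ⟨!![0, Φ 0 1; 1, Φ 1 1], by rw [Matrix.det_fin_two_of]; simpa using h, ?_⟩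
    ext i j
    fin_cases i <;> fin_cases j <;>
      simp [Matrix.mul_apply, Fin.sum_univ_two, Matrix.det_fin_two, Matrix.trace_fin_two] <;> ring
  · refine ⟨!![1, Φ 0 0 + Φ 0 1; 1, Φ 1 0 + Φ 1 1], ?_, ?_⟩
    · rw [Matrix.det_fin_two_of]
      have h4 : Φ 1 0 - Φ 0 1 ∈ maximalIdeal R := Ideal.sub_mem _ h1 h2
      have h5 : (1 : R) * (Φ 1 0 + Φ 1 1) - (Φ 0 0 + Φ 0 1) * 1 =
          (Φ 1 1 - Φ 0 0) + (Φ 1 0 - Φ 0 1) := by ring
      rw [h5]
      by_contra h6
      exact Ideal.sub_mem _ (show _ ∈ maximalIdeal R from h6) h4 (by simpa using h3)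
    · ext i j
      fin_cases i <;> fin_cases j <;>
        simp [Matrix.mul_apply, Fin.sum_univ_two, Matrix.det_fin_two, Matrix.trace_fin_two] <;> ring

end Mat

section Res

variable {𝒪 : Type} [CommRing 𝒪] [IsDomain 𝒪] [IsDiscreteValuationRing 𝒪]
  {ρbar : ResidualGaloisRep (ResidueField 𝒪)}
  {R : Type} [CommRing R] [IsLocalRing R] [Algebra 𝒪 R] [IsLocalHom (algebraMap 𝒪 R)]
  {ρ : GaloisRepAdic R}

lemma exists_hom_hasMat (ρ : GaloisRepAdic R) : ∃ r : GQ →* M2 R, HasMat (ρ.ρ : GQ → _) r := by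
  obtain ⟨r, hr⟩ := exists_hasMat_adic ρ
  exact ⟨{ toFun := r, map_one' := hr.map_one, map_mul' := hr.map_mul }, hr⟩

lemma exists_residual_conj
    (h0 : ρ.residual.IsEquiv (ρbar.baseChangeAlong (ResidueField.map (algebraMap 𝒪 R))))
    {rb : GQ → M2 (ResidueField 𝒪)} (hrb : HasMat (ρbar.ρ : GQ → _) rb)
    {r : GQ → M2 R} (hr : HasMat (ρ.ρ : GQ → _) r) :
    ∃ U : (M2 (ResidueField R))ˣ, ∀ σ, (U : M2 (ResidueField R)) * (r σ).map (residue R) =
      (rb σ).map (ResidueField.map (algebraMap 𝒪 R)) * (U : M2 (ResidueField R)) := by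
  obtain ⟨e⟩ := h0
  exact hr.residual.exists_conj
    ((hrb.baseChangeAlong_res (ResidueField.map (algebraMap 𝒪 R))).of_isEquiv_res ⟨e.symm⟩)

lemma residue_algebraMap (a : 𝒪) : ResidueField.map (algebraMap 𝒪 R) (residue 𝒪 a) =
    residue R (algebraMap 𝒪 R a) := rfl

/-- The matrices of elements which are residually scalar. -/
lemma memI_sub_scalar
    (h0 : ρ.residual.IsEquiv (ρbar.baseChangeAlong (ResidueField.map (algebraMap 𝒪 R))))
    {rb : GQ → M2 (ResidueField 𝒪)} (hrb : HasMat (ρbar.ρ : GQ → _) rb)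
    {r : GQ → M2 R} (hr : HasMat (ρ.ρ : GQ → _) r) {σ : GQ} {a : 𝒪}
    (hσ : rb σ = Matrix.scalar (Fin 2) (residue 𝒪 a)) :
    MemI (maximalIdeal R) (r σ - Matrix.scalar (Fin 2) (algebraMap 𝒪 R a)) := by
  obtain ⟨U, hU⟩ := exists_residual_conj h0 hrb hr
  have h1 := hU σ
  have h2 : (rb σ).map (ResidueField.map (algebraMap 𝒪 R)) =
      Matrix.scalar (Fin 2) (residue R (algebraMap 𝒪 R a)) := by
    rw [hσ]
    ext i j
    by_cases hij : i = j
    · subst hij; simp [residue_algebraMap]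
    · simp [hij]
  rw [h2, Matrix.scalar_commute (residue R (algebraMap 𝒪 R a)) (fun r' => Commute.all _ _)
        (U : M2 (ResidueField R)) |>.eq] at h1
  have h3 : (r σ).map (residue R) = Matrix.scalar (Fin 2) (residue R (algebraMap 𝒪 R a)) :=
    U.isUnit.mul_left_cancel h1
  intro i j
  rw [← residue_eq_zero_iff, Matrix.sub_apply, map_sub, sub_eq_zero]
  have h4 := congrFun (congrFun h3 i) j
  rw [Matrix.map_apply] at h4
  rw [h4]
  by_cases hij : i = j
  · subst hij; simp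
  · simp [hij]

lemma memI_sub_one
    (h0 : ρ.residual.IsEquiv (ρbar.baseChangeAlong (ResidueField.map (algebraMap 𝒪 R))))
    {rb : GQ → M2 (ResidueField 𝒪)} (hrb : HasMat (ρbar.ρ : GQ → _) rb)
    {r : GQ → M2 R} (hr : HasMat (ρ.ρ : GQ → _) r) {σ : GQ} (hσ : rb σ = 1) :
    MemI (maximalIdeal R) (r σ - 1) := by
  have h := memI_sub_scalar (a := 1) h0 hrb hr (σ := σ) (by rw [hσ]; simp)
  simpa using h

/-- The trace is congruent to the residual trace. -/
lemma trace_sub_mem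
    (h0 : ρ.residual.IsEquiv (ρbar.baseChangeAlong (ResidueField.map (algebraMap 𝒪 R))))
    {rb : GQ → M2 (ResidueField 𝒪)} (hrb : HasMat (ρbar.ρ : GQ → _) rb)
    {r : GQ → M2 R} (hr : HasMat (ρ.ρ : GQ → _) r) {σ : GQ} {t : 𝒪}
    (ht : residue 𝒪 t = (rb σ).trace) :
    (r σ).trace - algebraMap 𝒪 R t ∈ maximalIdeal R := by
  obtain ⟨U, hU⟩ := exists_residual_conj h0 hrb hr
  have h1 : ((r σ).map (residue R)).trace =
      ((rb σ).map (ResidueField.map (algebraMap 𝒪 R))).trace := by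
    have h2 : (rb σ).map (ResidueField.map (algebraMap 𝒪 R)) =
        (U : M2 (ResidueField R)) * (r σ).map (residue R) *
          ((U⁻¹ : (M2 (ResidueField R))ˣ) : M2 (ResidueField R)) := by
      rw [hU σ, mul_assoc, Units.mul_inv, mul_one]
    rw [h2, trace_conj]
  rw [← residue_eq_zero_iff, map_sub, sub_eq_zero, ← residue_algebraMap, ht]
  rw [map_trace', map_trace'] at h1
  exact h1

/-- Residually non-scalar elements. -/
lemma not_scalar_of_residual
    (h0 : ρ.residual.IsEquiv (ρbar.baseChangeAlong (ResidueField.map (algebraMap 𝒪 R))))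
    {rb : GQ → M2 (ResidueField 𝒪)} (hrb : HasMat (ρbar.ρ : GQ → _) rb)
    {r : GQ → M2 R} (hr : HasMat (ρ.ρ : GQ → _) r) {σ : GQ}
    (hns : ¬ ∃ a : ResidueField 𝒪, rb σ = Matrix.scalar (Fin 2) a) :
    ¬ ∃ a : ResidueField R, (r σ).map (residue R) = Matrix.scalar (Fin 2) a := by
  rintro ⟨a, ha⟩
  obtain ⟨U, hU⟩ := exists_residual_conj h0 hrb hr
  have h1 := hU σ
  rw [ha, ← Matrix.scalar_commute a (fun r' => Commute.all _ _)
        (U : M2 (ResidueField R)) |>.eq] at h1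
  have h2 := (U.isUnit.mul_right_cancel h1).symm
  have hinj : Function.Injective (ResidueField.map (algebraMap 𝒪 R)) := RingHom.injective _
  apply hns
  refine ⟨rb σ 0 0, ?_⟩
  ext i j
  apply hinj
  have h3 : ∀ i j, ResidueField.map (algebraMap 𝒪 R) (rb σ i j) =
      Matrix.scalar (Fin 2) a i j := fun i j => congrFun (congrFun h2 i) j
  rw [h3]
  by_cases hij : i = j
  · subst hij
    have h4 := h3 0 0
    simp only [Matrix.scalar_apply, Matrix.diagonal_apply_eq] at h4 ⊢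
    exact h4.symm
  · simp [hij]

end Res

section Rel

variable {𝒪 : Type} [CommRing 𝒪] [IsDomain 𝒪] [IsDiscreteValuationRing 𝒪]
  [IsAdicComplete (maximalIdeal 𝒪) 𝒪]
  {ρbar : ResidualGaloisRep (ResidueField 𝒪)}
  {R : Type} [CommRing R] [IsLocalRing R] [IsNoetherianRing R] [Algebra 𝒪 R]
  [IsLocalHom (algebraMap 𝒪 R)] {ρ : GaloisRepAdic R}
  {A : ValuationSubring (AlgebraicClosure ℚ)} {p q : ℕ}

/-- Determinants on inertia and at Frobenius elements. -/
theorem det_of_cyclotomic (hp𝒪 : (p : 𝒪) ∈ maximalIdeal 𝒪) [Fact p.Prime]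
    (hd : ρ.DetIsCyclotomic p)
    {r : GQ → M2 R} (hr : HasMat (ρ.ρ : GQ → _) r) (hq : q.Prime) (hqp : q ≠ p)
    (hA : A.LiesOverPrime q) :
    (∀ σ ∈ A.inertiaSubgroupIn ℚ, (r σ).det = 1) ∧
      ∀ φ, A.IsFrobeniusAt φ q → (r φ).det = (q : R) := by
  have h := (detIsCyclotomic_iff hp𝒪 inferInstance inferInstance ρ).mp hd
  constructor
  · intro σ hσ
    rw [← hasMat_det hr, h σ, Fermat.Agent.S30aux.cycO_inertia hp𝒪 hq hqp hA hσ]
    simp
  · intro φ hφ
    rw [← hasMat_det hr, h φ, Fermat.Agent.S30aux.cycO_frobenius hp𝒪 hq hqp hA hφ, map_natCast]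

omit [IsNoetherianRing R] in
/-- Traces on inertia for unipotent inertia. -/
theorem trace_of_unipotent (hu : ρ.IsUnipotentOnInertiaAt q)
    {r : GQ → M2 R} (hr : HasMat (ρ.ρ : GQ → _) r) (hA : A.LiesOverPrime q)
    {σ : GQ} (hσ : σ ∈ A.inertiaSubgroupIn ℚ) : (r σ).trace = 2 ∧ (r σ).det = 1 := by
  have h := hu A hA σ hσ
  rw [hasMat_charpoly hr, charpoly_eq_iff] at h
  exact h

end Rel

end Fermat.Agent.RTD
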