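import Fermat.Agent.RTD.RelMain
import Fermat.Agent.RTD.TameAdic

set_option autoImplicit false

/-!
# Local variables at the auxiliary primes
-/

namespace Fermat.Agent.RTD

open Matrix IsLocalRing GaloisRep
open scoped Pointwise
open Fermat.Agent.S53norm (GQ M2 HasMat dualAlg isEquiv_of_hasMat)
open Fermat.Agent.TW

section Card

variable {k : Type} [Field k]

/-- Scalar decomposition groups have no coboundaries. -/
lemma card_cobD_of_scalar [Finite k] {r : GQ →* M2 k} {D : Subgroup GQ}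
    (hsc : ∀ σ ∈ D, ∃ a : k, r σ = Matrix.scalar (Fin 2) a) :
    Nat.card (cobD r D) ≤ Nat.card k ^ 0 := by
  have h : Subsingleton (cobD r D) := by
    refine ⟨?_⟩
    rintro ⟨_, X, -, rfl⟩ ⟨_, Y, -, rfl⟩
    refine Subtype.ext (funext fun σ => ?_)
    show act r 0 (σ : GQ) X - X = act r 0 (σ : GQ) Y - Y
    rw [act_of_scalar (hsc σ σ.2), act_of_scalar (hsc σ σ.2), sub_self, sub_self]
  rw [pow_zero]
  exact Finite.card_le_one_iff_subsingleton.mpr h

/-- If the trace-zero matrix `W ≠ 0` is fixed by `D` there are at most `#k ^ 2` coboundaries. -/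
lemma card_cobD_of_fixed [Finite k] {r : GQ →* M2 k} {D : Subgroup GQ} {W : M2 k} (hW0 : W ≠ 0)
    (hWt : W.trace = 0) (hW : ∀ σ ∈ D, act r 0 σ W = W) :
    Nat.card (cobD r D) ≤ Nat.card k ^ 2 := by
  classical
  let f : Ad0 k →ₗ[k] (D → M2 k) :=
    { toFun := fun X => cob r D.subtype 0 X.1
      map_add' := fun X Y => by
        funext σ
        show act r 0 (σ : GQ) (X.1 + Y.1) - (X.1 + Y.1) =
          (act r 0 (σ : GQ) X.1 - X.1) + (act r 0 (σ : GQ) Y.1 - Y.1)
        rw [map_add]; abel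
      map_smul' := fun a X => by
        funext σ
        show act r 0 (σ : GQ) (a • X.1) - (a • X.1) = a • (act r 0 (σ : GQ) X.1 - X.1)
        rw [map_smul, smul_sub] }
  have hfr : ∀ c : D → M2 k, c ∈ LinearMap.range f ↔ c ∈ cobD r D := by
    intro c
    constructor
    · rintro ⟨X, rfl⟩
      exact ⟨X.1, X.2, rfl⟩
    · rintro ⟨X, hX, rfl⟩
      exact ⟨⟨X, hX⟩, rfl⟩
  have hker : LinearMap.ker f ≠ ⊥ := by
    intro h
    have h1 : (⟨W, hWt⟩ : Ad0 k) ∈ LinearMap.ker f := by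
      rw [LinearMap.mem_ker]
      funext σ
      show act r 0 (σ : GQ) W - W = 0
      rw [hW σ σ.2, sub_self]
    rw [h, Submodule.mem_bot] at h1
    exact hW0 (congrArg Subtype.val h1)
  have h1 := LinearMap.finrank_range_add_finrank_ker f
  have h2 : 0 < Module.finrank k (LinearMap.ker f) := by
    rw [Nat.pos_iff_ne_zero, Ne, Submodule.finrank_eq_zero]
    exact hker
  have h3 : Module.finrank k (Ad0 k) = 3 := by
    have h4 := card_Ad0 k
    rw [Module.natCard_eq_pow_finrank (K := k)] at h4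
    exact (Nat.pow_right_injective Finite.one_lt_card) h4
  have h5 : Module.finrank k (LinearMap.range f) ≤ 2 := by omega
  have h6 : Nat.card (cobD r D) = Nat.card (LinearMap.range f) :=
    Nat.card_congr (Equiv.subtypeEquivRight fun c => (hfr c).symm)
  rw [h6, Module.natCard_eq_pow_finrank (K := k)]
  exact Nat.pow_le_pow_right Nat.card_pos h5

/-- The commutator equation. -/
lemma exists_commutator (h2 : (2 : k) ≠ 0) {Φ M : M2 k}
    (hΦ : ¬ ∃ a : k, Φ = Matrix.scalar (Fin 2) a) (ht : M.trace = 0)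
    (ht' : (M * Φ.adjugate).trace = 0) :
    ∃ X : M2 k, X.trace = 0 ∧ M = Φ * X - X * Φ := by
  have e1 : M 1 1 = - M 0 0 := by
    rw [Matrix.trace_fin_two] at ht
    linear_combination ht
  have e2 : M 0 0 * (Φ 0 0 - Φ 1 1) + M 0 1 * Φ 1 0 + M 1 0 * Φ 0 1 = 0 := by
    rw [Matrix.adjugate_fin_two, Matrix.trace_fin_two, Matrix.mul_apply, Matrix.mul_apply,
      Fin.sum_univ_two, Fin.sum_univ_two] at ht'
    simp only [Matrix.of_apply, Matrix.cons_val', Matrix.cons_val_zero, Matrix.cons_val_one,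
      Matrix.cons_val_fin_one, e1] at ht'
    linear_combination - ht'
  have key : ∀ x y z : k, Φ 0 1 * z - Φ 1 0 * y = M 0 0 →
      y * (Φ 0 0 - Φ 1 1) - 2 * Φ 0 1 * x = M 0 1 →
      2 * Φ 1 0 * x - z * (Φ 0 0 - Φ 1 1) = M 1 0 →
      ∃ X : M2 k, X.trace = 0 ∧ M = Φ * X - X * Φ := by
    intro x y z h1 h2 h3
    refine ⟨!![x, y; z, -x], by rw [Matrix.trace_fin_two]; simp, ?_⟩
    ext i j
    fin_cases i <;> fin_cases j <;>
      simp only [Matrix.sub_apply, Matrix.mul_apply, Fin.sum_univ_two, Matrix.of_apply,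
        Matrix.cons_val', Matrix.cons_val_zero, Matrix.cons_val_one, Matrix.cons_val_fin_one,
        Fin.zero_eta, Fin.mk_one]
    · linear_combination - h1
    · linear_combination - h2
    · linear_combination - h3
    · rw [e1]; linear_combination h1
  by_cases hb : Φ 0 1 = 0
  · by_cases hc : Φ 1 0 = 0
    · have had : Φ 0 0 - Φ 1 1 ≠ 0 := by
        intro h
        apply hΦ
        refine ⟨Φ 0 0, ?_⟩
        ext i j
        fin_cases i <;> fin_cases j <;> simp [hb, hc]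
        exact (sub_eq_zero.mp h).symm
      rw [hb, hc] at e2
      have hm : M 0 0 = 0 := by
        have : M 0 0 * (Φ 0 0 - Φ 1 1) = 0 := by linear_combination e2
        exact (mul_eq_zero.mp this).resolve_right had
      refine key 0 (M 0 1 / (Φ 0 0 - Φ 1 1)) (- M 1 0 / (Φ 0 0 - Φ 1 1)) ?_ ?_ ?_
      · rw [hb, hc, hm]; ring
      · field_simp; ring
      · field_simp; ring
    · refine key (M 1 0 / (2 * Φ 1 0)) (- M 0 0 / Φ 1 0) 0 ?_ ?_ ?_
      · field_simp; ring
      · field_simp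
        linear_combination (-1 : k) * e2
      · field_simp; ring
  · refine key (- M 0 1 / (2 * Φ 0 1)) 0 (M 0 0 / Φ 0 1) ?_ ?_ ?_
    · field_simp; ring
    · field_simp; ring
    · field_simp
      linear_combination (-1 : k) * e2

end Card

section Vars

variable {k : Type} [Field k] {p q : ℕ} {A : ValuationSubring (AlgebraicClosure ℚ)}

/-- Restriction of a global cocycle. -/
lemma res_mem_Z1 {r : GQ →* M2 k} {c : GQ → M2 k} (hc : c ∈ Z1 r (MonoidHom.id GQ) 0)
    (D : Subgroup GQ) : (fun σ : D => c σ) ∈ Z1 r D.subtype 0 := by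
  obtain ⟨h1, h2, L, hL, h3⟩ := hc
  exact ⟨fun g => h1 g, fun g h => h2 g h, L, hL, fun g hg => h3 g hg⟩

/-- **Local variables at a prime where `r` is scalar.** -/
theorem cobD_of_scalar (hq : q.Prime) [Fact p.Prime] (hA : A.LiesOverPrime q)
    (hqp : q ≠ p) [CharP k p] {r : GQ →* M2 k}
    (hsc : ∀ σ ∈ A.decompositionSubgroup ℚ, ∃ a : k, r σ = Matrix.scalar (Fin 2) a)
    {φ : GQ} (hφ : A.IsFrobeniusAt φ q) {σ₀ : GQ} (hσ₀ : IsTameGen A p q σ₀)
    {R : Type} [CommRing R] [IsLocalRing R] {ρ : GaloisRepAdic R} {rR : GQ → M2 R}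
    (hrR : HasMat (ρ.ρ : GQ → _) rR) (f : R →+* DualNumber k) (hf : IsLocalHom f)
    {c : GQ → M2 k} (hc : c ∈ Z1 r (MonoidHom.id GQ) 0)
    (hm : HasMat ((ρ.baseChangeAlong f hf).ρ : GQ → _) (dualMat r c))
    {ε : k} (hφ1 : (rR φ).map f = Matrix.scalar (Fin 2) (TrivSqZeroExt.inl ε))
    (hσ1 : (rR σ₀).map f = 1) :
    (fun σ : A.decompositionSubgroup ℚ => c σ) ∈ cobD r (A.decompositionSubgroup ℚ) := by
  obtain ⟨U, hU⟩ := (hrR.baseChangeAlong f hf).exists_conj hm
  have h1 : dualMat r c φ = Matrix.scalar (Fin 2) (TrivSqZeroExt.inl ε) := by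
    have h2 := hU φ
    have h3 : (U : M2 (DualNumber k)) * Matrix.scalar (Fin 2) (TrivSqZeroExt.inl ε) =
        Matrix.scalar (Fin 2) (TrivSqZeroExt.inl ε) * (U : M2 (DualNumber k)) :=
      (Matrix.scalar_commute (TrivSqZeroExt.inl ε : DualNumber k) (fun r' => Commute.all _ _)
        (U : M2 (DualNumber k))).symm.eq
    rw [hφ1, h3] at h2
    exact (U.isUnit.mul_right_cancel h2).symm
  have h2 : dualMat r c σ₀ = 1 := by
    have h2 := hU σ₀
    rw [hσ1, mul_one] at h2
    have h3 : (1 : M2 (DualNumber k)) * U = dualMat r c σ₀ * U := by rw [one_mul]; exact h2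
    exact (U.isUnit.mul_right_cancel h3).symm
  have h3 : c φ = 0 := by
    have h4 := congrArg sm h1
    rw [dualMat, sm_dm] at h4
    have h5 : sm (Matrix.scalar (Fin 2) (TrivSqZeroExt.inl ε : DualNumber k)) = 0 := by
      ext i j
      by_cases hij : i = j
      · subst hij; simp [sm]
      · simp [sm, hij]
    rw [h5] at h4
    calc c φ = c φ * (r φ * r φ⁻¹) := by rw [r_mul_inv, mul_one]
      _ = 0 := by rw [← mul_assoc, h4, zero_mul]
  have h4 : c σ₀ = 0 := (dualMat_eq_one_iff.mp h2).2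
  have h5 := Z1_eq_zero_of_scalar hq hA hqp hsc hφ hσ₀ (res_mem_Z1 hc _) h3 h4
  rw [h5]
  exact AddSubgroup.zero_mem _

/-- **Local variables at a prime where `r` is unramified and not scalar.** -/
theorem cobD_of_nonscalar (hq : q.Prime) [hp : Fact p.Prime] (hp2 : p ≠ 2)
    (hA : A.LiesOverPrime q) (hqp : q ≠ p) [CharP k p] {r : GQ →* M2 k} (hlev : IsFiniteLevel r)
    (hI : ∀ σ ∈ A.inertiaSubgroupIn ℚ, r σ = 1)
    {φ : GQ} (hφ : A.IsFrobeniusAt φ q) (hns : ¬ ∃ a : k, r φ = Matrix.scalar (Fin 2) a)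
    {σ₀ : GQ} (hσ₀ : IsTameGen A p q σ₀)
    {R : Type} [CommRing R] [IsLocalRing R] {ρ : GaloisRepAdic R} {rR : GQ → M2 R}
    (hrR : HasMat (ρ.ρ : GQ → _) rR) (f : R →+* DualNumber k) (hf : IsLocalHom f)
    {c : GQ → M2 k} (hc : c ∈ Z1 r (MonoidHom.id GQ) 0)
    (hm : HasMat ((ρ.baseChangeAlong f hf).ρ : GQ → _) (dualMat r c))
    {t : k} (hφ1 : f (rR φ).trace = TrivSqZeroExt.inl t)
    (hσ1 : (rR σ₀).map f = 1) :
    (fun σ : A.decompositionSubgroup ℚ => c σ) ∈ cobD r (A.decompositionSubgroup ℚ) := by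
  have h2k : (2 : k) ≠ 0 := by
    intro h
    have h1 : ((2 : ℕ) : k) = 0 := by exact_mod_cast h
    rw [CharP.cast_eq_zero_iff k p] at h1
    exact hp2 ((Nat.prime_dvd_prime_iff_eq hp.out Nat.prime_two).1 h1)
  obtain ⟨U, hU⟩ := (hrR.baseChangeAlong f hf).exists_conj hm
  have h2 : dualMat r c σ₀ = 1 := by
    have h2 := hU σ₀
    rw [hσ1, mul_one] at h2
    have h3 : (1 : M2 (DualNumber k)) * U = dualMat r c σ₀ * U := by rw [one_mul]; exact h2
    exact (U.isUnit.mul_right_cancel h3).symm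
  have h4 : c σ₀ = 0 := (dualMat_eq_one_iff.mp h2).2
  have hact : ∀ σ ∈ A.inertiaSubgroupIn ℚ, ∀ X : M2 k, act r 0 σ X = X := fun σ hσ X =>
    act_of_scalar ⟨1, by rw [hI σ hσ]; simp⟩ X
  -- the trace of the Frobenius element
  have h5 : (c φ * r φ).trace = 0 := by
    have h6 : (dualMat r c φ).trace = TrivSqZeroExt.inl t := by
      have h7 : dualMat r c φ = (U : M2 _) * (rR φ).map f * ((U⁻¹ : (M2 _)ˣ) : M2 _) := by
        rw [hU φ, mul_assoc, Units.mul_inv, mul_one]
      rw [h7, trace_conj, map_trace', hφ1]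
    have h7 := congrArg TrivSqZeroExt.snd h6
    rw [Matrix.trace_fin_two, TrivSqZeroExt.snd_add, TrivSqZeroExt.snd_inl] at h7
    rw [Matrix.trace_fin_two]
    simpa [dualMat, dm] using h7
  have h6 : (c φ * r φ * (r φ).adjugate).trace = 0 := by
    rw [mul_assoc, Matrix.mul_adjugate, mul_smul_comm, mul_one, trace_smul, hc.1, smul_zero]
  obtain ⟨X, hX, hXe⟩ := exists_commutator h2k hns h5 h6
  have h7 : c φ = act r 0 φ X - X := by
    rw [act_zero_apply]
    calc c φ = c φ * r φ * r φ⁻¹ := by rw [mul_assoc, r_mul_inv, mul_one]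
      _ = (r φ * X - X * r φ) * r φ⁻¹ := by rw [hXe]
      _ = r φ * X * r φ⁻¹ - X := by rw [sub_mul, mul_assoc X, r_mul_inv, mul_one]
  have hres := res_mem_Z1 hc (A.decompositionSubgroup ℚ)
  have hcobZ : cob r (A.decompositionSubgroup ℚ).subtype 0 X ∈
      Z1 r (A.decompositionSubgroup ℚ).subtype 0 := cob_mem_Z1 _ hlev 0 hX
  refine ⟨X, hX, ?_⟩
  have h8 := Z1_eq_zero_of_frob hq hA hφ (sub_mem hres hcobZ) ?_ ?_
  · exact sub_eq_zero.mp h8
  · intro g hg
    rw [Pi.sub_apply, Z1_inertia_eq_zero hq hA hqp hact hσ₀ hres h4 g hg, zero_sub, neg_eq_zero]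
    show act r 0 (g : GQ) X - X = 0
    rw [hact g hg, sub_self]
  · show c φ - (act r 0 φ X - X) = 0
    rw [h7, sub_self]

end Vars

end Fermat.Agent.RTD
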