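import Mathlib
import Fermat.Agent.TW.Tangent

set_option autoImplicit false

/-!
# Relative tangent spaces

Relative versions of parts (F) and (G) of S56: a deformation ring is generated, over the power
series ring in the entries of finitely many matrices, by as many elements as the dimension of the
space of allowed classes which vanish at these matrices.
-/

namespace Fermat.Agent.RTD

open IsLocalRing Matrix Fermat.Agent.S53norm GaloisRep Fermat.Agent.TW

section Surj

variable {𝒪 R : Type} [CommRing 𝒪] [IsLocalRing 𝒪] [IsNoetherianRing 𝒪]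
  [IsAdicComplete (maximalIdeal 𝒪) 𝒪] [CommRing R] [IsLocalRing R] [IsNoetherianRing R]
  [IsAdicComplete (maximalIdeal R) R] [Algebra 𝒪 R] [IsLocalHom (algebraMap 𝒪 R)]

/-- **Relative part (F)**. -/
theorem exists_surjective_of_card_rel [Finite (ResidueField 𝒪)]
    (hres : Function.Surjective (residue R ∘ algebraMap 𝒪 R)) {ι : Type} [Finite ι] (z : ι → R)
    (hz : ∀ i, z i ∈ maximalIdeal R) (g : ℕ)
    (hcard : Nat.card {f : R →+* DualNumber (ResidueField 𝒪) //
        f.comp (algebraMap 𝒪 R) =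
          (algebraMap (ResidueField 𝒪) (DualNumber (ResidueField 𝒪))).comp (residue 𝒪) ∧
        ∀ i, f (z i) = 0} ≤
      Nat.card (ResidueField 𝒪) ^ g) :
    ∃ γ : MvPowerSeries (ι ⊕ Fin g) 𝒪 →ₐ[𝒪] R, Function.Surjective γ ∧
      ∀ i, γ (MvPowerSeries.X (Sum.inl i)) = z i := by
  set I : Ideal R := Ideal.span (Set.range z) with hI
  have hIm : I ≤ maximalIdeal R := by
    rw [hI, Ideal.span_le]
    rintro _ ⟨i, rfl⟩
    exact hz i
  have hItop : I ≠ ⊤ := fun h => (maximalIdeal.isMaximal R).ne_top (top_le_iff.mp (h ▸ hIm))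
  have : Nontrivial (R ⧸ I) := Ideal.Quotient.nontrivial_iff.mpr hItop
  have : IsLocalRing (R ⧸ I) := IsLocalRing.of_surjective' _ Ideal.Quotient.mk_surjective
  have hmap : (maximalIdeal R).map (Ideal.Quotient.mk I) = maximalIdeal (R ⧸ I) := by
    rcases Ideal.map_eq_top_or_isMaximal_of_surjective (Ideal.Quotient.mk I)
      Ideal.Quotient.mk_surjective (maximalIdeal.isMaximal R) with h | h
    · exfalso
      have h1 := congrArg (Ideal.comap (Ideal.Quotient.mk I)) h
      rw [Ideal.comap_map_of_surjective _ Ideal.Quotient.mk_surjective, Ideal.comap_top,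
        ← RingHom.ker_eq_comap_bot, Ideal.mk_ker, sup_eq_left.mpr hIm] at h1
      exact (maximalIdeal.isMaximal R).ne_top h1
    · exact IsLocalRing.eq_maximalIdeal h
  have hloc : IsLocalHom (Ideal.Quotient.mk I) := by
    constructor
    intro a ha
    by_contra hna
    have h1 : a ∈ maximalIdeal R := hna
    have h2 := Ideal.mem_map_of_mem (Ideal.Quotient.mk I) h1
    rw [hmap] at h2
    exact h2 ha
  have : IsLocalHom (algebraMap 𝒪 (R ⧸ I)) := by
    have : algebraMap 𝒪 (R ⧸ I) = (Ideal.Quotient.mk I).comp (algebraMap 𝒪 R) := rfl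
    rw [this]
    infer_instance
  have hres' : Function.Surjective (residue (R ⧸ I) ∘ algebraMap 𝒪 (R ⧸ I)) := by
    intro y
    obtain ⟨y, rfl⟩ := residue_surjective y
    obtain ⟨y, rfl⟩ := Ideal.Quotient.mk_surjective y
    obtain ⟨c, hc⟩ := hres (residue R y)
    refine ⟨c, ?_⟩
    have h1 : algebraMap 𝒪 R c - y ∈ maximalIdeal R := by
      rw [← residue_eq_zero_iff, map_sub, sub_eq_zero]
      exact hc
    have h2 := Ideal.mem_map_of_mem (Ideal.Quotient.mk I) h1
    rw [hmap, map_sub, ← residue_eq_zero_iff, map_sub, sub_eq_zero] at h2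
    exact h2
  have hcard' : Nat.card {f : (R ⧸ I) →+* DualNumber (ResidueField 𝒪) //
      f.comp (algebraMap 𝒪 (R ⧸ I)) =
        (algebraMap (ResidueField 𝒪) (DualNumber (ResidueField 𝒪))).comp (residue 𝒪)} ≤
      Nat.card (ResidueField 𝒪) ^ g := by
    have hker : ∀ f : R →+* DualNumber (ResidueField 𝒪), (∀ i, f (z i) = 0) →
        ∀ a : R, a ∈ I → f a = 0 := by
      intro f hf a ha
      have h1 : I ≤ RingHom.ker f := by
        rw [hI, Ideal.span_le]
        rintro _ ⟨i, rfl⟩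
        exact RingHom.mem_ker.mpr (hf i)
      exact RingHom.mem_ker.mp (h1 ha)
    have hzI : ∀ i, Ideal.Quotient.mk I (z i) = 0 := fun i =>
      Ideal.Quotient.eq_zero_iff_mem.mpr (Ideal.subset_span ⟨i, rfl⟩)
    refine le_trans (le_of_eq (Nat.card_congr ?_)) hcard
    exact
      { toFun := fun f => ⟨f.1.comp (Ideal.Quotient.mk I), f.2, fun i =>
          (congrArg f.1 (hzI i)).trans (map_zero f.1)⟩
        invFun := fun f => ⟨Ideal.Quotient.lift I f.1 (hker f.1 f.2.2), f.2.1⟩
        left_inv := fun f => Subtype.ext (Ideal.Quotient.ringHom_ext rfl)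
        right_inv := fun f => rfl }
  obtain ⟨x', hx', hgen'⟩ := exists_generators_of_card hres' g hcard'
  choose x hx using fun s => Ideal.Quotient.mk_surjective (x' s)
  have hxm : ∀ s, x s ∈ maximalIdeal R := by
    intro s
    by_contra h
    have h1 : IsUnit (x s) := by
      by_contra h2
      exact h h2
    have h2 := h1.map (Ideal.Quotient.mk I)
    rw [hx] at h2
    exact hx' s h2
  obtain ⟨γ, hγ, hX⟩ := exists_surjective_of_generators (𝒪 := 𝒪) (R := R) hres (Sum.elim z x)
    (by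
      rintro (i | s)
      · exact hz i
      · exact hxm s)
    (by
      set K : Ideal R := Ideal.span (Set.range x) ⊔ (maximalIdeal 𝒪).map (algebraMap 𝒪 R) ⊔
        maximalIdeal R ^ 2 with hK
      have h1 : maximalIdeal R ≤ K ⊔ I := by
        have h2 : (maximalIdeal R).map (Ideal.Quotient.mk I) ≤ K.map (Ideal.Quotient.mk I) := by
          rw [hmap]
          refine hgen'.trans ?_
          rw [hK, Ideal.map_sup, Ideal.map_sup, Ideal.map_pow, hmap, Ideal.map_map]
          refine sup_le_sup_right (sup_le_sup_right ?_ _) _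
          rw [Ideal.map_span, Ideal.span_le]
          rintro _ ⟨s, rfl⟩
          refine Ideal.subset_span ⟨x s, ⟨s, rfl⟩, hx s⟩
        have h3 := Ideal.map_le_iff_le_comap.mp h2
        rwa [Ideal.comap_map_of_surjective _ Ideal.Quotient.mk_surjective,
          ← RingHom.ker_eq_comap_bot, Ideal.mk_ker] at h3
      refine h1.trans (sup_le ?_ ?_)
      · rw [hK]
        refine sup_le_sup_right (sup_le_sup_right ?_ _) _
        refine Ideal.span_mono ?_
        rintro _ ⟨s, rfl⟩
        exact ⟨Sum.inr s, rfl⟩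
      · refine le_trans ?_ (le_sup_left.trans le_sup_left)
        rw [hI]
        refine Ideal.span_mono ?_
        rintro _ ⟨i, rfl⟩
        exact ⟨Sum.inl i, rfl⟩)
  exact ⟨γ, hγ, fun i => hX (Sum.inl i)⟩

end Surj

section Main

variable {𝒪 : Type} [CommRing 𝒪] [IsDomain 𝒪] [IsDiscreteValuationRing 𝒪]
  [IsAdicComplete (maximalIdeal 𝒪) 𝒪] [Finite (ResidueField 𝒪)]
  {ρbar : ResidualGaloisRep (ResidueField 𝒪)}
  {𝒟 : ∀ ⦃A : Type⦄ [CommRing A] [IsLocalRing A] [Algebra 𝒪 A], GaloisRepAdic A → Prop}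

/-- **Relative part (G)**. Let `s j` be finitely many Galois elements acting by scalars `c₀ j` on
the residual representation.  If the group of allowed cocycles vanishing at all `s j`, modulo
coboundaries, has at most `q ^ g` elements, then the deformation ring is generated over the power
series ring in the entries of the matrices `ρ (s j) - c₀ j` by `g` elements. -/
theorem exists_surjective_of_relIndex_rel (DQ : DeformationRingData 𝒪 ρbar 𝒟)
    {rbar : GQ → M2 (ResidueField 𝒪)} (hrbar : HasMat (ρbar.ρ : GQ → _) rbar)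
    (hstab : letI := dualAlg 𝒪
      ∀ (φ : DQ.R →ₐ[𝒪] DualNumber (ResidueField 𝒪))
        (hφ : IsLocalHom (φ : DQ.R →+* DualNumber (ResidueField 𝒪))),
        𝒟 (DQ.ρ.baseChangeAlong (φ : DQ.R →+* DualNumber (ResidueField 𝒪)) hφ))
    {J : Type} [Finite J] (s : J → GQ) (c₀ : J → 𝒪)
    (hs : ∀ j, rbar (s j) = Matrix.scalar (Fin 2) (residue 𝒪 (c₀ j)))
    (Z : AddSubgroup (GQ → M2 (ResidueField 𝒪)))
    (hZ : letI := dualAlg 𝒪
      ∀ (c : GQ → M2 (ResidueField 𝒪)) (ρ : GaloisRepAdic (DualNumber (ResidueField 𝒪))),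
        IsCocyc rbar c → IsLevel c → 𝒟 ρ → HasMat (ρ.ρ : GQ → _) (dualMat rbar c) →
        (∀ j, c (s j) = 0) → c ∈ Z)
    (g : ℕ) (h0 : (cobound rbar).relIndex Z ≠ 0)
    (hle : (cobound rbar).relIndex Z ≤ Nat.card (ResidueField 𝒪) ^ g)
    {r : GQ → M2 DQ.R} (hr : HasMat (DQ.ρ.ρ : GQ → _) r) :
    ∃ γ : MvPowerSeries ((J × Fin 2 × Fin 2) ⊕ Fin g) 𝒪 →ₐ[𝒪] DQ.R, Function.Surjective γ ∧
      ∀ j a b, γ (MvPowerSeries.X (Sum.inl (j, a, b))) =
        (r (s j) - Matrix.scalar (Fin 2) (algebraMap 𝒪 DQ.R (c₀ j))) a b := by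
  letI := dualAlg 𝒪
  obtain ⟨D, hD⟩ := exists_nfData_of DQ.absIrr hrbar
  obtain ⟨rR, hrR, hlift, -⟩ := D.exists_normalForm DQ.residual_isEquiv
  obtain ⟨U, hU⟩ := hr.exists_conj hrR
  -- the scalar matrix
  let S : J → M2 DQ.R := fun j => Matrix.scalar (Fin 2) (algebraMap 𝒪 DQ.R (c₀ j))
  have hconj : ∀ j, r (s j) - S j =
      ((U⁻¹ : (M2 DQ.R)ˣ) : M2 DQ.R) * (rR (s j) - S j) * (U : M2 DQ.R) := by
    intro j
    have h1 : ((U⁻¹ : (M2 DQ.R)ˣ) : M2 DQ.R) * S j * (U : M2 DQ.R) = S j := by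
      have h2 : Commute (S j) (U : M2 DQ.R) := Matrix.scalar_commute _ (Commute.all _) _
      rw [mul_assoc, h2.eq, ← mul_assoc, Units.inv_mul, one_mul]
    have h3 : ((U⁻¹ : (M2 DQ.R)ˣ) : M2 DQ.R) * rR (s j) * (U : M2 DQ.R) = r (s j) := by
      rw [mul_assoc, ← hU, ← mul_assoc, Units.inv_mul, one_mul]
    rw [mul_sub, sub_mul, h1, h3]
  have hconj' : ∀ j, rR (s j) - S j =
      (U : M2 DQ.R) * (r (s j) - S j) * ((U⁻¹ : (M2 DQ.R)ˣ) : M2 DQ.R) := by
    intro j
    rw [hconj j]
    simp only [mul_assoc]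
    rw [Units.mul_inv, mul_one, ← mul_assoc (U : M2 DQ.R), Units.mul_inv, one_mul]
  -- entries lie in the maximal ideal
  have hmemR : ∀ j, MemI (maximalIdeal DQ.R) (rR (s j) - S j) := by
    intro j a b
    by_cases hab : a = b
    · subst hab
      have h1 := hlift (s j) a a (c₀ j) (by rw [hD, hs j]; simp)
      simpa [S] using h1
    · have h1 := hlift (s j) a b 0 (by rw [hD, hs j]; simp [hab])
      simpa [S, hab] using h1
  have hmem : ∀ j, MemI (maximalIdeal DQ.R) (r (s j) - S j) := by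
    intro j
    rw [hconj j]
    exact MemI.mul_right _ (MemI.mul_left _ (hmemR j))
  refine exists_surjective_of_card_rel DQ.residue_surjective
    (fun x : J × Fin 2 × Fin 2 => (r (s x.1) - S x.1) x.2.1 x.2.2)
    (fun x => hmem x.1 x.2.1 x.2.2) g (le_trans ?_ hle) |>.imp fun γ hγ =>
      ⟨hγ.1, fun j a b => hγ.2 (j, a, b)⟩
  have hinv' : ∀ s, rbar s⁻¹ * rbar s = 1 := fun s => by
    rw [← hrbar.map_mul, inv_mul_cancel, hrbar.map_one]
  have hinv : ∀ s, rbar s * rbar s⁻¹ = 1 := fun s => by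
    rw [← hrbar.map_mul, mul_inv_cancel, hrbar.map_one]
  let T := {f : DQ.R →+* DualNumber (ResidueField 𝒪) // f.comp (algebraMap 𝒪 DQ.R) =
        (algebraMap (ResidueField 𝒪) (DualNumber (ResidueField 𝒪))).comp (residue 𝒪) ∧
        ∀ x : J × Fin 2 × Fin 2, f ((r (s x.1) - S x.1) x.2.1 x.2.2) = 0}
  have hloc : ∀ f : T, IsLocalHom f.1 := by
    rintro ⟨f, hf, -⟩
    let g : DQ.R →+* ResidueField 𝒪 :=
      (TrivSqZeroExt.fstHom (ResidueField 𝒪) (ResidueField 𝒪) (ResidueField 𝒪) :
        DualNumber (ResidueField 𝒪) →+* ResidueField 𝒪).comp f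
    have hg : Function.Surjective g := by
      intro y
      obtain ⟨c, hc⟩ := residue_surjective y
      refine ⟨algebraMap 𝒪 DQ.R c, ?_⟩
      show TrivSqZeroExt.fst (f (algebraMap 𝒪 DQ.R c)) = y
      have := RingHom.congr_fun hf c
      rw [RingHom.comp_apply] at this
      rw [this]
      exact hc
    have hgm : RingHom.ker g = maximalIdeal DQ.R :=
      IsLocalRing.eq_maximalIdeal (RingHom.ker_isMaximal_of_surjective g hg)
    constructor
    intro a ha
    by_contra hna
    have h1 : a ∈ RingHom.ker g := by rw [hgm]; exact hna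
    have h2 : TrivSqZeroExt.fst (f a) = 0 := h1
    have h3 := (TrivSqZeroExt.isUnit_iff_isUnit_fst).mp ha
    rw [h2] at h3
    exact not_isUnit_zero h3
  let al : T → (DQ.R →ₐ[𝒪] DualNumber (ResidueField 𝒪)) := fun f =>
    { f.1 with commutes' := fun z => RingHom.congr_fun f.2.1 z }
  have hex : ∀ f : T, ∃ c : GQ → M2 (ResidueField 𝒪), IsCocyc rbar c ∧ IsLevel c ∧
      ∀ σ, (rR σ).map f.1 = dualMat rbar c σ := fun f =>
    exists_cocycle DQ hrR hrbar (fun σ a b z hz => hlift σ a b z (by rw [hz, hD])) f.1 (hloc f)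
      f.2.1
  choose c hc1 hc2 hc3 using hex
  have hmat : ∀ f : T, HasMat ((DQ.ρ.baseChangeAlong f.1 (hloc f)).ρ : GQ → _)
      (dualMat rbar (c f)) := fun f => (hrR.baseChangeAlong f.1 (hloc f)).of_eq (hc3 f)
  -- the cocycle vanishes at the chosen elements
  have hc0 : ∀ f : T, ∀ j, c f (s j) = 0 := by
    intro f j
    have h1 : (r (s j) - S j).map f.1 = 0 := by
      ext1 a b
      exact f.2.2 (j, a, b)
    have h2 : (rR (s j) - S j).map f.1 = 0 := by
      rw [hconj' j, Matrix.map_mul, Matrix.map_mul, h1, mul_zero, zero_mul]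
    have h3 : (rR (s j)).map f.1 = (S j).map f.1 := by
      rw [Matrix.map_sub _ (map_sub f.1)] at h2
      exact sub_eq_zero.mp h2
    have h4 : sm ((S j).map f.1) = 0 := by
      ext a b
      by_cases hab : a = b
      · subst hab
        have h5 : f.1 (algebraMap 𝒪 DQ.R (c₀ j)) = TrivSqZeroExt.inl (residue 𝒪 (c₀ j)) :=
          RingHom.congr_fun f.2.1 (c₀ j)
        simp [sm, S, h5]
      · simp [sm, S, hab]
    have h6 : c f (s j) * rbar (s j) = 0 := by
      have h7 := congrArg sm (hc3 f (s j))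
      rw [h3, h4, dualMat, sm_dm] at h7
      exact h7.symm
    have h8 := congrArg (fun X => X * rbar (s j)⁻¹) h6
    simp only [mul_assoc, hinv, mul_one, zero_mul] at h8
    exact h8
  have hcZ : ∀ f : T, c f ∈ Z := fun f =>
    hZ (c f) _ (hc1 f) (hc2 f) (hstab (al f) (hloc f)) (hmat f) (hc0 f)
  have hfin : Finite (Z ⧸ (cobound rbar).addSubgroupOf Z) :=
    Nat.finite_of_card_ne_zero h0
  have hinj : Function.Injective (fun f : T =>
      (QuotientAddGroup.mk (⟨c f, hcZ f⟩ : Z) : Z ⧸ (cobound rbar).addSubgroupOf Z)) := by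
    intro f g hfg
    have h1 : c g - c f ∈ cobound rbar := by
      have h2 := QuotientAddGroup.eq.mp hfg
      rw [AddSubgroup.mem_addSubgroupOf] at h2
      have h3 : ((-(⟨c f, hcZ f⟩ : Z) + ⟨c g, hcZ g⟩ : Z) : GQ → M2 (ResidueField 𝒪)) =
        c g - c f := by
        rw [AddSubgroup.coe_add, AddSubgroup.coe_neg]
        abel
      rwa [h3] at h2
    obtain ⟨X, hX⟩ := h1
    have h2 := dunit_mul_dualMat hinv' (c := c g) (c' := c f) (X := X) (fun s => hX s)
    have h3 : HasMat ((DQ.ρ.baseChangeAlong f.1 (hloc f)).ρ : GQ → _) (dualMat rbar (c g)) := by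
      refine ((hmat f).conj (dunit X)).of_eq fun s => ?_
      rw [h2, mul_assoc, Units.mul_inv, mul_one]
    have h4 : (DQ.ρ.baseChangeAlong f.1 (hloc f)).IsEquiv
        (DQ.ρ.baseChangeAlong g.1 (hloc g)) := isEquiv_of_hasMat h3 (hmat g)
    have hA := dual_isArtinianTestAlgebra (𝒪 := 𝒪)
    haveI := hA.isLocalHom
    haveI := hA.isArtinian
    haveI := isAdicComplete_dual (𝒪 := 𝒪)
    have hres : (DQ.ρ.baseChangeAlong g.1 (hloc g)).residual.IsEquiv
        (ρbar.baseChangeAlong (IsLocalRing.ResidueField.map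
          (algebraMap 𝒪 (DualNumber (ResidueField 𝒪))))) := by
      refine D.residual_isEquiv (hmat g) ?_
      intro σ a b z hz
      have h5 : algebraMap 𝒪 (DualNumber (ResidueField 𝒪)) z =
        TrivSqZeroExt.inl (residue 𝒪 z) := rfl
      have h6 : dualMat rbar (c g) σ a b - algebraMap 𝒪 (DualNumber (ResidueField 𝒪)) z =
          TrivSqZeroExt.inr ((c g σ * rbar σ) a b) := by
        rw [h5, hz, hD]
        simp [dualMat, dm]
      rw [h6]
      exact eps_mem _
    have huniq := DQ.universal (DualNumber (ResidueField 𝒪)) hA.residue_surjective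
      (DQ.ρ.baseChangeAlong g.1 (hloc g)) (hstab (al g) (hloc g)) hres
    have h7 : al f = al g := huniq.unique ⟨hloc f, h4⟩
      ⟨hloc g, ⟨GaloisRepAdic.Equiv.refl _⟩⟩
    apply Subtype.ext
    have h8 := congrArg (fun φ : DQ.R →ₐ[𝒪] DualNumber (ResidueField 𝒪) =>
      (φ : DQ.R →+* DualNumber (ResidueField 𝒪))) h7
    exact h8
  exact (Nat.card_le_card_of_injective _ hinj)

end Main

end Fermat.Agent.RTD
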