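import Fermat.Agent.RTD.RelSel
import Fermat.Agent.RTD.RelTangent
import Fermat.Agent.RTD.Exist
import Fermat.Agent.TW.LocalForms
import Fermat.Agent.LocRing.Eval
import Fermat.Agent.RTD.Functor

set_option autoImplicit false

/-!
# Generators of `R_Q` relative to local variables
-/

namespace Fermat.Agent.RTD

open Matrix IsLocalRing GaloisRep
open scoped Pointwise
open Fermat.Agent.S53norm (GQ M2 HasMat dualAlg isEquiv_of_hasMat)
open Fermat.Agent.TW

/-- A family of conditions at `p`. -/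
abbrev PCond : Type 1 := ∀ ⦃A : Type⦄ [CommRing A] [IsLocalRing A], GaloisRepAdic A → Prop

/-- The type of deformations attached to a condition `L` at `p`. -/
abbrev condL (L : PCond) (𝒪 : Type) [CommRing 𝒪] (p : ℕ) (S Smin : Finset ℕ) :
    ∀ ⦃A : Type⦄ [CommRing A] [IsLocalRing A] [Algebra 𝒪 A], GaloisRepAdic A → Prop :=
  fun _A _ _ _ ρ => (ρ.DetIsCyclotomic p ∧ L ρ ∧ ∀ q : ℕ, q.Prime → q ∉ S → ρ.IsUnramifiedAt q) ∧
    ∀ q ∈ Smin, q.Prime → q ≠ p → ρ.IsUnipotentOnInertiaAt q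

lemma condOrd_eq (𝒪 : Type) [CommRing 𝒪] (p : ℕ) (S Smin : Finset ℕ) :
    condOrd 𝒪 p S Smin = condL (fun _ _ _ ρ => ρ.IsStrictOrdinaryAt p) 𝒪 p S Smin := rfl

lemma condFlat_eq (𝒪 : Type) [CommRing 𝒪] (p : ℕ) (S Smin : Finset ℕ) :
    condFlat 𝒪 p S Smin = condL (fun _ _ _ ρ => ρ.IsFlatAt p) 𝒪 p S Smin := rfl

variable {𝒪 : Type} [CommRing 𝒪] [IsDomain 𝒪] [IsDiscreteValuationRing 𝒪]
  [IsAdicComplete (maximalIdeal 𝒪) 𝒪] [Finite (ResidueField 𝒪)]

/-- **Tangent spaces of `R_Q` relative to local variables.** The Taylor-Wiles primes do not depend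
on the condition at `p`. -/
theorem exists_tangent_count
    (p : ℕ) [Fact p.Prime] (hp2 : p ≠ 2) (hp𝒪 : (p : 𝒪) ∈ maximalIdeal 𝒪)
    (ρbar : ResidualGaloisRep (ResidueField 𝒪)) (habs : ρbar.IsAbsolutelyIrreducible)
    {r : GQ →* M2 (ResidueField 𝒪)} (hr : HasMat (ρbar.ρ : GQ → _) r) (hlev : IsFiniteLevel r)
    (hdet : CycDet p r)
    (hTWe : TWElements p r) (hTWd : TWDetect p r) (hGW : GWad p r)
    (Smin T1 : Finset ℕ) (hpS : p ∈ Smin) (hdisj0 : Disjoint Smin T1)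
    (hSp : ∀ q ∈ Smin, q.Prime) (hT1p : ∀ q ∈ T1, q.Prime)
    (hrT : UnramOutside Smin (fun σ => r σ - 1)) (hfin : (dualSet r (Smin ∪ T1)).Finite)
    (hE2 : ∀ q ∈ Smin, q ≠ p → ∀ A : ValuationSubring (AlgebraicClosure ℚ), A.LiesOverPrime q →
      LocalBound r (A.decompositionSubgroup ℚ)
        (fun c => (defAdic hlev c).IsUnipotentOnInertiaAt q) 3)
    (A0 : ℕ → ValuationSubring (AlgebraicClosure ℚ)) (hA0 : ∀ v ∈ T1, (A0 v).LiesOverPrime v)
    (e : ℕ → ℕ) (he : ∀ v ∈ T1, e v ≤ 3)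
    (hcob : ∀ v ∈ T1, Nat.card (cobD r ((A0 v).decompositionSubgroup ℚ)) ≤
      Nat.card (ResidueField 𝒪) ^ e v) :
    ∃ m : ℕ, ∀ (S : Finset ℕ) (N : ℕ), Smin ∪ T1 ⊆ S → N ≠ 0 →
      ∃ qv : Fin m → ℕ, Function.Injective qv ∧
      (∀ i, IsTWPrime p N r (qv i) ∧ qv i ∉ S) ∧
      ∀ (L' : PCond) (dp : ℕ),
        (∀ (ρ ρ' : GaloisRepAdic (DualNumber (ResidueField 𝒪))), ρ.IsEquiv ρ' → L' ρ → L' ρ') →
        (∀ A : ValuationSubring (AlgebraicClosure ℚ), A.LiesOverPrime p →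
          LocalBound r (A.decompositionSubgroup ℚ) (fun c => L' (defAdic hlev c)) dp) →
        ∑ v ∈ T1, (3 - e v) + 4 ≤ m + dp ∧
        ∀ (L : PCond),
          (∀ {R : Type} [CommRing R] [IsLocalRing R] (ρ : GaloisRepAdic R)
            (f : R →+* DualNumber (ResidueField 𝒪)) (hf : IsLocalHom f), L ρ →
              L (ρ.baseChangeAlong f hf)) →
          ∀ (S1 : Finset ℕ), Smin ⊆ S1 → ∀ (DQ : DeformationRingData 𝒪 ρbar
            (condL L 𝒪 p ((Smin ∪ T1) ∪ Finset.univ.image qv) S1))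
          (Pr : (DQ.R →+* DualNumber (ResidueField 𝒪)) → Prop),
          (∀ (f : DQ.R →+* DualNumber (ResidueField 𝒪)) (hf : IsLocalHom f), Pr f →
            L' (DQ.ρ.baseChangeAlong f hf)) →
          (∀ (f : DQ.R →+* DualNumber (ResidueField 𝒪)) (hf : IsLocalHom f)
            (c : GQ → M2 (ResidueField 𝒪)),
            f.comp (algebraMap 𝒪 DQ.R) =
              (algebraMap (ResidueField 𝒪) (DualNumber (ResidueField 𝒪))).comp (residue 𝒪) →
            Pr f → c ∈ Z1 r (MonoidHom.id GQ) 0 →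
            HasMat ((DQ.ρ.baseChangeAlong f hf).ρ : GQ → _) (dualMat r c) →
            ∀ v ∈ T1, (fun σ : (A0 v).decompositionSubgroup ℚ => c σ) ∈
              cobD r ((A0 v).decompositionSubgroup ℚ)) →
          Nat.card {f : DQ.R →+* DualNumber (ResidueField 𝒪) //
            f.comp (algebraMap 𝒪 DQ.R) =
              (algebraMap (ResidueField 𝒪) (DualNumber (ResidueField 𝒪))).comp (residue 𝒪) ∧
            Pr f} ≤ Nat.card (ResidueField 𝒪) ^ (m + dp - 4 - ∑ v ∈ T1, (3 - e v)) := by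
  classical
  have hp : p.Prime := Fact.out
  have hpk : (p : ResidueField 𝒪) = 0 := by
    have h1 := (residue_eq_zero_iff (R := 𝒪) (p : 𝒪)).2 hp𝒪
    rwa [map_natCast] at h1
  have hchar : CharP (ResidueField 𝒪) p := Frob.charP_of_prime_natCast_eq_zero hp hpk
  obtain ⟨m, hm⟩ := exists_twPrimes_rel hp hp2 hlev hdet hTWe hTWd hGW Smin T1 hpS hdisj0
    hSp hT1p hrT hfin A0 hA0 e he hcob (card_cobound habs hr).ge
  refine ⟨m, fun S N hTS hN => ?_⟩
  obtain ⟨qv, h1, h2, h3⟩ := hm S N hTS hN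
  refine ⟨qv, h1, h2, fun L' dp hLeq hD => ?_⟩
  obtain ⟨hdim, Z, hZfin, hZcard, hZcob, hZ⟩ := h3 (fun q c => if q = p then L' (defAdic hlev c)
      else (defAdic hlev c).IsUnipotentOnInertiaAt q) dp (fun q hq A hA => by
        by_cases hqp : q = p
        · subst hqp
          simpa using hD A hA
        · simpa [hqp] using hE2 q hq hqp A hA)
  refine ⟨hdim, fun L hLbc S1 hS1 DQ Pr hPrL hPrC => ?_⟩
  let _ := dualAlg 𝒪
  -- the relative index
  have hidx : Nat.card (cobound (r : GQ → M2 (ResidueField 𝒪))) *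
      (cobound (r : GQ → M2 (ResidueField 𝒪))).relIndex Z = Nat.card Z := by
    have := AddSubgroup.relIndex_mul_relIndex ⊥ (cobound (r : GQ → M2 (ResidueField 𝒪))) Z
      bot_le hZcob
    rwa [AddSubgroup.relIndex_bot_left, AddSubgroup.relIndex_bot_left] at this
  rw [card_cobound habs hr] at hidx
  have hpos : 0 < Nat.card Z := Nat.card_pos
  have hq : 0 < Nat.card (ResidueField 𝒪) ^ 3 := pow_pos Nat.card_pos 3
  have h0 : (cobound (r : GQ → M2 (ResidueField 𝒪))).relIndex Z ≠ 0 := by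
    intro h0
    rw [h0, mul_zero] at hidx
    exact hpos.ne hidx
  have hle : (cobound (r : GQ → M2 (ResidueField 𝒪))).relIndex Z ≤
      Nat.card (ResidueField 𝒪) ^ (m + dp - 4 - ∑ v ∈ T1, (3 - e v)) := by
    rw [← hidx, pow_add, mul_comm] at hZcard
    exact Nat.le_of_mul_le_mul_right hZcard hq
  have hbc : ∀ (f : DQ.R →+* DualNumber (ResidueField 𝒪)) (hf : IsLocalHom f),
      condL L 𝒪 p ((Smin ∪ T1) ∪ Finset.univ.image qv) S1 (DQ.ρ.baseChangeAlong f hf) := by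
    intro f hf
    obtain ⟨⟨t1, t2, t3⟩, t4⟩ := DQ.isOfType
    exact ⟨⟨detIsCyclotomic_baseChange f hf t1, hLbc _ f hf t2,
      fun q hq hqS => isUnramifiedAt_baseChange f hf (t3 q hq hqS)⟩,
      fun q hq hq1 hq2 => isUnipotentOnInertiaAt_baseChange f hf (t4 q hq hq1 hq2)⟩
  refine le_trans ?_ hle
  refine card_tangent_le DQ hr Pr (fun φ hφ => hbc _ hφ) Z ?_ h0
  intro f hf c hfc hfz hc1 hc2 hm'
  obtain ⟨⟨t1, t2, t3⟩, t4⟩ := hbc f hf
  have hcZ1 : c ∈ Z1 r (MonoidHom.id GQ) 0 :=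
    mem_Z1_of_isCocyc hc1 hc2 fun σ =>
      trace_eq_zero_of_detIsCyclotomic hpk (fun s => r_mul_inv r s) hm' t1 σ
  have hequiv : (DQ.ρ.baseChangeAlong f hf).IsEquiv (defAdic hlev ⟨c, hcZ1⟩) :=
    isEquiv_of_hasMat hm' (defAdic_hasMat hlev ⟨c, hcZ1⟩)
  refine hZ ⟨c, hcZ1⟩ ?_ ?_ ?_
  · intro q hq hqS P hP σ hσ
    exact (eq_zero_of_isUnramifiedAt hm' (t3 q hq hqS) hP hσ).2
  · intro q hq
    by_cases hqp : q = p
    · simpa [hqp] using hLeq _ _ hequiv (hPrL f hf hfz)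
    · simpa [hqp] using isUnipotentOnInertiaAt_of_isEquiv hequiv (t4 q (hS1 hq) (hSp q hq) hqp)
  · exact hPrC f hf c hfc hfz hcZ1 hm'

section LinForm

variable {R : Type} [CommRing R] [IsLocalRing R] [Algebra 𝒪 R]

open MvPowerSeries

theorem finite_compat {σ : Type} [Finite σ]
    (γ : MvPowerSeries σ 𝒪 →ₐ[𝒪] R) (hγ : Function.Surjective γ) :
    Finite {f : R →+* DualNumber (ResidueField 𝒪) // f.comp (algebraMap 𝒪 R) =
      (algebraMap (ResidueField 𝒪) (DualNumber (ResidueField 𝒪))).comp (residue 𝒪)} := by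
  letI := dualAlg 𝒪
  have hfk : Finite (DualNumber (ResidueField 𝒪)) :=
    inferInstanceAs (Finite (ResidueField 𝒪 × ResidueField 𝒪))
  refine Finite.of_injective (β := σ → DualNumber (ResidueField 𝒪))
    (fun f s => f.1 (γ (X s))) ?_
  rintro ⟨f, hf⟩ ⟨g, hg⟩ hfg
  apply Subtype.ext
  show f = g
  let fa : R →ₐ[𝒪] DualNumber (ResidueField 𝒪) :=
    { f with commutes' := fun z => RingHom.congr_fun hf z }
  let ga : R →ₐ[𝒪] DualNumber (ResidueField 𝒪) :=
    { g with commutes' := fun z => RingHom.congr_fun hg z }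
  have hA := Fermat.Agent.S53norm.dual_isArtinianTestAlgebra (𝒪 := 𝒪)
  haveI := hA.isLocalHom
  haveI := hA.isArtinian
  haveI := isAdicComplete_dual (𝒪 := 𝒪)
  have h1 : fa.comp γ = ga.comp γ := by
    refine Fermat.Agent.LocRing.algHom_ext_of_mem
      (maximalIdeal (DualNumber (ResidueField 𝒪))) ?_ ?_
    · intro s hu
      have hloc := isLocalHom_dual f hf
      have hγl : IsLocalHom (γ : MvPowerSeries σ 𝒪 →+* R) :=
        IsLocalHom.of_surjective (γ : MvPowerSeries σ 𝒪 →+* R) hγ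
      have h2 : IsUnit (X s : MvPowerSeries σ 𝒪) := hγl.map_nonunit _ (hloc.map_nonunit _ hu)
      rw [MvPowerSeries.isUnit_iff_constantCoeff, constantCoeff_X] at h2
      exact not_isUnit_zero h2
    · intro s
      exact congrFun hfg s
  ext1 x
  obtain ⟨y, rfl⟩ := hγ x
  exact congrArg (fun φ : MvPowerSeries σ 𝒪 →ₐ[𝒪] DualNumber (ResidueField 𝒪) => φ y) h1

/-- **Linear forms.** If `R / I` is generated over the local variables by fewer than `g` elements
(tangent space count), the kernel of `𝒪[[ι ⊕ Fin g]] → R / I` contains an element which is not in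
`(ϖ, local variables) + 𝔪 ^ 2`. -/
theorem exists_linear_form {ι σ : Type} [Finite σ] {g : ℕ} (e : σ ≃ ι ⊕ Fin g)
    (γ : MvPowerSeries σ 𝒪 →ₐ[𝒪] R) (hγ : Function.Surjective γ) (I : Ideal R)
    (hcard : Nat.card {f : R →+* DualNumber (ResidueField 𝒪) //
        f.comp (algebraMap 𝒪 R) =
          (algebraMap (ResidueField 𝒪) (DualNumber (ResidueField 𝒪))).comp (residue 𝒪) ∧
        ((∀ i, f (γ (X (e.symm (Sum.inl i)))) = 0) ∧ ∀ x ∈ I, f x = 0)} <
      Nat.card (ResidueField 𝒪) ^ g) :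
    ∃ ℓ : MvPowerSeries σ 𝒪, γ ℓ ∈ I ∧
      ℓ ∉ (maximalIdeal 𝒪).map (C (σ := σ) (R := 𝒪)) ⊔
        Ideal.span (Set.range fun i : ι => (X (e.symm (Sum.inl i)) : MvPowerSeries σ 𝒪)) ⊔
        maximalIdeal (MvPowerSeries σ 𝒪) ^ 2 := by
  classical
  by_contra hcon
  push Not at hcon
  letI := dualAlg 𝒪
  have hA := Fermat.Agent.S53norm.dual_isArtinianTestAlgebra (𝒪 := 𝒪)
  haveI := hA.isLocalHom
  haveI := hA.isArtinian
  haveI := isAdicComplete_dual (𝒪 := 𝒪)
  let xa : (Fin g → ResidueField 𝒪) → σ → DualNumber (ResidueField 𝒪) :=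
    fun a s => Sum.elim (fun _ => 0) (fun i => TrivSqZeroExt.inr (a i)) (e s)
  have hxa : ∀ a s, xa a s ∈ maximalIdeal (DualNumber (ResidueField 𝒪)) := by
    intro a s
    show Sum.elim (fun _ => 0) (fun i => TrivSqZeroExt.inr (a i)) (e s) ∈ _
    rcases e s with s | s
    · exact Ideal.zero_mem _
    · exact Fermat.Agent.S53norm.eps_mem _
  let F : (Fin g → ResidueField 𝒪) → MvPowerSeries σ 𝒪 →ₐ[𝒪]
    DualNumber (ResidueField 𝒪) := fun a => Fermat.Agent.LocRing.ev (xa a) (hxa a)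
  have hFX : ∀ a s, F a (X s) = xa a s := fun a s => Fermat.Agent.LocRing.ev_X _ _ _
  have hm2 : ∀ x ∈ maximalIdeal (DualNumber (ResidueField 𝒪)) ^ 2, x = 0 := by
    intro x hx
    rw [pow_two] at hx
    refine Submodule.mul_induction_on hx (fun y hy z hz => ?_) (fun y z hy hz => by
      rw [hy, hz, add_zero])
    have hy' : TrivSqZeroExt.fst y = 0 := by
      by_contra h
      exact hy (TrivSqZeroExt.isUnit_iff_isUnit_fst.mpr (isUnit_iff_ne_zero.mpr h))
    have hz' : TrivSqZeroExt.fst z = 0 := by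
      by_contra h
      exact hz (TrivSqZeroExt.isUnit_iff_isUnit_fst.mpr (isUnit_iff_ne_zero.mpr h))
    apply TrivSqZeroExt.ext
    · rw [TrivSqZeroExt.fst_mul, hy', zero_mul]; rfl
    · rw [TrivSqZeroExt.snd_mul, hy', hz']; simp
  have hkill : ∀ a, ∀ ℓ ∈ (maximalIdeal 𝒪).map (C (σ := σ) (R := 𝒪)) ⊔
        Ideal.span (Set.range fun i : ι => (X (e.symm (Sum.inl i)) : MvPowerSeries σ 𝒪)) ⊔
        maximalIdeal (MvPowerSeries σ 𝒪) ^ 2, F a ℓ = 0 := by
    intro a
    suffices h : (maximalIdeal 𝒪).map (C (σ := σ) (R := 𝒪)) ⊔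
        Ideal.span (Set.range fun i : ι => (X (e.symm (Sum.inl i)) : MvPowerSeries σ 𝒪)) ⊔
        maximalIdeal (MvPowerSeries σ 𝒪) ^ 2 ≤
        RingHom.ker (F a : MvPowerSeries σ 𝒪 →+* DualNumber (ResidueField 𝒪)) from
      fun ℓ hℓ => h hℓ
    refine sup_le (sup_le ?_ ?_) ?_
    · rw [Ideal.map_le_iff_le_comap]
      intro c hc
      rw [Ideal.mem_comap, RingHom.mem_ker]
      show F a (C c) = 0
      rw [show F a (C c) = algebraMap 𝒪 (DualNumber (ResidueField 𝒪)) c from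
        Fermat.Agent.LocRing.ev_C _ _ _]
      show TrivSqZeroExt.inl (residue 𝒪 c) = 0
      rw [(residue_eq_zero_iff c).mpr hc]
      rfl
    · rw [Ideal.span_le]
      rintro _ ⟨i, rfl⟩
      refine (hFX a (e.symm (Sum.inl i))).trans ?_
      show Sum.elim (fun _ => 0) (fun i => TrivSqZeroExt.inr (a i)) (e (e.symm (Sum.inl i))) = 0
      rw [Equiv.apply_symm_apply]
      rfl
    · intro x hx
      refine hm2 _ ?_
      have h1 : (maximalIdeal (MvPowerSeries σ 𝒪)).map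
          (F a : MvPowerSeries σ 𝒪 →+* DualNumber (ResidueField 𝒪)) ≤
          maximalIdeal (DualNumber (ResidueField 𝒪)) := by
        rw [Ideal.map_le_iff_le_comap]
        intro y hy
        exact Fermat.Agent.LocRing.mem_maximalIdeal_of_mem (F a)
          (fun s => by rw [hFX]; exact hxa a s) hy
      have h2 := Ideal.mem_map_of_mem
        (F a : MvPowerSeries σ 𝒪 →+* DualNumber (ResidueField 𝒪)) hx
      rw [Ideal.map_pow] at h2
      exact Ideal.pow_right_mono h1 2 h2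
  have hker : ∀ a, RingHom.ker (γ : MvPowerSeries σ 𝒪 →+* R) ≤
      RingHom.ker (F a : MvPowerSeries σ 𝒪 →+* DualNumber (ResidueField 𝒪)) := by
    intro a x hx
    rw [RingHom.mem_ker] at hx
    exact hkill a x (hcon x (by
      have : γ x = 0 := hx
      rw [this]
      exact I.zero_mem))
  let f : (Fin g → ResidueField 𝒪) → (R →+* DualNumber (ResidueField 𝒪)) := fun a =>
    RingHom.liftOfSurjective (γ : MvPowerSeries σ 𝒪 →+* R) hγ ⟨F a, hker a⟩
  have hf : ∀ a x, f a (γ x) = F a x := fun a x =>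
    RingHom.liftOfSurjective_comp_apply (γ : MvPowerSeries σ 𝒪 →+* R) hγ
      ⟨(F a : MvPowerSeries σ 𝒪 →+* DualNumber (ResidueField 𝒪)), hker a⟩ x
  have hfin := finite_compat γ hγ
  have hfin' : Finite {f : R →+* DualNumber (ResidueField 𝒪) //
        f.comp (algebraMap 𝒪 R) =
          (algebraMap (ResidueField 𝒪) (DualNumber (ResidueField 𝒪))).comp (residue 𝒪) ∧
        ((∀ i, f (γ (X (e.symm (Sum.inl i)))) = 0) ∧ ∀ x ∈ I, f x = 0)} :=
    Finite.of_injective (fun x => (⟨x.1, x.2.1⟩ : {f : R →+* DualNumber (ResidueField 𝒪) //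
      f.comp (algebraMap 𝒪 R) =
      (algebraMap (ResidueField 𝒪) (DualNumber (ResidueField 𝒪))).comp (residue 𝒪)}))
      (fun x y hxy => Subtype.ext (Subtype.mk.inj hxy))
  have hc : ∀ a, (f a).comp (algebraMap 𝒪 R) =
      (algebraMap (ResidueField 𝒪) (DualNumber (ResidueField 𝒪))).comp (residue 𝒪) := by
    intro a
    ext1 c
    rw [RingHom.comp_apply, ← γ.commutes c, hf, (F a).commutes]
    rfl
  have hinj : Function.Injective (fun a : Fin g → ResidueField 𝒪 =>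
      (⟨f a, hc a, fun i => by
        rw [hf, hFX]
        show Sum.elim (fun _ => 0) (fun i => TrivSqZeroExt.inr (a i)) (e (e.symm (Sum.inl i))) = 0
        rw [Equiv.apply_symm_apply]
        rfl, fun x hx => by
        obtain ⟨y, rfl⟩ := hγ x
        rw [hf]
        exact hkill a y (hcon y hx)⟩ : {f : R →+* DualNumber (ResidueField 𝒪) //
        f.comp (algebraMap 𝒪 R) =
          (algebraMap (ResidueField 𝒪) (DualNumber (ResidueField 𝒪))).comp (residue 𝒪) ∧
        ((∀ i, f (γ (X (e.symm (Sum.inl i)))) = 0) ∧ ∀ x ∈ I, f x = 0)})) := by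
    intro a b hab
    have h1 : f a = f b := Subtype.mk.inj hab
    funext i
    have h2 := congrArg (fun φ : R →+* DualNumber (ResidueField 𝒪) =>
      TrivSqZeroExt.snd (φ (γ (X (e.symm (Sum.inr i)))))) h1
    simp only [hf, hFX] at h2
    have h3 : ∀ a : Fin g → ResidueField 𝒪, xa a (e.symm (Sum.inr i)) =
        TrivSqZeroExt.inr (a i) := fun a => by
      show Sum.elim (fun _ => 0) (fun i => TrivSqZeroExt.inr (a i)) (e (e.symm (Sum.inr i))) = _
      rw [Equiv.apply_symm_apply]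
      rfl
    rw [h3, h3] at h2
    exact h2
  have h1 := Nat.card_le_card_of_injective _ hinj
  rw [Nat.card_fun, Nat.card_eq_fintype_card (α := Fin g), Fintype.card_fin] at h1
  exact absurd h1 (not_le.mpr hcard)

end LinForm

end Fermat.Agent.RTD
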