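import Fermat.Agent.TW.Core
import Fermat.Agent.TW.TangentDefs

set_option autoImplicit false

/-!
# Taylor-Wiles primes and Selmer groups which are strict at a set `T1` of primes

At the primes `v ∈ T1` the local condition is: the restriction to the decomposition group is a
coboundary.
-/

namespace Fermat.Agent.RTD

open Matrix IsLocalRing GaloisRep
open scoped Pointwise
open Fermat.Agent.S53norm (GQ M2 HasMat)
open Fermat.Agent.TW

variable {k : Type} [Field k] {r : GQ →* M2 k} {p : ℕ}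

/-- A matrix is trace-zero up to a scalar matrix (`2` invertible). -/
lemma exists_trace_zero_add_scalar (h2 : (2 : k) ≠ 0) (X : M2 k) :
    ∃ Y : M2 k, Y.trace = 0 ∧ ∃ a : k, X = Y + a • (1 : M2 k) := by
  refine ⟨X - (X.trace / 2) • 1, ?_, X.trace / 2, by rw [sub_add_cancel]⟩
  rw [trace_sub, trace_smul, trace_one, Fintype.card_fin, smul_eq_mul]
  push_cast
  rw [div_mul_cancel₀ _ h2, sub_self]

/-- Coboundaries are allowed. -/
lemma cobound_le_allowed (h2 : (2 : k) ≠ 0) (hlev : IsFiniteLevel r) {T Q : Finset ℕ}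
    {D : ℕ → Subgroup GQ} {Λ : ∀ q, AddSubgroup (D q → M2 k)}
    (hr : UnramOutside (T ∪ Q) (fun σ => r σ - 1))
    (hΛ : ∀ q ∈ T, ∀ X : M2 k, X.trace = 0 → cob r (D q).subtype 0 X ∈ Λ q) :
    cobound (r : GQ → M2 k) ≤ allowed r T Q D Λ := by
  rintro c ⟨X, hX⟩
  obtain ⟨Y, hY, a, rfl⟩ := exists_trace_zero_add_scalar h2 X
  have hc : ∀ σ, c σ = - cob r (MonoidHom.id GQ) 0 Y σ := by
    intro σ
    show c σ = - (act r 0 σ Y - Y)
    rw [act_zero_apply, hX, mul_add, add_mul, mul_smul_comm, mul_one, smul_mul_assoc, r_mul_inv]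
    abel
  have hc' : c = - cob r (MonoidHom.id GQ) 0 Y := funext hc
  rw [mem_allowed]
  refine ⟨?_, ?_, ?_⟩
  · rw [hc']
    exact Submodule.neg_mem _ (cob_mem_Z1 _ hlev 0 hY)
  · intro q hq hqS A hA σ hσ
    have h1 : r σ = 1 := sub_eq_zero.mp (hr q hq hqS A hA σ hσ)
    have h3 : r σ⁻¹ = 1 := by
      have := r_mul_inv r σ
      rwa [h1, one_mul] at this
    rw [hX, h1, h3, one_mul, mul_one, sub_self]
  · intro q hq
    have h1 : (fun σ : D q => c (σ : GQ)) = - cob r (D q).subtype 0 Y := by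
      funext σ
      exact hc σ
    rw [h1]
    exact (Λ q).neg_mem (hΛ q hq Y hY)

/-- The trace-zero coboundaries of a subgroup `D`. -/
noncomputable def cobD (r : GQ →* M2 k) (D : Subgroup GQ) : AddSubgroup (D → M2 k) where
  carrier := {c | ∃ X : M2 k, X.trace = 0 ∧ c = cob r D.subtype 0 X}
  zero_mem' := ⟨0, trace_zero _ _, by
    funext σ
    show 0 = act r 0 (σ : GQ) 0 - 0
    rw [map_zero, sub_zero]⟩
  add_mem' := by
    rintro a b ⟨X, hX, rfl⟩ ⟨Y, hY, rfl⟩
    refine ⟨X + Y, by rw [trace_add, hX, hY, add_zero], ?_⟩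
    funext σ
    show (act r 0 (σ : GQ) X - X) + (act r 0 (σ : GQ) Y - Y) = act r 0 (σ : GQ) (X + Y) - (X + Y)
    rw [map_add]
    abel
  neg_mem' := by
    rintro a ⟨X, hX, rfl⟩
    refine ⟨-X, by rw [trace_neg, hX, neg_zero], ?_⟩
    funext σ
    show -(act r 0 (σ : GQ) X - X) = act r 0 (σ : GQ) (-X) - (-X)
    rw [map_neg]
    abel

lemma mem_cobD {D : Subgroup GQ} {c : D → M2 k} :
    c ∈ cobD r D ↔ ∃ X : M2 k, X.trace = 0 ∧ c = cob r D.subtype 0 X := Iff.rfl

instance finite_cobD [Finite k] (r : GQ →* M2 k) (D : Subgroup GQ) : Finite (cobD r D) := by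
  have h : ((cobD r D : AddSubgroup (D → M2 k)) : Set (D → M2 k)) ⊆
      Set.range (fun X : M2 k => cob r D.subtype 0 X) := by
    rintro c ⟨X, -, rfl⟩
    exact ⟨X, rfl⟩
  exact ((Set.finite_range _).subset h).to_subtype

/-- **Taylor-Wiles primes for Selmer groups strict at `T1`.** The same primes serve for all local
conditions `P` at `Smin`. -/
theorem exists_twPrimes_rel [Finite k] [CharP k p] (hp : p.Prime) (hp2 : p ≠ 2)
    (hlev : IsFiniteLevel r) (hdet : CycDet p r)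
    (hTWe : TWElements p r) (hTWd : TWDetect p r) (hGW : GWad p r)
    (Smin T1 : Finset ℕ) (hpS : p ∈ Smin) (hdisj0 : Disjoint Smin T1)
    (hSp : ∀ q ∈ Smin, q.Prime) (hT1p : ∀ q ∈ T1, q.Prime)
    (hrT : UnramOutside Smin (fun σ => r σ - 1)) (hfin : (dualSet r (Smin ∪ T1)).Finite)
    (A0 : ℕ → ValuationSubring (AlgebraicClosure ℚ)) (hA0 : ∀ v ∈ T1, (A0 v).LiesOverPrime v)
    (e : ℕ → ℕ) (he : ∀ v ∈ T1, e v ≤ 3)
    (hcob : ∀ v ∈ T1, Nat.card (cobD r ((A0 v).decompositionSubgroup ℚ)) ≤ Nat.card k ^ e v)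
    (hcard0 : Nat.card k ^ 3 ≤ Nat.card (cobound (r : GQ → M2 k))) :
    ∃ m : ℕ, ∀ (S : Finset ℕ) (N : ℕ), Smin ∪ T1 ⊆ S → N ≠ 0 →
      ∃ qv : Fin m → ℕ, Function.Injective qv ∧
      (∀ i, IsTWPrime p N r (qv i) ∧ qv i ∉ S) ∧
      ∀ (P : ℕ → Z1 r (MonoidHom.id GQ) 0 → Prop) (dp : ℕ),
      (∀ q ∈ Smin, ∀ A : ValuationSubring (AlgebraicClosure ℚ), A.LiesOverPrime q →
        LocalBound r (A.decompositionSubgroup ℚ) (P q) (if q = p then dp else 3)) →
      ∑ v ∈ T1, (3 - e v) + 4 ≤ m + dp ∧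
      ∃ Z : AddSubgroup (GQ → M2 k), Finite Z ∧
        Nat.card Z ≤ Nat.card k ^ ((m + dp - 4 - ∑ v ∈ T1, (3 - e v)) + 3) ∧
        cobound (r : GQ → M2 k) ≤ Z ∧
        ∀ c : Z1 r (MonoidHom.id GQ) 0,
          UnramOutside ((Smin ∪ T1) ∪ Finset.univ.image qv) c.1 →
          (∀ q ∈ Smin, P q c) →
          (∀ v ∈ T1, (fun σ : (A0 v).decompositionSubgroup ℚ => c.1 σ) ∈
            cobD r ((A0 v).decompositionSubgroup ℚ)) → c.1 ∈ Z := by
  classical
  have h2k : (2 : k) ≠ 0 := by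
    intro h
    have h1 : ((2 : ℕ) : k) = 0 := by exact_mod_cast h
    rw [CharP.cast_eq_zero_iff k p] at h1
    exact hp2 ((Nat.prime_dvd_prime_iff_eq hp Nat.prime_two).1 h1)
  set T := Smin ∪ T1 with hTdef
  set δ := ∑ v ∈ T1, (3 - e v) with hδ
  have hpT : p ∈ T := Finset.mem_union_left _ hpS
  have hT : ∀ q ∈ T, q.Prime := by
    intro q hq
    rcases Finset.mem_union.1 hq with hq | hq
    · exact hSp q hq
    · exact hT1p q hq
  have hrT' : UnramOutside T (fun σ => r σ - 1) := fun q hq hqT =>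
    hrT q hq fun h => hqT (Finset.mem_union_left _ h)
  obtain ⟨m, hm⟩ := exists_twPrimes' hp hlev hTWe hTWd T hpT hrT' hfin
  refine ⟨m, fun S N hTS hN => ?_⟩
  obtain ⟨qv, h1, h2, h3⟩ := hm S N hTS
  refine ⟨qv, h1, h2, fun P dp hP => ?_⟩
  set Q := Finset.univ.image qv with hQdef
  have hQcard : Q.card = m := by
    rw [hQdef, Finset.card_image_of_injective _ h1, Finset.card_univ, Fintype.card_fin]
  have hQprop : ∀ q ∈ Q, IsTWPrime p N r q ∧ q ∉ S := by
    intro q hq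
    obtain ⟨i, -, rfl⟩ := Finset.mem_image.1 hq
    exact h2 i
  have hdisj : Disjoint T Q := by
    rw [Finset.disjoint_left]
    exact fun q hqT hqQ => (hQprop q hqQ).2 (hTS hqT)
  have hprime : ∀ q ∈ T ∪ Q, q.Prime := by
    intro q hq
    rcases Finset.mem_union.1 hq with hq | hq
    · exact hT q hq
    · exact (hQprop q hq).1.prime
  have hchA : ∀ q : ℕ, ∃ A : ValuationSubring (AlgebraicClosure ℚ),
      (q ∈ T ∪ Q → A.LiesOverPrime q) ∧ (q ∈ T1 → A = A0 q) := by
    intro q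
    by_cases hq0 : q ∈ T1
    · exact ⟨A0 q, fun _ => hA0 q hq0, fun _ => rfl⟩
    · by_cases hq : q ∈ T ∪ Q
      · obtain ⟨A, hA⟩ := Frob.exists_liesOverPrime q (hprime q hq)
        exact ⟨A, fun _ => hA, fun h => absurd h hq0⟩
      · exact ⟨A0 q, fun h => absurd h hq, fun _ => rfl⟩
  choose A hA hAT1 using hchA
  have hloc : ∀ q : ℕ, ∃ Λ : AddSubgroup ((A q).decompositionSubgroup ℚ → M2 k), q ∈ T →
      (Finite Λ ∧ Nat.card Λ ≤ Nat.card k ^ (if q ∈ T1 then e q else if q = p then dp else 3) ∧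
      (∀ c ∈ Λ, c ∈ Z1 r ((A q).decompositionSubgroup ℚ).subtype 0) ∧
      (∀ X : M2 k, X.trace = 0 → cob r ((A q).decompositionSubgroup ℚ).subtype 0 X ∈ Λ) ∧
      ∀ c : Z1 r (MonoidHom.id GQ) 0, (q ∈ Smin → P q c) →
        (q ∈ T1 → (fun σ : (A0 q).decompositionSubgroup ℚ => c.1 σ) ∈
          cobD r ((A0 q).decompositionSubgroup ℚ)) →
        (fun σ : (A q).decompositionSubgroup ℚ => c.1 σ) ∈ Λ) := by
    intro q
    by_cases hq0 : q ∈ T1
    · refine ⟨cobD r ((A q).decompositionSubgroup ℚ), fun _ => ⟨inferInstance, ?_, ?_, ?_, ?_⟩⟩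
      · rw [if_pos hq0, hAT1 q hq0]
        exact hcob q hq0
      · rintro c ⟨X, hX, rfl⟩
        exact cob_mem_Z1 _ hlev 0 hX
      · intro X hX
        exact ⟨X, hX, rfl⟩
      · intro c _ h4
        rw [hAT1 q hq0]
        exact h4 hq0
    · by_cases hq : q ∈ Smin
      · obtain ⟨Λ, h4, h5, h6, h7, h8⟩ := hP q hq (A q)
          (hA q (Finset.mem_union_left _ (Finset.mem_union_left _ hq)))
        refine ⟨Λ, fun _ => ⟨h4, ?_, h6, h7, fun c hc _ => h8 c (hc hq)⟩⟩
        rw [if_neg hq0]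
        exact h5
      · refine ⟨⊥, fun h => ?_⟩
        rcases Finset.mem_union.1 h with h | h
        · exact absurd h hq
        · exact absurd h hq0
  choose Λ hΛ using hloc
  have hsum : ∑ q ∈ T, (if q ∈ T1 then e q else if q = p then dp else 3) + 3 =
      3 * Smin.card + dp + ∑ q ∈ T1, e q := by
    rw [hTdef, Finset.sum_union hdisj0]
    have h4 : ∑ q ∈ T1, (if q ∈ T1 then e q else if q = p then dp else 3) = ∑ q ∈ T1, e q :=
      Finset.sum_congr rfl fun q hq => by rw [if_pos hq]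
    have h5 : ∑ q ∈ Smin, (if q ∈ T1 then e q else if q = p then dp else 3) + 3 =
        3 * Smin.card + dp := by
      have h6 : ∑ q ∈ Smin, (if q ∈ T1 then e q else if q = p then dp else 3) =
          ∑ q ∈ Smin, (if q = p then dp else 3) := by
        refine Finset.sum_congr rfl fun q hq => ?_
        rw [if_neg fun h => Finset.disjoint_left.mp hdisj0 hq h]
      rw [h6, ← Finset.add_sum_erase Smin _ hpS, if_pos rfl]
      have h7 : ∑ q ∈ Smin.erase p, (if q = p then dp else 3) = 3 * (Smin.card - 1) := by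
        rw [Finset.sum_congr rfl fun q hq => if_neg (Finset.mem_erase.mp hq).1,
          Finset.sum_const, Finset.card_erase_of_mem hpS, smul_eq_mul, mul_comm]
      rw [h7]
      have h8 : 0 < Smin.card := Finset.card_pos.mpr ⟨p, hpS⟩
      omega
    rw [h4]
    omega
  have hTcard : T.card = Smin.card + T1.card := by
    rw [hTdef, Finset.card_union_of_disjoint hdisj0]
  have hδ' : δ + ∑ q ∈ T1, e q = 3 * T1.card := by
    rw [hδ, ← Finset.sum_add_distrib, Finset.sum_congr rfl fun q hq =>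
      Nat.sub_add_cancel (he q hq), Finset.sum_const, smul_eq_mul, mul_comm]
  obtain ⟨h5, h6⟩ := card_allowed_le hGW T Q A Λ
    (fun q => if q ∈ T1 then e q else if q = p then dp else 3) hprime hdisj
    hpT (fun q hq => hA q hq) hrT' (fun q hq => (hΛ q hq).1) (fun q hq => (hΛ q hq).2.1)
    (fun q hq => (hΛ q hq).2.2.1) (fun q hq => (hΛ q hq).2.2.2.1)
    (h3 A fun q hq => hA q (Finset.mem_union_right _ hq))
    (fun q hq => card_h0_le hp hp2 hdet hN (hQprop q hq).1
      (fun h => (hQprop q hq).2 (hTS (h ▸ hpT))) (hA q (Finset.mem_union_right _ hq)))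
    (n := m + dp - 1 - δ) (by rw [hQcard, hTcard]; omega)
  have hZb : cobound (r : GQ → M2 k) ≤
      allowed r T Q (fun q => (A q).decompositionSubgroup ℚ) Λ :=
    cobound_le_allowed h2k hlev (fun q hq hqS => hrT' q hq fun h =>
      hqS (Finset.mem_union_left _ h)) (fun q hq => (hΛ q hq).2.2.2.1)
  have hm3 : δ + 4 ≤ m + dp := by
    have h4 : Nat.card (cobound (r : GQ → M2 k)) ≤
        Nat.card (allowed r T Q (fun q => (A q).decompositionSubgroup ℚ) Λ) :=
      Nat.card_le_card_of_injective (AddSubgroup.inclusion hZb)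
        (AddSubgroup.inclusion_injective hZb)
    have h5 := (hcard0.trans h4).trans h6
    have hk : 1 < Nat.card k := Finite.one_lt_card
    have h6 := (Nat.pow_le_pow_iff_right hk).mp h5
    omega
  refine ⟨hm3, allowed r T Q (fun q => (A q).decompositionSubgroup ℚ) Λ, h5, ?_, hZb, ?_⟩
  · have h7 : (m + dp - 4 - δ) + 3 = m + dp - 1 - δ := by omega
    rw [h7]
    exact h6
  · intro c hc1 hc2 hc3
    rw [mem_allowed]
    exact ⟨c.2, hc1, fun q hq => (hΛ q hq).2.2.2.2 c (hc2 q) (hc3 q)⟩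

end Fermat.Agent.RTD
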