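import Fermat.Agent.RTD.TWLocal
import Fermat.Agent.LocRing.LocT

set_option autoImplicit false

/-!
# The residual setup for patching at `T = T₀ ∪ V`
-/

namespace Fermat.Agent.RTD

open Matrix IsLocalRing GaloisRep Polynomial
open scoped Pointwise
open Fermat.Agent.S53norm (GQ M2 HasMat MemI exists_hasMat_adic exists_hasMat_res isEquiv_of_hasMat)
open Fermat.Agent.TW

/-- The residual setup. `Smin` contains `p` and the primes where `ρbar` is ramified (and primes with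
a small local count); `T₀` and `V` are finite sets of primes not in `Smin` with scalar, resp.
non-scalar Frobenius. -/
structure Setup (𝒪 : Type) [CommRing 𝒪] [IsDomain 𝒪] [IsDiscreteValuationRing 𝒪] (p : ℕ) where
  ρbar : ResidualGaloisRep (ResidueField 𝒪)
  rb : GQ →* M2 (ResidueField 𝒪)
  hrb : HasMat (ρbar.ρ : GQ → _) rb
  hlev : IsFiniteLevel rb
  hp : p.Prime
  hp2 : p ≠ 2
  hp𝒪 : (p : 𝒪) ∈ maximalIdeal 𝒪
  habs : ρbar.IsAbsolutelyIrreducible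
  hcyc : CycDet p rb
  hsplit : ∀ σ, ∃ α β : ResidueField 𝒪, (rb σ).charpoly = (X - C α) * (X - C β)
  Smin : Finset ℕ
  T₀ : Finset ℕ
  V : Finset ℕ
  hpS : p ∈ Smin
  disj : Disjoint Smin (T₀ ∪ V)
  disj' : Disjoint T₀ V
  prime : ∀ q ∈ Smin ∪ (T₀ ∪ V), q.Prime
  bound : ∀ q ∈ Smin, q ≠ p → ∀ A : ValuationSubring (AlgebraicClosure ℚ), A.LiesOverPrime q →
    LocalBound rb (A.decompositionSubgroup ℚ)
      (fun c => (defAdic hlev c).IsUnipotentOnInertiaAt q) 3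
  unr : ∀ q : ℕ, q.Prime → q ∉ Smin → ρbar.IsUnramifiedAt q
  ε : ℕ → 𝒪
  hε : ∀ v, ε v ^ 2 = 1
  A : ℕ → ValuationSubring (AlgebraicClosure ℚ)
  hA : ∀ v ∈ T₀ ∪ V, (A v).LiesOverPrime v
  φ : ℕ → GQ
  hφ : ∀ v ∈ T₀ ∪ V, (A v).IsFrobeniusAt (φ v) v
  σ : ℕ → GQ
  hσ : ∀ v ∈ T₀ ∪ V, IsTameGen (A v) p v (σ v)
  noLine : NoLine rb
  hT₀ : ∀ v ∈ T₀, rb (φ v) = Matrix.scalar (Fin 2) (residue 𝒪 (ε v))
  hV : ∀ v ∈ V, ¬ ∃ a : ResidueField 𝒪, rb (φ v) = Matrix.scalar (Fin 2) a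

namespace Setup

variable {𝒪 : Type} [CommRing 𝒪] [IsDomain 𝒪] [IsDiscreteValuationRing 𝒪] {p : ℕ}
  (𝓢 : Setup 𝒪 p)

/-- All bad primes. -/
def Sg : Finset ℕ := 𝓢.Smin ∪ (𝓢.T₀ ∪ 𝓢.V)

include 𝓢 in
lemma fact : Fact p.Prime := ⟨𝓢.hp⟩

lemma prime_T {v : ℕ} (hv : v ∈ 𝓢.T₀ ∪ 𝓢.V) : v.Prime := 𝓢.prime v (Finset.mem_union_right _ hv)

lemma prime_Smin {v : ℕ} (hv : v ∈ 𝓢.Smin) : v.Prime := 𝓢.prime v (Finset.mem_union_left _ hv)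

lemma ne_p {v : ℕ} (hv : v ∈ 𝓢.T₀ ∪ 𝓢.V) : v ≠ p := fun h =>
  Finset.disjoint_left.mp 𝓢.disj (h ▸ 𝓢.hpS) hv

lemma notMem_Smin {v : ℕ} (hv : v ∈ 𝓢.T₀ ∪ 𝓢.V) : v ∉ 𝓢.Smin := fun h =>
  Finset.disjoint_left.mp 𝓢.disj h hv

include 𝓢 in
lemma charP : CharP (ResidueField 𝒪) p := by
  have hpk : (p : ResidueField 𝒪) = 0 := by
    have h1 := (residue_eq_zero_iff (R := 𝒪) (p : 𝒪)).2 𝓢.hp𝒪
    rwa [map_natCast] at h1
  exact Frob.charP_of_prime_natCast_eq_zero 𝓢.hp hpk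

lemma unrT : UnramOutside 𝓢.Smin (fun σ => 𝓢.rb σ - 1) := by
  intro q hq hqS A hA σ hσ
  have h := 𝓢.unr q hq hqS A hA σ hσ
  obtain ⟨e, he⟩ := 𝓢.hrb
  rw [sub_eq_zero]
  refine Fermat.Agent.S53norm.mat_ext fun v => ?_
  have h1 := he σ (e.symm v)
  rw [h, Module.End.one_apply, LinearEquiv.apply_symm_apply] at h1
  rw [← h1, Matrix.one_mulVec]

/-- Inertia acts trivially outside `Smin`. -/
lemma rb_inertia {q : ℕ} (hq : q.Prime) (hqS : q ∉ 𝓢.Smin)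
    {A : ValuationSubring (AlgebraicClosure ℚ)} (hA : A.LiesOverPrime q)
    {σ : GQ} (hσ : σ ∈ A.inertiaSubgroupIn ℚ) : 𝓢.rb σ = 1 :=
  sub_eq_zero.mp (𝓢.unrT q hq hqS A hA σ hσ)

/-- Decomposition groups outside `Smin` act through the powers of Frobenius. -/
lemma rb_decomp {q : ℕ} (hq : q.Prime) (hqS : q ∉ 𝓢.Smin)
    {A : ValuationSubring (AlgebraicClosure ℚ)} (hA : A.LiesOverPrime q)
    {φ : GQ} (hφ : A.IsFrobeniusAt φ q) {σ : GQ} (hσ : σ ∈ A.decompositionSubgroup ℚ) :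
    ∃ n : ℕ, 𝓢.rb σ = 𝓢.rb φ ^ n := by
  obtain ⟨L, hL, h⟩ := 𝓢.hlev
  obtain ⟨F, hLF, hfd, hgal⟩ := exists_galois_ge L
  obtain ⟨n, τ, hτ, h1⟩ := exists_frob_pow_mul_inertia hq hA hφ F hσ
  refine ⟨n, ?_⟩
  have h2 : 𝓢.rb ((φ ^ n * τ)⁻¹ * σ) = 1 := by
    refine h _ fun x hx => ?_
    show (φ ^ n * τ).symm (σ x) = x
    rw [h1 x (hLF hx), AlgEquiv.symm_apply_apply]
  have h3 : 𝓢.rb σ = 𝓢.rb (φ ^ n * τ) := by
    calc 𝓢.rb σ = 𝓢.rb ((φ ^ n * τ) * ((φ ^ n * τ)⁻¹ * σ)) := by rw [mul_inv_cancel_left]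
      _ = _ := by rw [map_mul, h2, mul_one]
  rw [h3, map_mul, map_pow, 𝓢.rb_inertia hq hqS hA hτ, mul_one]

lemma det_rb_φ {v : ℕ} (hv : v ∈ 𝓢.T₀ ∪ 𝓢.V) : (𝓢.rb (𝓢.φ v)).det = (v : ResidueField 𝒪) :=
  𝓢.hcyc (𝓢.φ v) v fun _ hμ => GalRep.frobenius_rootOfUnity (𝓢.hA v hv)
    ((Nat.coprime_primes (𝓢.prime_T hv) 𝓢.hp).2 (𝓢.ne_p hv)) 𝓢.hp.ne_zero (𝓢.hφ v hv) hμ

lemma T₀_sub_one_mem {v : ℕ} (hv : v ∈ 𝓢.T₀) : (v : 𝒪) - 1 ∈ maximalIdeal 𝒪 := by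
  have h1 := 𝓢.det_rb_φ (Finset.mem_union_left _ hv)
  rw [𝓢.hT₀ v hv] at h1
  have h2 : (Matrix.scalar (Fin 2) (residue 𝒪 (𝓢.ε v))).det = 1 := by
    rw [Matrix.det_fin_two]
    have h3 : residue 𝒪 (𝓢.ε v) * residue 𝒪 (𝓢.ε v) = 1 := by
      rw [← map_mul, ← pow_two, 𝓢.hε v, map_one]
    simpa using h3
  rw [h2] at h1
  rw [← residue_eq_zero_iff, map_sub, map_one, map_natCast, ← h1, sub_self]

include 𝓢 in
lemma isUnit_natCast {v : ℕ} (hv : v.Prime) (hvp : v ≠ p) : IsUnit (v : 𝒪) := by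
  by_contra h
  have h1 : (v : 𝒪) ∈ maximalIdeal 𝒪 := h
  have h2 : IsCoprime (v : ℤ) (p : ℤ) :=
    Nat.isCoprime_iff_coprime.mpr ((Nat.coprime_primes hv 𝓢.hp).mpr hvp)
  obtain ⟨x, y, hxy⟩ := h2
  have h3 := congrArg (fun z : ℤ => (z : 𝒪)) hxy
  push_cast at h3
  have h4 : (1 : 𝒪) ∈ maximalIdeal 𝒪 := by
    rw [← h3]
    exact Ideal.add_mem _ (Ideal.mul_mem_left _ _ h1) (Ideal.mul_mem_left _ _ 𝓢.hp𝒪)
  exact (Ideal.ne_top_iff_one _).mp (maximalIdeal.isMaximal 𝒪).ne_top h4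

/-- A lift of the trace of Frobenius. -/
noncomputable def tb (v : ℕ) : 𝒪 := (residue_surjective (R := 𝒪) (𝓢.rb (𝓢.φ v)).trace).choose

lemma residue_tb (v : ℕ) : residue 𝒪 (𝓢.tb v) = (𝓢.rb (𝓢.φ v)).trace :=
  (residue_surjective (R := 𝒪) (𝓢.rb (𝓢.φ v)).trace).choose_spec

/-- The local data. -/
noncomputable def locData :
    Fermat.Agent.LocRing.LocData 𝒪 {v // v ∈ 𝓢.T₀} {v // v ∈ 𝓢.V} where
  q₀ := fun v => v.1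
  q₁ := fun v => v.1
  ε := fun v => 𝓢.ε v.1
  tb := fun v => 𝓢.tb v.1
  h2 := by
    have := 𝓢.isUnit_natCast Nat.prime_two (Ne.symm 𝓢.hp2)
    exact_mod_cast this
  hq := fun v => 𝓢.T₀_sub_one_mem v.2
  hε := fun v => 𝓢.hε v.1
  hq₀ := fun v => (𝓢.prime_T (Finset.mem_union_left _ v.2)).two_le
  hq₁ := fun v => 𝓢.isUnit_natCast (𝓢.prime_T (Finset.mem_union_right _ v.2))
    (𝓢.ne_p (Finset.mem_union_right _ v.2))

lemma card_cobD_T₀ [Finite (ResidueField 𝒪)] {v : ℕ} (hv : v ∈ 𝓢.T₀) :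
    Nat.card (cobD 𝓢.rb ((𝓢.A v).decompositionSubgroup ℚ)) ≤ Nat.card (ResidueField 𝒪) ^ 0 := by
  refine card_cobD_of_scalar fun σ hσ => ?_
  have hv' := Finset.mem_union_left 𝓢.V hv
  obtain ⟨n, hn⟩ := 𝓢.rb_decomp (𝓢.prime_T hv') (𝓢.notMem_Smin hv') (𝓢.hA v hv') (𝓢.hφ v hv') hσ
  exact ⟨residue 𝒪 (𝓢.ε v) ^ n, by rw [hn, 𝓢.hT₀ v hv, map_pow]⟩

/-- The decomposition group at `v ∈ T₀` acts by scalars. -/
lemma scalar_T₀ {v : ℕ} (hv : v ∈ 𝓢.T₀) {σ : GQ} (hσ : σ ∈ (𝓢.A v).decompositionSubgroup ℚ) :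
    ∃ a : ResidueField 𝒪, 𝓢.rb σ = Matrix.scalar (Fin 2) a := by
  have hv' := Finset.mem_union_left 𝓢.V hv
  obtain ⟨n, hn⟩ := 𝓢.rb_decomp (𝓢.prime_T hv') (𝓢.notMem_Smin hv') (𝓢.hA v hv') (𝓢.hφ v hv') hσ
  exact ⟨residue 𝒪 (𝓢.ε v) ^ n, by rw [hn, 𝓢.hT₀ v hv, map_pow]⟩

lemma card_cobD_V [Finite (ResidueField 𝒪)] {v : ℕ} (hv : v ∈ 𝓢.V) :
    Nat.card (cobD 𝓢.rb ((𝓢.A v).decompositionSubgroup ℚ)) ≤ Nat.card (ResidueField 𝒪) ^ 2 := by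
  have hv' := Finset.mem_union_right 𝓢.T₀ hv
  have h2k : (2 : ResidueField 𝒪) ≠ 0 := by
    have h := 𝓢.locData.h2
    intro h0
    have h1 : residue 𝒪 (2 : 𝒪) = 0 := by rw [map_ofNat, h0]
    rw [residue_eq_zero_iff] at h1
    exact h1 h
  set F := 𝓢.rb (𝓢.φ v) with hF
  let W : M2 (ResidueField 𝒪) := F - Matrix.scalar (Fin 2) (F.trace / 2)
  refine card_cobD_of_fixed (W := W) ?_ ?_ ?_
  · intro h
    exact 𝓢.hV v hv ⟨F.trace / 2, sub_eq_zero.mp h⟩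
  · rw [Matrix.trace_sub, Matrix.trace_fin_two (Matrix.scalar (Fin 2) (F.trace / 2))]
    simp only [Matrix.scalar_apply, Matrix.diagonal_apply_eq]
    field_simp
    ring
  · intro σ hσ
    obtain ⟨n, hn⟩ := 𝓢.rb_decomp (𝓢.prime_T hv') (𝓢.notMem_Smin hv') (𝓢.hA v hv')
      (𝓢.hφ v hv') hσ
    rw [act_zero_apply]
    have hcomm : Commute (𝓢.rb σ) W := by
      rw [hn]
      refine Commute.sub_right ((Commute.refl F).pow_left n) ?_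
      exact (Matrix.scalar_commute _ (fun r' => Commute.all _ _) (F ^ n)).symm
    rw [hcomm.eq, mul_assoc, r_mul_inv, mul_one]

end Setup

end Fermat.Agent.RTD
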